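import Fermat.Agent.MU.S56.W4.Defs
import Fermat.Agent.MU.S56.W3.TW.Gen

section MergeWrap_S56_W4_Count -- from S56/W4/Count.lean

set_option autoImplicit false

namespace Fermat.Agent.S56.W4.CountN

open Fermat.Agent.F4 ExtCitation Fermat.Agent.S56.SO Fermat.Agent.S56.W4

/-! ### Entries of a cocycle -/

section Entries

variable {k : Type} [Field k] {p : ℕ} [Fact p.Prime] {ρbar : ResidualGaloisRep k}
  (w : Module.Basis (Fin 2) k ρbar.V)

theorem fl_mat_sub (a b : Module.End k ρbar.V) (i j : Fin 2) :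
    mat w (a - b) i j = mat w a i j - mat w b i j := by
  rw [mat, map_sub, Matrix.sub_apply]

theorem fl_mat_add (a b : Module.End k ρbar.V) (i j : Fin 2) :
    mat w (a + b) i j = mat w a i j + mat w b i j := by
  rw [mat, map_add, Matrix.add_apply]

/-- The entry `(i, j)` of the value at `γ` of a local cocycle. -/
noncomputable def entryFl (γ : Gp p) (i j : Fin 2) :
    ↥(Z1 (locLevelsAll (pPrime p)) (Mloc p ρbar)) →+ k where
  toFun c := mat w (toEnd ρbar ((c : Gp p → Mloc p ρbar) γ)) i j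
  map_zero' := by
    show mat w (toEnd ρbar (((0 : ↥(Z1 (locLevelsAll (pPrime p)) (Mloc p ρbar))) :
      Gp p → Mloc p ρbar) γ)) i j = 0
    have : toEnd ρbar (((0 : ↥(Z1 (locLevelsAll (pPrime p)) (Mloc p ρbar))) :
        Gp p → Mloc p ρbar) γ) = 0 := (toEnd ρbar).map_zero
    rw [this, mat, map_zero]
    rfl
  map_add' c c' := by
    show mat w (toEnd ρbar (((c + c' : ↥(Z1 (locLevelsAll (pPrime p)) (Mloc p ρbar))) :
      Gp p → Mloc p ρbar) γ)) i j = _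
    have : toEnd ρbar (((c + c' : ↥(Z1 (locLevelsAll (pPrime p)) (Mloc p ρbar))) :
        Gp p → Mloc p ρbar) γ) =
        toEnd ρbar ((c : Gp p → Mloc p ρbar) γ) + toEnd ρbar ((c' : Gp p → Mloc p ρbar) γ) :=
      (toEnd ρbar).map_add ((c : Gp p → Mloc p ρbar) γ) ((c' : Gp p → Mloc p ρbar) γ)
    rw [this, fl_mat_add]

theorem entryFl_apply (γ : Gp p) (i j : Fin 2)
    (c : ↥(Z1 (locLevelsAll (pPrime p)) (Mloc p ρbar))) :
    entryFl w γ i j c = mat w (toEnd ρbar ((c : Gp p → Mloc p ρbar) γ)) i j := rfl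

variable {w}

theorem fl_isTri_locp (hw : FlTri ρbar.ρ (primeLocalPlace (pPrime p)) w) (γ : Gp p) :
    IsTri w (ρbar.ρ (locp p γ)) :=
  hw.dec _ (locp_mem_decomposition p γ)

/-- The value of a cocycle at a product. -/
theorem fl_toEnd_mul (c : ↥(Z1 (locLevelsAll (pPrime p)) (Mloc p ρbar))) (σ τ : Gp p) :
    toEnd ρbar ((c : Gp p → Mloc p ρbar) (σ * τ)) =
      ρbar.ρ (locp p σ) * toEnd ρbar ((c : Gp p → Mloc p ρbar) τ) * ρbar.ρ (locp p σ)⁻¹ +
        toEnd ρbar ((c : Gp p → Mloc p ρbar) σ) := by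
  have hco := (groupCohomology.mem_cocycles₁_iff (c : Gp p → Mloc p ρbar)).mp c.2.1 σ τ
  rw [hco, map_add, Mloc_ρ, toEnd_ρ]

/-- The diagonal entry of a triangular cocycle is additive. -/
theorem entryFl_diag_mul (hw : FlTri ρbar.ρ (primeLocalPlace (pPrime p)) w)
    (c : ↥(Z1 (locLevelsAll (pPrime p)) (Mloc p ρbar)))
    (hc : ∀ γ : Gp p, IsTri w (toEnd ρbar ((c : Gp p → Mloc p ρbar) γ))) (σ τ : Gp p) :
    entryFl w (σ * τ) 0 0 c = entryFl w σ 0 0 c + entryFl w τ 0 0 c := by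
  rw [entryFl_apply, entryFl_apply, entryFl_apply, fl_toEnd_mul, fl_mat_add]
  have h := tri_conj_sub_mem_W0 (fl_isTri_locp hw σ) (ρ_mul_inv ρbar _) (hc τ)
  have h0 := ((mem_W0_iff_mat w _).mp h).1
  rw [fl_mat_sub, sub_eq_zero] at h0
  rw [h0, add_comm]

theorem entryFl_diag_one (hw : FlTri ρbar.ρ (primeLocalPlace (pPrime p)) w)
    (c : ↥(Z1 (locLevelsAll (pPrime p)) (Mloc p ρbar)))
    (hc : ∀ γ : Gp p, IsTri w (toEnd ρbar ((c : Gp p → Mloc p ρbar) γ))) :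
    entryFl w (1 : Gp p) 0 0 c = 0 := by
  have h := entryFl_diag_mul hw c hc 1 1
  rw [mul_one] at h
  exact left_eq_add.mp h

theorem entryFl_diag_pow (hw : FlTri ρbar.ρ (primeLocalPlace (pPrime p)) w)
    (c : ↥(Z1 (locLevelsAll (pPrime p)) (Mloc p ρbar)))
    (hc : ∀ γ : Gp p, IsTri w (toEnd ρbar ((c : Gp p → Mloc p ρbar) γ))) (φ : Gp p) (n : ℕ) :
    entryFl w (φ ^ n) 0 0 c = n • entryFl w φ 0 0 c := by
  induction n with
  | zero => rw [pow_zero, zero_smul, entryFl_diag_one hw c hc]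
  | succ n ih => rw [pow_succ, entryFl_diag_mul hw c hc, ih, succ_nsmul]

/-- The diagonal entry is level-constant. -/
theorem entryFl_isLC (c : ↥(Z1 (locLevelsAll (pPrime p)) (Mloc p ρbar))) (i j : Fin 2) :
    IsLC₁ (locLevelsAll (pPrime p)) (fun γ => entryFl w γ i j c) := by
  have hlc : IsLC₁ (locLevelsAll (pPrime p)) (c : Gp p → Mloc p ρbar) := c.2.2
  exact hlc.comp (fun x => mat w (toEnd ρbar x) i j)

/-- **(1)** a diagonal character which is trivial on inertia and at the Frobenius lift is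
trivial. -/
theorem entryFl_diag_eq_zero (hw : FlTri ρbar.ρ (primeLocalPlace (pPrime p)) w)
    (c : ↥(Z1 (locLevelsAll (pPrime p)) (Mloc p ρbar)))
    (hc : ∀ γ : Gp p, IsTri w (toEnd ρbar ((c : Gp p → Mloc p ρbar) γ)))
    (hI : ∀ γ ∈ locInertia (pPrime p), entryFl w γ 0 0 c = 0)
    (φ : Gp p)
    (hgen : ∀ U ∈ Fermat.Agent.F4.levelsAll.sets, ∀ g : Gp p,
        ∃ (n : ℕ) (τ : Gp p),
          locp p τ ∈ (primeLocalPlace (pPrime p)).inertiaSubgroupIn ℚ ∧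
          locp p (g⁻¹ * (φ ^ n * τ)) ∈ U)
    (hφ : entryFl w φ 0 0 c = 0) (g : Gp p) : entryFl w g 0 0 c = 0 := by
  obtain ⟨U, ⟨U₀, hU₀, rfl⟩, hlc⟩ := entryFl_isLC (w := w) c 0 0
  obtain ⟨n, τ, hτ, hmem⟩ := hgen U₀ hU₀ g
  have h1 : entryFl w (g * (g⁻¹ * (φ ^ n * τ))) 0 0 c = entryFl w g 0 0 c :=
    hlc g (g⁻¹ * (φ ^ n * τ)) hmem
  rw [mul_inv_cancel_left] at h1
  rw [← h1, entryFl_diag_mul hw c hc, entryFl_diag_pow hw c hc, hφ, smul_zero, zero_add]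
  exact hI τ hτ

/-- A triangular trace zero endomorphism with vanishing upper left entry is in `W0 w`. -/
theorem fl_mem_W0_of_diag (x : ad0 ρbar) (htri : IsTri w (toEnd ρbar x))
    (h0 : mat w (toEnd ρbar x) 0 0 = 0) : toEnd ρbar x ∈ W0 w := by
  refine (mem_W0_iff_mat w _).mpr ⟨h0, (isTri_iff w _).mp htri, ?_⟩
  have htr := trace_toEnd ρbar x
  rw [LinearMap.trace_eq_matrix_trace k w, ← mat, Matrix.trace_fin_two, h0, zero_add] at htr
  exact htr

end Entries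

/-! ### The kernel of the diagonal character embeds into the peu ramifiés twisted cocycles -/

section Kernel

variable {k : Type} [Field k] {p : ℕ} [Fact p.Prime] {ρbar : ResidualGaloisRep k}
  {w : Module.Basis (Fin 2) k ρbar.V}

/-- The upper right entry of a `W0 w`-valued cocycle is a twisted cocycle. -/
theorem coordFl_mem_twZ (hw : FlTri ρbar.ρ (primeLocalPlace (pPrime p)) w)
    (c : ↥(Z1 (locLevelsAll (pPrime p)) (Mloc p ρbar)))
    (hc : ∀ γ : Gp p, toEnd ρbar ((c : Gp p → Mloc p ρbar) γ) ∈ W0 w) :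
    coordFl p ρbar w c ∈ twZ p (omegaW p ρbar w) := by
  refine ⟨entryFl_isLC (w := w) c 0 1, fun σ τ => ?_⟩
  have hW := tri_conj_W0 (fl_isTri_locp hw σ) (ρ_mul_inv ρbar _) (hc τ)
  show mat w (toEnd ρbar ((c : Gp p → Mloc p ρbar) (σ * τ))) 0 1 = _
  rw [fl_toEnd_mul, fl_mat_add, hW.2, add_comm]
  rfl

theorem coordFl_eq_imp (c c' : ↥(Z1 (locLevelsAll (pPrime p)) (Mloc p ρbar)))
    (hc : ∀ γ : Gp p, toEnd ρbar ((c : Gp p → Mloc p ρbar) γ) ∈ W0 w)
    (hc' : ∀ γ : Gp p, toEnd ρbar ((c' : Gp p → Mloc p ρbar) γ) ∈ W0 w)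
    (h : coordFl p ρbar w c = coordFl p ρbar w c') : c = c' := by
  apply Subtype.ext
  funext γ
  apply toEnd_injective ρbar
  have hγ := congrFun h γ
  have hsub : toEnd ρbar ((c : Gp p → Mloc p ρbar) γ) -
      toEnd ρbar ((c' : Gp p → Mloc p ρbar) γ) = 0 := by
    apply W0_eq_zero_of_entry w ((W0 w).sub_mem (hc γ) (hc' γ))
    rw [fl_mat_sub, sub_eq_zero]
    exact hγ
  exact sub_eq_zero.mp hsub

end Kernel

/-! ### Peu ramifié: the cyclotomic coboundaries -/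

section Peu

variable {k : Type} [Field k] {p : ℕ} [Fact p.Prime]

theorem isPeuLoc_congr_inertia {ζ : AlgebraicClosure ℚ} {f f' : Gp p → k}
    (hf : IsPeuLoc p ζ f) (h : ∀ γ ∈ locInertia (pPrime p), f' γ = f γ) : IsPeuLoc p ζ f' :=
  fun φ => by
    obtain ⟨a, ha, ha', ha0, h1⟩ := hf φ
    exact ⟨a, ha, ha', ha0, fun γ hγ => by rw [h γ hγ]; exact h1 γ hγ⟩

/-- `ζ ^ m = ζ ^ x.val` if `m` is a representative of `x`. -/
theorem zeta_pow_eq_pow_val {ζ : AlgebraicClosure ℚ} (hζ : ζ ^ p = 1) (m : ℕ) (x : ZMod p)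
    (h : (m : ZMod p) = x) : ζ ^ m = ζ ^ x.val := by
  have hp : p.Prime := Fact.out
  have : NeZero p := ⟨hp.ne_zero⟩
  rw [← h, ZMod.val_natCast, ← pow_eq_pow_mod _ hζ]

/-- The cyclotomic coboundaries are peu ramifiés (Kummer cocycles of roots of unity). -/
theorem isPeuLoc_cyc {ζ : AlgebraicClosure ℚ} (hζ : IsPrimitiveRoot ζ p) (b : k) :
    IsPeuLoc p ζ (fun γ => (((cycLoc p γ).val : k) - 1) * b) := fun φ => by
  have hp : p.Prime := Fact.out
  have : NeZero p := ⟨hp.ne_zero⟩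
  have hζ0 : ζ ≠ 0 := hζ.ne_zero hp.ne_zero
  have hint : IsIntegral ℤ ζ := by
    refine IsIntegral.of_pow hp.pos ?_
    rw [hζ.pow_eq_one]
    exact isIntegral_one
  have hinv : ζ⁻¹ = ζ ^ (p - 1) := by
    rw [inv_eq_iff_eq_inv, eq_comm, inv_eq_iff_eq_inv, ← mul_left_inj' hζ0, inv_mul_cancel₀ hζ0,
      ← pow_succ, Nat.sub_add_cancel hp.one_le, hζ.pow_eq_one]
  refine ⟨ζ ^ (φ b).val,
    Fermat.Agent.FrobExists.mem_valuationSubring_of_isIntegral _ (hint.pow _), ?_,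
    pow_ne_zero _ hζ0, fun γ _ => ?_⟩
  · rw [← inv_pow, hinv]
    exact Fermat.Agent.FrobExists.mem_valuationSubring_of_isIntegral _ ((hint.pow _).pow _)
  · rw [map_pow, cycLoc_spec p γ ζ hζ.pow_eq_one, ← pow_mul,
      ← zeta_pow_val_add hζ.pow_eq_one]
    apply zeta_pow_eq_pow_val hζ.pow_eq_one
    show (((cycLoc p γ).val * (φ b).val : ℕ) : ZMod p) =
      φ ((((cycLoc p γ).val : k) - 1) * b) + φ b
    have h1 : (((cycLoc p γ).val : k) - 1) * b = (cycLoc p γ).val • b - b := by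
      rw [nsmul_eq_mul]
      ring
    rw [h1, map_sub, map_nsmul, sub_add_cancel, Nat.cast_mul, nsmul_eq_mul]
    simp only [ZMod.natCast_zmod_val]

end Peu

/-! ### The coboundaries of the triangular trace-zero endomorphisms -/

section Cob

variable {k : Type} [Field k] {p : ℕ} [Fact p.Prime] {ρbar : ResidualGaloisRep k}
  {w : Module.Basis (Fin 2) k ρbar.V}

/-- The determinant of `ρbar` on the local group is the cyclotomic character. -/
theorem fl_det_eq (hpk : (p : k) = 0)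
    (hdet : (GaloisRepAdic.ofResidualGaloisRep ρbar).DetIsCyclotomic p) (γ : Gp p) :
    LinearMap.det (ρbar.ρ (locp p γ)) = ((cycLoc p γ).val : k) := by
  have h := hdet.2 1 (locp p γ) (cycLoc p γ).val
    (fun μ hμ => cycLoc_spec p γ μ (by rwa [pow_one] at hμ))
  rw [pow_one, hpk, Ideal.span_singleton_eq_bot.mpr rfl, Ideal.mem_bot, sub_eq_zero] at h
  exact h

/-- On inertia, the upper left entry of `ρbar` is the cyclotomic character and the lower right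
entry is `1`. -/
theorem fl_entries_inertia (hpk : (p : k) = 0)
    (hdet : (GaloisRepAdic.ofResidualGaloisRep ρbar).DetIsCyclotomic p)
    (hw : FlTri ρbar.ρ (primeLocalPlace (pPrime p)) w) {γ : Gp p}
    (hγ : γ ∈ locInertia (pPrime p)) :
    mat w (ρbar.ρ (locp p γ)) 1 1 = 1 ∧
      mat w (ρbar.ρ (locp p γ)) 0 0 = ((cycLoc p γ).val : k) := by
  have h11 : mat w (ρbar.ρ (locp p γ)) 1 1 = 1 := by
    rw [mat_apply]
    exact hw.inert _ hγ
  have h10 : mat w (ρbar.ρ (locp p γ)) 1 0 = 0 := (isTri_iff w _).mp (fl_isTri_locp hw γ)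
  refine ⟨h11, ?_⟩
  have hd := fl_det_eq hpk hdet γ
  rw [← LinearMap.det_toMatrix w, Matrix.det_fin_two, ← mat, h11, h10, mul_one, mul_zero,
    sub_zero] at hd
  exact hd

/-- The upper right entry of the coboundary of `[[a, b], [0, -a]]` on inertia. -/
theorem fl_cob_entry (hpk : (p : k) = 0)
    (hdet : (GaloisRepAdic.ofResidualGaloisRep ρbar).DetIsCyclotomic p)
    (hw : FlTri ρbar.ρ (primeLocalPlace (pPrime p)) w) (ab : k × k) {γ : Gp p}
    (hγ : γ ∈ locInertia (pPrime p)) :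
    mat w (ρbar.ρ (locp p γ) * triEnd w ab * ρbar.ρ (locp p γ)⁻¹ - triEnd w ab) 0 1 =
      (((cycLoc p γ).val : k) - 1) * ab.2 + (-2 * ab.1) * mat w (ρbar.ρ (locp p γ)) 0 1 := by
  obtain ⟨h11, h00⟩ := fl_entries_inertia hpk hdet hw hγ
  obtain ⟨e1, e2, e3, e4⟩ := tri_entries (fl_isTri_locp hw γ) (ρ_mul_inv ρbar (locp p γ))
  rw [h11, one_mul] at e1
  rw [e1, mul_one] at e4
  have hm := mat_triEnd w ab
  have m00 : mat w (triEnd w ab) 0 0 = ab.1 := by rw [hm]; rfl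
  have m01 : mat w (triEnd w ab) 0 1 = ab.2 := by rw [hm]; rfl
  have m10 : mat w (triEnd w ab) 1 0 = 0 := by rw [hm]; rfl
  have m11 : mat w (triEnd w ab) 1 1 = -ab.1 := by rw [hm]; rfl
  rw [fl_mat_sub, mat_mul, mat_mul, mul_apply_two, mul_apply_two, mul_apply_two, m00, m01, m10,
    m11, e1, ← h00]
  linear_combination ab.1 * e4

variable (w) in
/-- The coboundary of `triAd ab` as a local cocycle. -/
noncomputable def cobZ : k × k →+ ↥(Z1 (locLevelsAll (pPrime p)) (Mloc p ρbar)) where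
  toFun ab := ⟨δ0 (Mloc p ρbar) (triAd w ab),
      groupCohomology.d₀₁_apply_mem_cocycles₁ _, isLC₁_δ0 (isSmooth_Mloc p ρbar) _⟩
  map_zero' := by
    apply Subtype.ext
    show δ0 (Mloc p ρbar) (triAd w 0) = 0
    rw [map_zero, map_zero]
  map_add' _ _ := by
    apply Subtype.ext
    show δ0 (Mloc p ρbar) (triAd w (_ + _)) =
      δ0 (Mloc p ρbar) (triAd w _) + δ0 (Mloc p ρbar) (triAd w _)
    rw [map_add, map_add]

theorem cobZ_apply (ab : k × k) (γ : Gp p) :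
    ((cobZ w ab : ↥(Z1 (locLevelsAll (pPrime p)) (Mloc p ρbar))) : Gp p → Mloc p ρbar) γ =
      (ad0 ρbar).ρ (locp p γ) (triAd w ab) - triAd w ab := rfl

theorem toEnd_cobZ (ab : k × k) (γ : Gp p) :
    toEnd ρbar (((cobZ w ab : ↥(Z1 (locLevelsAll (pPrime p)) (Mloc p ρbar))) :
      Gp p → Mloc p ρbar) γ) =
      ρbar.ρ (locp p γ) * triEnd w ab * ρbar.ρ (locp p γ)⁻¹ - triEnd w ab := by
  rw [cobZ_apply, map_sub, toEnd_ρ, toEnd_triAd]

theorem toEnd_cobZ_mem_W0 (hw : FlTri ρbar.ρ (primeLocalPlace (pPrime p)) w) (ab : k × k)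
    (γ : Gp p) :
    toEnd ρbar (((cobZ w ab : ↥(Z1 (locLevelsAll (pPrime p)) (Mloc p ρbar))) :
      Gp p → Mloc p ρbar) γ) ∈ W0 w := by
  rw [toEnd_cobZ]
  exact tri_conj_sub_mem_W0 (fl_isTri_locp hw γ) (ρ_mul_inv ρbar _) (isTri_triEnd w ab)

/-- **(3)** the coboundaries of the triangular trace zero endomorphisms are in `Zfl`. -/
theorem cobZ_mem_Zfl (hpk : (p : k) = 0)
    (hdet : (GaloisRepAdic.ofResidualGaloisRep ρbar).DetIsCyclotomic p)
    (hw : FlTri ρbar.ρ (primeLocalPlace (pPrime p)) w)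
    (ζ : AlgebraicClosure ℚ) (hζ : IsPrimitiveRoot ζ p)
    (hb : IsPeuLoc p ζ (fun γ => mat w (ρbar.ρ (locp p γ)) 0 1)) (ab : k × k) :
    cobZ w ab ∈ Zfl p ρbar w ζ hζ.pow_eq_one := by
  refine ⟨fun γ => ?_, fun γ _ => toEnd_cobZ_mem_W0 hw ab γ, ?_⟩
  · rw [isTri_iff]
    exact ((mem_W0_iff_mat w _).mp (toEnd_cobZ_mem_W0 hw ab γ)).2.1
  · have h1 : IsPeuLoc p ζ ((fun γ => (((cycLoc p γ).val : k) - 1) * ab.2) +
        (fun γ => (AddMonoidHom.mulLeft (-2 * ab.1)) (mat w (ρbar.ρ (locp p γ)) 0 1))) :=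
      (isPeuLoc_cyc hζ ab.2).add hζ.pow_eq_one (hb.comp (AddMonoidHom.mulLeft (-2 * ab.1)))
    refine isPeuLoc_congr_inertia h1 fun γ hγ => ?_
    show mat w (toEnd ρbar (((cobZ w ab : ↥(Z1 (locLevelsAll (pPrime p)) (Mloc p ρbar))) :
      Gp p → Mloc p ρbar) γ)) 0 1 = _
    rw [toEnd_cobZ, fl_cob_entry hpk hdet hw ab hγ]
    rfl

/-- The coboundary map into `Zfl`. -/
noncomputable def cobFl (hpk : (p : k) = 0)
    (hdet : (GaloisRepAdic.ofResidualGaloisRep ρbar).DetIsCyclotomic p)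
    (hw : FlTri ρbar.ρ (primeLocalPlace (pPrime p)) w)
    (ζ : AlgebraicClosure ℚ) (hζ : IsPrimitiveRoot ζ p)
    (hb : IsPeuLoc p ζ (fun γ => mat w (ρbar.ρ (locp p γ)) 0 1)) :
    k × k →+ ↥(Zfl p ρbar w ζ hζ.pow_eq_one) :=
  (cobZ w).codRestrict (Zfl p ρbar w ζ hζ.pow_eq_one) (cobZ_mem_Zfl hpk hdet hw ζ hζ hb)

theorem range_cobFl_le_ker (hpk : (p : k) = 0)
    (hdet : (GaloisRepAdic.ofResidualGaloisRep ρbar).DetIsCyclotomic p)
    (hw : FlTri ρbar.ρ (primeLocalPlace (pPrime p)) w)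
    (ζ : AlgebraicClosure ℚ) (hζ : IsPrimitiveRoot ζ p)
    (hb : IsPeuLoc p ζ (fun γ => mat w (ρbar.ρ (locp p γ)) 0 1)) :
    (cobFl hpk hdet hw ζ hζ hb).range ≤ (classFl p ρbar w ζ hζ.pow_eq_one).ker := by
  rintro _ ⟨ab, rfl⟩
  rw [AddMonoidHom.mem_ker]
  show H1smπ (locLevelsAll (pPrime p)) (Mloc p ρbar) (cobZ w ab) = 0
  rw [H1smπ, Submodule.mkQ_apply, Submodule.Quotient.mk_eq_zero, Submodule.mem_comap]
  exact ⟨triAd w ab, rfl⟩

theorem card_ker_cobFl_le [Finite k] (hpk : (p : k) = 0)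
    (hdet : (GaloisRepAdic.ofResidualGaloisRep ρbar).DetIsCyclotomic p)
    (hw : FlTri ρbar.ρ (primeLocalPlace (pPrime p)) w)
    (ζ : AlgebraicClosure ℚ) (hζ : IsPrimitiveRoot ζ p)
    (hb : IsPeuLoc p ζ (fun γ => mat w (ρbar.ρ (locp p γ)) 0 1)) :
    Nat.card ↥(cobFl hpk hdet hw ζ hζ hb).ker ≤ Nat.card ↥(H0loc (ad0 ρbar) (pPrime p)) := by
  have : Finite (ad0 ρbar) := Module.finite_of_finite k (M := ↥(ad0Sub ρbar))
  let Ψ : ↥(cobFl hpk hdet hw ζ hζ hb).ker → ↥(H0loc (ad0 ρbar) (pPrime p)) := fun ab =>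
    ⟨triAd w ab.1, fun h => by
      have h1 : cobFl hpk hdet hw ζ hζ hb ab.1 = 0 := AddMonoidHom.mem_ker.mp ab.2
      have h1' : cobZ w ab.1 = (0 : ↥(Z1 (locLevelsAll (pPrime p)) (Mloc p ρbar))) :=
        congrArg Subtype.val h1
      have h2 := cobZ_apply (w := w) ab.1 h
      rw [h1'] at h2
      exact (sub_eq_zero.mp h2.symm)⟩
  have hΨ : Function.Injective Ψ := by
    intro ab ab' h
    exact Subtype.ext (triAd_injective w (congrArg Subtype.val h))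
  exact Nat.card_le_card_of_injective Ψ hΨ

end Cob

/-! ### The count of `Zfl` -/

section CountZ

variable {k : Type} [Field k] {p : ℕ} [Fact p.Prime] {ρbar : ResidualGaloisRep k}
  {w : Module.Basis (Fin 2) k ρbar.V}

/-- **(1) + (2)** `#Zfl ≤ |k|³`. -/
theorem card_Zfl_le [Finite k] (hw : FlTri ρbar.ρ (primeLocalPlace (pPrime p)) w)
    (ζ : AlgebraicClosure ℚ) (hζ : ζ ^ p = 1)
    (hcount : Finite ↥(twZpeu p ζ hζ (omegaW p ρbar w)) ∧
      Nat.card ↥(twZpeu p ζ hζ (omegaW p ρbar w)) ≤ Nat.card k ^ 2) :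
    Finite ↥(Zfl p ρbar w ζ hζ) ∧ Nat.card ↥(Zfl p ρbar w ζ hζ) ≤ Nat.card k ^ 3 := by
  obtain ⟨hfin, hcard⟩ := hcount
  obtain ⟨φ, -, hgen⟩ := Fermat.Agent.S56.TWGen.exists_frob_gen (pPrime p)
  -- the diagonal character at the Frobenius lift
  let D : ↥(Zfl p ρbar w ζ hζ) →+ k := (entryFl w φ 0 0).comp (Zfl p ρbar w ζ hζ).subtype
  -- the kernel is `W0`-valued
  have hker : ∀ c : ↥D.ker, ∀ γ : Gp p,
      toEnd ρbar ((((c : ↥(Zfl p ρbar w ζ hζ)) :
        ↥(Z1 (locLevelsAll (pPrime p)) (Mloc p ρbar))) : Gp p → Mloc p ρbar) γ) ∈ W0 w := by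
    intro c γ
    obtain ⟨h1, h2, -⟩ := c.1.2
    have hφ : entryFl w φ 0 0 (c.1 : ↥(Z1 (locLevelsAll (pPrime p)) (Mloc p ρbar))) = 0 :=
      AddMonoidHom.mem_ker.mp c.2
    have hI : ∀ γ ∈ locInertia (pPrime p),
        entryFl w γ 0 0 (c.1 : ↥(Z1 (locLevelsAll (pPrime p)) (Mloc p ρbar))) = 0 :=
      fun γ hγ => ((mem_W0_iff_mat w _).mp (h2 γ hγ)).1
    exact fl_mem_W0_of_diag _ (h1 γ) (entryFl_diag_eq_zero hw _ h1 hI φ hgen hφ γ)
  let Φ : ↥D.ker → ↥(twZpeu p ζ hζ (omegaW p ρbar w)) := fun c =>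
    ⟨coordFl p ρbar w (c.1 : ↥(Z1 (locLevelsAll (pPrime p)) (Mloc p ρbar))),
      coordFl_mem_twZ hw _ (hker c), c.1.2.2.2⟩
  have hΦ : Function.Injective Φ := by
    intro c c' h
    apply Subtype.ext
    apply Subtype.ext
    exact coordFl_eq_imp _ _ (hker c) (hker c') (congrArg Subtype.val h)
  have hkfin : Finite ↥D.ker := Finite.of_injective Φ hΦ
  have hkcard : Nat.card ↥D.ker ≤ Nat.card k ^ 2 :=
    (Nat.card_le_card_of_injective Φ hΦ).trans hcard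
  have hrcard : Nat.card ↥D.range ≤ Nat.card k :=
    Nat.card_le_card_of_injective Subtype.val Subtype.val_injective
  have e1 : Nat.card ↥D.ker * Nat.card ↥D.range = Nat.card ↥(Zfl p ρbar w ζ hζ) := by
    rw [← AddSubgroup.index_ker]
    exact AddSubgroup.card_mul_index _
  have hrfin : Finite ↥D.range :=
    Finite.of_injective (Subtype.val : ↥D.range → k) Subtype.val_injective
  have hpos1 : 0 < Nat.card ↥D.ker := Nat.card_pos_iff.mpr ⟨⟨0⟩, hkfin⟩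
  have hpos2 : 0 < Nat.card ↥D.range := Nat.card_pos_iff.mpr ⟨⟨0⟩, hrfin⟩
  have hpos : 0 < Nat.card ↥D.ker * Nat.card ↥D.range := Nat.mul_pos hpos1 hpos2
  refine ⟨Nat.finite_of_card_ne_zero (by rw [← e1]; exact hpos.ne'), ?_⟩
  rw [← e1, pow_succ]
  exact Nat.mul_le_mul hkcard hrcard

end CountZ

end Fermat.Agent.S56.W4.CountN

namespace Fermat.Agent.S56.W4

open Fermat.Agent.F4 ExtCitation Fermat.Agent.S56.SO Fermat.Agent.S56.W4.CountN

/-- **(N)** the counting argument: in the ordinary case the wall `Lfl` has at most `|k| · #H⁰`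
elements. -/
theorem card_Lfl_le {k : Type} [Field k] [Finite k] {p : ℕ} [Fact p.Prime] (hp2 : p ≠ 2)
    (hpk : (p : k) = 0) {ρbar : ResidualGaloisRep k}
    (hdet : (GaloisRepAdic.ofResidualGaloisRep ρbar).DetIsCyclotomic p)
    {w : Module.Basis (Fin 2) k ρbar.V} (hw : FlTri ρbar.ρ (primeLocalPlace (pPrime p)) w)
    (ζ : AlgebraicClosure ℚ) (hζ : IsPrimitiveRoot ζ p)
    (hb : IsPeuLoc p ζ (fun γ => mat w (ρbar.ρ (locp p γ)) 0 1))
    (hcount : Finite ↥(twZpeu p ζ hζ.pow_eq_one (omegaW p ρbar w)) ∧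
      Nat.card ↥(twZpeu p ζ hζ.pow_eq_one (omegaW p ρbar w)) ≤ Nat.card k ^ 2) :
    Finite ↥(Lfl p ρbar w ζ hζ.pow_eq_one) ∧
      Nat.card ↥(Lfl p ρbar w ζ hζ.pow_eq_one) ≤
        Nat.card k * Nat.card ↥(H0loc (ad0 ρbar) (pPrime p)) := by
  have _hp2 := hp2
  obtain ⟨hfin, hcard⟩ := card_Zfl_le hw ζ hζ.pow_eq_one hcount
  have : Finite (ad0 ρbar) := Module.finite_of_finite k (M := ↥(ad0Sub ρbar))
  have hLfin : Finite ↥(Lfl p ρbar w ζ hζ.pow_eq_one) := by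
    rw [Lfl]
    exact Finite.of_surjective (classFl p ρbar w ζ hζ.pow_eq_one).rangeRestrict
      (classFl p ρbar w ζ hζ.pow_eq_one).rangeRestrict_surjective
  refine ⟨hLfin, ?_⟩
  -- `#Zfl = #ker · #Lfl`
  have e1 : Nat.card ↥(classFl p ρbar w ζ hζ.pow_eq_one).ker *
      Nat.card ↥(Lfl p ρbar w ζ hζ.pow_eq_one) = Nat.card ↥(Zfl p ρbar w ζ hζ.pow_eq_one) := by
    rw [Lfl, ← AddSubgroup.index_ker]
    exact AddSubgroup.card_mul_index _
  -- `|k|² = #ker(cob) · #range(cob)`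
  have e2 : Nat.card ↥(cobFl hpk hdet hw ζ hζ hb).ker *
      Nat.card ↥(cobFl hpk hdet hw ζ hζ hb).range = Nat.card k ^ 2 := by
    rw [← AddSubgroup.index_ker, AddSubgroup.card_mul_index, Nat.card_prod, pow_two]
  have e3 : Nat.card ↥(cobFl hpk hdet hw ζ hζ hb).range ≤
      Nat.card ↥(classFl p ρbar w ζ hζ.pow_eq_one).ker :=
    AddSubgroup.card_le_of_le (range_cobFl_le_ker hpk hdet hw ζ hζ hb)
  have e4 := card_ker_cobFl_le hpk hdet hw ζ hζ hb
  have hq : 0 < Nat.card k := Nat.card_pos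
  set q := Nat.card k
  set L := Nat.card ↥(Lfl p ρbar w ζ hζ.pow_eq_one)
  set H := Nat.card ↥(H0loc (ad0 ρbar) (pPrime p))
  set K := Nat.card ↥(classFl p ρbar w ζ hζ.pow_eq_one).ker
  set A := Nat.card ↥(cobFl hpk hdet hw ζ hζ hb).ker
  set B := Nat.card ↥(cobFl hpk hdet hw ζ hζ hb).range
  set Z := Nat.card ↥(Zfl p ρbar w ζ hζ.pow_eq_one)
  have h5 : L * q ^ 2 ≤ q ^ 2 * (q * H) := by
    calc L * q ^ 2 = L * (A * B) := by rw [e2]
      _ ≤ L * (H * K) := Nat.mul_le_mul_left _ (Nat.mul_le_mul e4 e3)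
      _ = H * (K * L) := by ring
      _ = H * Z := by rw [e1]
      _ ≤ H * q ^ 3 := Nat.mul_le_mul_left _ hcard
      _ = q ^ 2 * (q * H) := by ring
  have h6 : q ^ 2 * L ≤ q ^ 2 * (q * H) := by rwa [mul_comm] at h5
  exact Nat.le_of_mul_le_mul_left h6 (pow_pos hq 2)

end Fermat.Agent.S56.W4
end MergeWrap_S56_W4_Count
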