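import Fermat.Agent.MU.S56.W3.SO.Count
import Fermat.Agent.MU.S56.W3.Tame
import Fermat.Agent.MU.E.Desc.FlatAsmK

section MergeWrap_S56_W4_Defs -- from S56/W4/Defs.lean

set_option autoImplicit false

namespace Fermat.Agent.S56.W4

open Fermat.Agent.F4 ExtCitation Fermat.Agent.S56.SO

variable {k : Type} [Field k]

/-- `r` is triangular at `P` for the basis `w`, with unramified quotient. -/
structure FlTri {V : Type} [AddCommGroup V] [Module k V] (r : GQ →* Module.End k V)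
    (P : ValuationSubring (AlgebraicClosure ℚ)) (w : Module.Basis (Fin 2) k V) : Prop where
  dec : ∀ σ ∈ P.decompositionSubgroup ℚ, w.repr (r σ (w 0)) 1 = 0
  inert : ∀ σ ∈ P.inertiaSubgroupIn ℚ, w.repr (r σ (w 1)) 1 = 1

/-- Peu ramifié: for every additive `φ : k → 𝔽_p`, `σ ↦ ζ ^ φ (g σ)` is the Kummer cocycle on
inertia of a unit of `P`. -/
def IsPeu (p : ℕ) (P : ValuationSubring (AlgebraicClosure ℚ)) (ζ : AlgebraicClosure ℚ)
    (g : GQ → k) : Prop :=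
  ∀ φ : k →+ ZMod p, ∃ a : AlgebraicClosure ℚ, a ∈ P ∧ a⁻¹ ∈ P ∧ a ≠ 0 ∧
    ∀ σ ∈ P.inertiaSubgroupIn ℚ, σ a = ζ ^ (φ (g σ)).val * a

variable (p : ℕ) [Fact p.Prime]

/-- Peu ramifié, for a function on the local Galois group. -/
def IsPeuLoc (ζ : AlgebraicClosure ℚ) (f : Gp p → k) : Prop :=
  ∀ φ : k →+ ZMod p, ∃ a : AlgebraicClosure ℚ,
    a ∈ primeLocalPlace (pPrime p) ∧ a⁻¹ ∈ primeLocalPlace (pPrime p) ∧ a ≠ 0 ∧
    ∀ γ ∈ locInertia (pPrime p), locp p γ a = ζ ^ (φ (f γ)).val * a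

variable {p}

theorem isPeuLoc_of_isPeu {ζ : AlgebraicClosure ℚ} {g : GQ → k}
    (h : IsPeu p (primeLocalPlace (pPrime p)) ζ g) : IsPeuLoc p ζ (fun γ => g (locp p γ)) :=
  fun φ => by
    obtain ⟨a, ha, ha', ha0, h1⟩ := h φ
    exact ⟨a, ha, ha', ha0, fun γ hγ => h1 _ hγ⟩

/-- `ζ ^ (x + y).val = ζ ^ x.val * ζ ^ y.val` for a `p`-th root of unity. -/
theorem zeta_pow_val_add {ζ : AlgebraicClosure ℚ} (hζ : ζ ^ p = 1) (x y : ZMod p) :
    ζ ^ (x + y).val = ζ ^ x.val * ζ ^ y.val := by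
  have hp : p.Prime := Fact.out
  have : NeZero p := ⟨hp.ne_zero⟩
  rw [ZMod.val_add, ← pow_eq_pow_mod _ hζ, pow_add]

theorem isPeuLoc_zero (ζ : AlgebraicClosure ℚ) : IsPeuLoc p ζ (0 : Gp p → k) := fun φ =>
  ⟨1, one_mem _, by rw [inv_one]; exact one_mem _, one_ne_zero, fun γ _ => by
    rw [map_one, Pi.zero_apply, map_zero, ZMod.val_zero, pow_zero, one_mul]⟩

theorem IsPeuLoc.add {ζ : AlgebraicClosure ℚ} (hζ : ζ ^ p = 1) {f g : Gp p → k}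
    (hf : IsPeuLoc p ζ f) (hg : IsPeuLoc p ζ g) : IsPeuLoc p ζ (f + g) := fun φ => by
  obtain ⟨a, ha, ha', ha0, h1⟩ := hf φ
  obtain ⟨b, hb, hb', hb0, h2⟩ := hg φ
  refine ⟨a * b, mul_mem ha hb, by rw [mul_inv]; exact mul_mem ha' hb', mul_ne_zero ha0 hb0,
    fun γ hγ => ?_⟩
  rw [map_mul, h1 γ hγ, h2 γ hγ, Pi.add_apply, map_add, zeta_pow_val_add hζ]
  ring

theorem IsPeuLoc.neg {ζ : AlgebraicClosure ℚ} (hζ : ζ ^ p = 1) {f : Gp p → k}
    (hf : IsPeuLoc p ζ f) : IsPeuLoc p ζ (-f) := fun φ => by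
  obtain ⟨a, ha, ha', ha0, h1⟩ := hf φ
  refine ⟨a⁻¹, ha', by rw [inv_inv]; exact ha, inv_ne_zero ha0, fun γ hγ => ?_⟩
  have h0 : ζ ^ (φ (f γ)).val * ζ ^ (-(φ (f γ))).val = 1 := by
    rw [← zeta_pow_val_add hζ, add_neg_cancel, ZMod.val_zero, pow_zero]
  have hz : ζ ^ (φ (f γ)).val ≠ 0 := fun h => by rw [h, zero_mul] at h0; exact zero_ne_one h0
  rw [map_inv₀, h1 γ hγ, Pi.neg_apply, map_neg, mul_inv]
  congr 1
  exact (eq_inv_of_mul_eq_one_right h0).symm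

/-- Peu ramifié is stable under composition with an additive endomorphism of `k`. -/
theorem IsPeuLoc.comp {ζ : AlgebraicClosure ℚ} {f : Gp p → k} (hf : IsPeuLoc p ζ f)
    (u : k →+ k) : IsPeuLoc p ζ (fun γ => u (f γ)) := fun φ => by
  obtain ⟨a, ha, ha', ha0, h1⟩ := hf (φ.comp u)
  exact ⟨a, ha, ha', ha0, fun γ hγ => h1 γ hγ⟩

variable (p)

/-- The peu ramifiés cocycles of `k(ω)`. -/
def twZpeu (ζ : AlgebraicClosure ℚ) (hζ : ζ ^ p = 1) (ω : Gp p → k) : AddSubgroup (Gp p → k) where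
  carrier := {f | f ∈ twZ p ω ∧ IsPeuLoc p ζ f}
  add_mem' := fun hf hg => ⟨(twZ p ω).add_mem hf.1 hg.1, hf.2.add hζ hg.2⟩
  zero_mem' := ⟨(twZ p ω).zero_mem, isPeuLoc_zero ζ⟩
  neg_mem' := fun hf => ⟨(twZ p ω).neg_mem hf.1, hf.2.neg hζ⟩

theorem mem_twZpeu {ζ : AlgebraicClosure ℚ} {hζ : ζ ^ p = 1} {ω : Gp p → k} {f : Gp p → k} :
    f ∈ twZpeu p ζ hζ ω ↔ f ∈ twZ p ω ∧ IsPeuLoc p ζ f := Iff.rfl

variable (ρbar : ResidualGaloisRep k) (w : Module.Basis (Fin 2) k ρbar.V)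

/-- The upper right entry of a local cocycle. -/
noncomputable def coordFl (c : ↥(Z1 (locLevelsAll (pPrime p)) (Mloc p ρbar))) : Gp p → k :=
  fun γ => mat w (toEnd ρbar ((c : Gp p → Mloc p ρbar) γ)) 0 1

theorem coordFl_add (c c' : ↥(Z1 (locLevelsAll (pPrime p)) (Mloc p ρbar))) :
    coordFl p ρbar w (c + c') = coordFl p ρbar w c + coordFl p ρbar w c' := by
  funext γ
  show mat w (toEnd ρbar (((c + c' : ↥(Z1 (locLevelsAll (pPrime p)) (Mloc p ρbar))) :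
    Gp p → Mloc p ρbar) γ)) 0 1 = _
  have : toEnd ρbar (((c + c' : ↥(Z1 (locLevelsAll (pPrime p)) (Mloc p ρbar))) :
        Gp p → Mloc p ρbar) γ) =
        toEnd ρbar ((c : Gp p → Mloc p ρbar) γ) + toEnd ρbar ((c' : Gp p → Mloc p ρbar) γ) :=
    (toEnd ρbar).map_add ((c : Gp p → Mloc p ρbar) γ) ((c' : Gp p → Mloc p ρbar) γ)
  rw [this, mat, map_add, Matrix.add_apply]
  rfl

theorem coordFl_neg (c : ↥(Z1 (locLevelsAll (pPrime p)) (Mloc p ρbar))) :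
    coordFl p ρbar w (-c) = -coordFl p ρbar w c := by
  funext γ
  show mat w (toEnd ρbar (((-c : ↥(Z1 (locLevelsAll (pPrime p)) (Mloc p ρbar))) :
    Gp p → Mloc p ρbar) γ)) 0 1 = _
  have : toEnd ρbar (((-c : ↥(Z1 (locLevelsAll (pPrime p)) (Mloc p ρbar))) :
        Gp p → Mloc p ρbar) γ) = -toEnd ρbar ((c : Gp p → Mloc p ρbar) γ) :=
    (toEnd ρbar).map_neg ((c : Gp p → Mloc p ρbar) γ)
  rw [this, mat, map_neg, Matrix.neg_apply]
  rfl

theorem coordFl_zero :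
    coordFl p ρbar w (0 : ↥(Z1 (locLevelsAll (pPrime p)) (Mloc p ρbar))) = 0 := by
  funext γ
  show mat w (toEnd ρbar (((0 : ↥(Z1 (locLevelsAll (pPrime p)) (Mloc p ρbar))) :
    Gp p → Mloc p ρbar) γ)) 0 1 = _
  have : toEnd ρbar (((0 : ↥(Z1 (locLevelsAll (pPrime p)) (Mloc p ρbar))) :
        Gp p → Mloc p ρbar) γ) = 0 := (toEnd ρbar).map_zero
  rw [this, mat, map_zero]
  rfl

/-- The local cocycles of `ad⁰ρbar` which are triangular, `W0 w`-valued on inertia and with a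
peu ramifié upper right entry. -/
def Zfl (ζ : AlgebraicClosure ℚ) (hζ : ζ ^ p = 1) :
    AddSubgroup ↥(Z1 (locLevelsAll (pPrime p)) (Mloc p ρbar)) where
  carrier := {c | (∀ γ : Gp p, IsTri w (toEnd ρbar ((c : Gp p → Mloc p ρbar) γ))) ∧
    (∀ γ ∈ locInertia (pPrime p), toEnd ρbar ((c : Gp p → Mloc p ρbar) γ) ∈ W0 w) ∧
    IsPeuLoc p ζ (coordFl p ρbar w c)}
  add_mem' := by
    rintro c c' ⟨h1, h2, h3⟩ ⟨h1', h2', h3'⟩
    have hadd : ∀ γ : Gp p, toEnd ρbar (((c + c' : ↥(Z1 (locLevelsAll (pPrime p)) (Mloc p ρbar))) :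
        Gp p → Mloc p ρbar) γ) =
        toEnd ρbar ((c : Gp p → Mloc p ρbar) γ) + toEnd ρbar ((c' : Gp p → Mloc p ρbar) γ) :=
      fun γ => (toEnd ρbar).map_add ((c : Gp p → Mloc p ρbar) γ) ((c' : Gp p → Mloc p ρbar) γ)
    refine ⟨fun γ => ?_, fun γ hγ => ?_, ?_⟩
    · rw [hadd, isTri_iff, mat, map_add, Matrix.add_apply]
      have e1 := (isTri_iff w _).mp (h1 γ)
      have e2 := (isTri_iff w _).mp (h1' γ)
      rw [mat] at e1 e2
      rw [e1, e2, add_zero]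
    · rw [hadd]
      exact (W0 w).add_mem (h2 γ hγ) (h2' γ hγ)
    · rw [coordFl_add]
      exact h3.add hζ h3'
  zero_mem' := by
    have h0 : ∀ γ : Gp p, toEnd ρbar (((0 : ↥(Z1 (locLevelsAll (pPrime p)) (Mloc p ρbar))) :
        Gp p → Mloc p ρbar) γ) = 0 := fun γ => (toEnd ρbar).map_zero
    refine ⟨fun γ => ?_, fun γ _ => ?_, ?_⟩
    · rw [h0, isTri_iff, mat, map_zero]
      rfl
    · rw [h0]
      exact (W0 w).zero_mem
    · rw [coordFl_zero]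
      exact isPeuLoc_zero ζ
  neg_mem' := by
    rintro c ⟨h1, h2, h3⟩
    have hneg : ∀ γ : Gp p, toEnd ρbar (((-c : ↥(Z1 (locLevelsAll (pPrime p)) (Mloc p ρbar))) :
        Gp p → Mloc p ρbar) γ) = -toEnd ρbar ((c : Gp p → Mloc p ρbar) γ) :=
      fun γ => (toEnd ρbar).map_neg ((c : Gp p → Mloc p ρbar) γ)
    refine ⟨fun γ => ?_, fun γ hγ => ?_, ?_⟩
    · rw [hneg, isTri_iff, mat, map_neg, Matrix.neg_apply]
      have e1 := (isTri_iff w _).mp (h1 γ)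
      rw [mat] at e1
      rw [e1, neg_zero]
    · rw [hneg]
      exact (W0 w).neg_mem (h2 γ hγ)
    · rw [coordFl_neg]
      exact h3.neg hζ

theorem mem_Zfl {ζ : AlgebraicClosure ℚ} {hζ : ζ ^ p = 1}
    {c : ↥(Z1 (locLevelsAll (pPrime p)) (Mloc p ρbar))} :
    c ∈ Zfl p ρbar w ζ hζ ↔
      (∀ γ : Gp p, IsTri w (toEnd ρbar ((c : Gp p → Mloc p ρbar) γ))) ∧
      (∀ γ ∈ locInertia (pPrime p), toEnd ρbar ((c : Gp p → Mloc p ρbar) γ) ∈ W0 w) ∧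
      IsPeuLoc p ζ (coordFl p ρbar w c) := Iff.rfl

/-- The class map restricted to `Zfl`. -/
noncomputable def classFl (ζ : AlgebraicClosure ℚ) (hζ : ζ ^ p = 1) :
    ↥(Zfl p ρbar w ζ hζ) →+ H1loc (ad0 ρbar) (pPrime p) :=
  (H1smπ (locLevelsAll (pPrime p)) (Mloc p ρbar)).toAddMonoidHom.comp
    (Zfl p ρbar w ζ hζ).subtype

/-- **The wall** in the ordinary case: the classes of the cocycles in `Zfl`. -/
noncomputable def Lfl (ζ : AlgebraicClosure ℚ) (hζ : ζ ^ p = 1) :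
    AddSubgroup (H1loc (ad0 ρbar) (pPrime p)) := (classFl p ρbar w ζ hζ).range

end Fermat.Agent.S56.W4
end MergeWrap_S56_W4_Defs
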