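import Mathlib
import Fermat.Agent.S56.W3.SO.PadicPow
import Fermat.Agent.MU.S56.W3.SO.KummerFp
import Fermat.Agent.S56.W3.SO.Place
import Fermat.Agent.MU.S56.W3.Tame
import Fermat.Agent.MU.Lib.FFL.Base
import Fermat.Agent.MU.Lib.FFL.Unr
import Fermat.Agent.MU.Lib.FFL.Arith
import Fermat.Agent.MU.S56.W4.Defs
import Fermat.Agent.MU.S56.W3.SO.Kummer

section MergeWrap_S56_W4_CountB_Padic -- from S56/W4/CountB/Padic.lean

set_option autoImplicit false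

namespace Fermat.Agent.S56.W4

open Polynomial

/-- Binomial expansion up to order three. -/
lemma cbp_expand {R : Type*} [CommRing R] (t : R) (n : ℕ) :
    ∃ r : R, (1 + t) ^ n = 1 + n * t + (n.choose 2 : R) * t ^ 2 + t ^ 3 * r := by
  induction n with
  | zero => exact ⟨0, by simp⟩
  | succ n ih =>
    obtain ⟨r, hr⟩ := ih
    refine ⟨(n.choose 2 : R) + r + t * r, ?_⟩
    have hc : (((n + 1).choose 2 : ℕ) : R) = (n : R) + (n.choose 2 : R) := by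
      have : (n + 1).choose 2 = n + n.choose 2 := by
        rw [Nat.choose_succ_succ' n 1, Nat.choose_one_right]
      rw [this]; push_cast; ring
    rw [pow_succ, hr, hc]; push_cast; ring

/-- Elements of `1 + p² ℤ_p` are `p`-th powers (`p` odd). -/
lemma cbp_hensel (p : ℕ) [Fact p.Prime] (hp2 : p ≠ 2) (a : ℤ_[p]) :
    ∃ Z : ℤ_[p], Z ^ p = 1 + (p : ℤ_[p]) ^ 2 * a := by
  have hp : p.Prime := Fact.out
  have hp3 : 2 < p := lt_of_le_of_ne hp.two_le (Ne.symm hp2)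
  obtain ⟨m, hm⟩ : p ∣ p.choose 2 := hp.dvd_choose_self (by norm_num) hp3
  obtain ⟨r, hr⟩ := cbp_expand ((p : ℤ_[p]) * a) p
  set W : ℤ_[p] := 1 + (p : ℤ_[p]) ^ 2 * a with hW
  set x₀ : ℤ_[p] := 1 + (p : ℤ_[p]) * a with hx₀
  have hval : x₀ ^ p - W = (p : ℤ_[p]) ^ 3 * ((m : ℤ_[p]) * a ^ 2 + a ^ 3 * r) := by
    rw [hr, hm, hW]; push_cast; ring
  have hpn : ‖(p : ℤ_[p])‖ = (p : ℝ)⁻¹ := PadicInt.norm_p
  have hp1 : (1 : ℝ) < p := by exact_mod_cast hp.one_lt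
  have hpinv0 : (0 : ℝ) < (p : ℝ)⁻¹ := by positivity
  have hpinv1 : (p : ℝ)⁻¹ < 1 := inv_lt_one_of_one_lt₀ hp1
  have hx₀n : ‖x₀‖ = 1 := by
    have h1 : ‖(p : ℤ_[p]) * a‖ < 1 := by
      rw [norm_mul, hpn]
      calc (p : ℝ)⁻¹ * ‖a‖ ≤ (p : ℝ)⁻¹ * 1 :=
            mul_le_mul_of_nonneg_left (PadicInt.norm_le_one a) hpinv0.le
        _ < 1 := by simpa using hpinv1
    have h2 : ‖(1 : ℤ_[p])‖ ≠ ‖(p : ℤ_[p]) * a‖ := by
      rw [norm_one]; exact (ne_of_lt h1).symm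
    rw [hx₀, PadicInt.norm_add_eq_max_of_ne h2, norm_one]
    exact max_eq_left h1.le
  have hF : aeval x₀ (X ^ p - C W : ℤ_[p][X]) = x₀ ^ p - W := by simp
  have hF' : aeval x₀ (derivative (X ^ p - C W : ℤ_[p][X])) = (p : ℤ_[p]) * x₀ ^ (p - 1) := by
    rw [derivative_sub, derivative_C, sub_zero, derivative_X_pow]
    simp
  obtain ⟨Z, hZ, -⟩ := hensels_lemma (p := p) (R := ℤ_[p]) (F := (X ^ p - C W : ℤ_[p][X]))
    (a := x₀) (by
      rw [hF, hF', hval, norm_mul, norm_mul, norm_pow, norm_pow,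
        hx₀n, hpn, one_pow, mul_one]
      calc (p : ℝ)⁻¹ ^ 3 * ‖(m : ℤ_[p]) * a ^ 2 + a ^ 3 * r‖ ≤ (p : ℝ)⁻¹ ^ 3 * 1 :=
            mul_le_mul_of_nonneg_left (PadicInt.norm_le_one _) (by positivity)
        _ = (p : ℝ)⁻¹ ^ 3 := mul_one _
        _ < (p : ℝ)⁻¹ ^ 2 := pow_lt_pow_right_of_lt_one₀ hpinv0 hpinv1 (by norm_num))
  refine ⟨Z, ?_⟩
  have : Z ^ p - W = 0 := by simpa using hZ
  exact sub_eq_zero.1 this

/-- Every `x ∈ ℚ_p^×` is a nonzero rational number times a `p`-th power. -/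
theorem cbp_exists_rat (p : ℕ) [Fact p.Prime] (hp2 : p ≠ 2) (x : ℚ_[p]ˣ) :
    ∃ (r : ℚ) (z : ℚ_[p]ˣ), r ≠ 0 ∧ (x : ℚ_[p]) = (r : ℚ_[p]) * (z : ℚ_[p]) ^ p := by
  have hp : p.Prime := Fact.out
  have hp1 : (1 : ℝ) < p := by exact_mod_cast hp.one_lt
  have hp0 : (0 : ℝ) < p := by linarith
  have hx0 : (x : ℚ_[p]) ≠ 0 := x.ne_zero
  have hxn : 0 < ‖(x : ℚ_[p])‖ := norm_pos_iff.2 hx0
  have hε : 0 < ‖(x : ℚ_[p])‖ * ((p : ℝ) ^ 2)⁻¹ := by positivity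
  obtain ⟨r, hr⟩ := Padic.rat_dense p (x : ℚ_[p]) hε
  have hlt : ‖(x : ℚ_[p]) - r‖ < ‖(x : ℚ_[p])‖ := by
    refine lt_of_lt_of_le hr ?_
    have h1 : ((p : ℝ) ^ 2)⁻¹ ≤ 1 := by
      rw [inv_le_one₀ (by positivity)]
      nlinarith
    calc ‖(x : ℚ_[p])‖ * ((p : ℝ) ^ 2)⁻¹ ≤ ‖(x : ℚ_[p])‖ * 1 :=
          mul_le_mul_of_nonneg_left h1 hxn.le
      _ = ‖(x : ℚ_[p])‖ := mul_one _
  have hrn : ‖(r : ℚ_[p])‖ = ‖(x : ℚ_[p])‖ := by
    have h2 : (r : ℚ_[p]) = (x : ℚ_[p]) - ((x : ℚ_[p]) - r) := by ring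
    have h3 : ‖(x : ℚ_[p])‖ ≠ ‖-((x : ℚ_[p]) - r)‖ := by
      rw [norm_neg]; exact (ne_of_lt hlt).symm
    rw [h2, sub_eq_add_neg, Padic.add_eq_max_of_ne h3, norm_neg]
    exact max_eq_left hlt.le
  have hr0' : (r : ℚ_[p]) ≠ 0 := by
    intro h0
    rw [h0, norm_zero] at hrn
    exact (ne_of_gt hxn) hrn.symm
  have hr0 : r ≠ 0 := by
    rintro rfl
    exact hr0' (by simp)
  -- `w = x / r - 1` is divisible by `p²`
  set w : ℚ_[p] := ((x : ℚ_[p]) - r) / r with hw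
  have hwn : ‖w / (p : ℚ_[p]) ^ 2‖ ≤ 1 := by
    rw [hw, norm_div, norm_div, norm_pow, Padic.norm_p, hrn]
    rw [div_div, div_le_one (by positivity)]
    have h4 : ‖(x : ℚ_[p])‖ * ((p : ℝ) ^ 2)⁻¹ = ‖(x : ℚ_[p])‖ * ((p : ℝ)⁻¹) ^ 2 := by
      rw [inv_pow]
    rw [← h4]
    exact hr.le
  let a : ℤ_[p] := ⟨w / (p : ℚ_[p]) ^ 2, hwn⟩
  obtain ⟨Z, hZ⟩ := cbp_hensel p hp2 a
  have hpQ : (p : ℚ_[p]) ≠ 0 := by exact_mod_cast hp.ne_zero
  have hZ' : (Z : ℚ_[p]) ^ p = (x : ℚ_[p]) / r := by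
    have h5 : ((Z ^ p : ℤ_[p]) : ℚ_[p]) = ((1 + (p : ℤ_[p]) ^ 2 * a : ℤ_[p]) : ℚ_[p]) := by
      rw [hZ]
    push_cast at h5
    rw [h5]
    show 1 + (p : ℚ_[p]) ^ 2 * (w / (p : ℚ_[p]) ^ 2) = _
    rw [hw]
    field_simp
    ring
  have hZ0 : (Z : ℚ_[p]) ≠ 0 := by
    intro h0
    rw [h0, zero_pow hp.ne_zero] at hZ'
    exact (div_ne_zero hx0 hr0') hZ'.symm
  refine ⟨r, Units.mk0 _ hZ0, hr0, ?_⟩
  rw [Units.val_mk0, hZ']
  field_simp

/-! ### the classes with valuation divisible by `p` -/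

section Count

variable (p : ℕ) [Fact p.Prime]

/-- The valuation modulo `p`, as a homomorphism `ℚ_p^× → ℤ/p`. -/
noncomputable def cbpVal : ℚ_[p]ˣ →* Multiplicative (ZMod p) where
  toFun x := Multiplicative.ofAdd ((((x : ℚ_[p]).valuation : ℤ) : ZMod p))
  map_one' := by
    rw [Units.val_one, Padic.valuation_one, Int.cast_zero]
    rfl
  map_mul' x y := by
    rw [Units.val_mul, Padic.valuation_mul x.ne_zero y.ne_zero, Int.cast_add, ofAdd_add]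

theorem cbpVal_eq_one_iff (x : ℚ_[p]ˣ) :
    cbpVal p x = 1 ↔ (p : ℤ) ∣ (x : ℚ_[p]).valuation := by
  show Multiplicative.ofAdd ((((x : ℚ_[p]).valuation : ℤ) : ZMod p)) = Multiplicative.ofAdd 0 ↔ _
  rw [Multiplicative.ofAdd.injective.eq_iff, ZMod.intCast_zmod_eq_zero_iff_dvd]

/-- The subgroup of `p`-th powers. -/
noncomputable def cbpPow : Subgroup ℚ_[p]ˣ := (powMonoidHom p : ℚ_[p]ˣ →* ℚ_[p]ˣ).range

theorem mem_cbpPow {x : ℚ_[p]ˣ} : x ∈ cbpPow p ↔ ∃ z : ℚ_[p]ˣ, z ^ p = x := Iff.rfl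

theorem cbpPow_le_ker : cbpPow p ≤ (cbpVal p).ker := by
  rintro x ⟨z, rfl⟩
  rw [MonoidHom.mem_ker, powMonoidHom_apply, map_pow]
  have hp : p.Prime := Fact.out
  have : NeZero p := ⟨hp.ne_zero⟩
  have h : ∀ m : Multiplicative (ZMod p), m ^ p = 1 := fun m => by
    show Multiplicative.ofAdd (p • Multiplicative.toAdd m) = Multiplicative.ofAdd 0
    rw [nsmul_eq_mul, CharP.cast_eq_zero, zero_mul]
  exact h _

/-- **The classes of valuation divisible by `p`** are at most `p`. -/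
theorem cbp_units_mod_pow (hp2 : p ≠ 2) :
    ∃ G : ℚ_[p]ˣ → Fin p, ∀ x y : ℚ_[p]ˣ, (p : ℤ) ∣ (x : ℚ_[p]).valuation →
      (p : ℤ) ∣ (y : ℚ_[p]).valuation → G x = G y → ∃ z : ℚ_[p]ˣ, x = y * z ^ p := by
  classical
  have hp : p.Prime := Fact.out
  have : NeZero p := ⟨hp.ne_zero⟩
  obtain ⟨F, hF⟩ := Fermat.Agent.S56.SO.so_padic_units_mod_pow p hp2
  -- the quotient group and its cardinality
  let Cq := ℚ_[p]ˣ ⧸ cbpPow p
  have hmk : ∀ x y : ℚ_[p]ˣ, (QuotientGroup.mk x : Cq) = QuotientGroup.mk y ↔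
      ∃ z : ℚ_[p]ˣ, x = y * z ^ p := by
    intro x y
    rw [QuotientGroup.eq]
    constructor
    · rintro ⟨z, hz⟩
      refine ⟨z⁻¹, ?_⟩
      have hz' : z ^ p = x⁻¹ * y := hz
      rw [inv_pow, hz']
      group
    · rintro ⟨z, rfl⟩
      refine ⟨z⁻¹, ?_⟩
      show (z⁻¹) ^ p = (y * z ^ p)⁻¹ * y
      rw [inv_pow, mul_inv_rev, inv_mul_cancel_right]
  let Φ : Cq → Fin (p ^ 2) := fun c => F c.out
  have hΦ : Function.Injective Φ := by
    intro c c' h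
    have h1 := (hmk _ _).2 (hF _ _ h)
    rwa [QuotientGroup.out_eq', QuotientGroup.out_eq'] at h1
  have : Finite Cq := Finite.of_injective Φ hΦ
  have hcardC : Nat.card Cq ≤ p ^ 2 := by
    have := Nat.card_le_card_of_injective Φ hΦ
    rwa [Nat.card_fin] at this
  -- the valuation on the quotient
  let vb : Cq →* Multiplicative (ZMod p) := QuotientGroup.lift (cbpPow p) (cbpVal p) (cbpPow_le_ker p)
  have hvb : ∀ x : ℚ_[p]ˣ, vb (QuotientGroup.mk x) = cbpVal p x := fun x => rfl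
  have hsurj : Function.Surjective vb := by
    intro m
    have hpQ : (p : ℚ_[p]) ≠ 0 := by exact_mod_cast hp.ne_zero
    refine ⟨QuotientGroup.mk ((Units.mk0 (p : ℚ_[p]) hpQ) ^ (Multiplicative.toAdd m).val), ?_⟩
    rw [hvb, map_pow]
    have h1 : cbpVal p (Units.mk0 (p : ℚ_[p]) hpQ) = Multiplicative.ofAdd 1 := by
      show Multiplicative.ofAdd ((((Units.mk0 (p : ℚ_[p]) hpQ : ℚ_[p]ˣ) : ℚ_[p]).valuation : ℤ) :
        ZMod p) = _
      rw [Units.val_mk0, Padic.valuation_p, Int.cast_one]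
    rw [h1]
    show Multiplicative.ofAdd ((Multiplicative.toAdd m).val • (1 : ZMod p)) = m
    rw [nsmul_eq_mul, mul_one, ZMod.natCast_zmod_val]
    rfl
  have hidx : vb.ker.index = p := by
    rw [Subgroup.index_ker, MonoidHom.range_eq_top.2 hsurj, Subgroup.card_top]
    show Nat.card (ZMod p) = p
    rw [Nat.card_eq_fintype_card, ZMod.card]
  have hcardU : Nat.card vb.ker ≤ p := by
    have h1 := Subgroup.card_mul_index vb.ker
    rw [hidx] at h1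
    have h2 : Nat.card vb.ker * p ≤ p * p := by
      rw [h1, ← sq]
      exact hcardC
    exact Nat.le_of_mul_le_mul_right h2 hp.pos
  let e : vb.ker ≃ Fin (Nat.card vb.ker) := Finite.equivFin _
  let ι : vb.ker → Fin p := fun u => Fin.castLE hcardU (e u)
  have hι : Function.Injective ι := fun u u' h =>
    e.injective (Fin.castLE_injective hcardU h)
  refine ⟨fun x => if h : cbpVal p x = 1 then ι ⟨QuotientGroup.mk x, h⟩ else ⟨0, hp.pos⟩, ?_⟩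
  intro x y hx hy hxy
  have hx1 := (cbpVal_eq_one_iff p x).2 hx
  have hy1 := (cbpVal_eq_one_iff p y).2 hy
  simp only [dif_pos hx1, dif_pos hy1] at hxy
  have h1 := hι hxy
  exact (hmk x y).1 (congrArg Subtype.val h1)

end Count

end Fermat.Agent.S56.W4
end MergeWrap_S56_W4_CountB_Padic

section MergeWrap_S56_W4_CountB_Val -- from S56/W4/CountB/Val.lean

set_option autoImplicit false

namespace Fermat.Agent.S56.W4

open Fermat.Agent.F4 Fermat.Agent.F4.Loc ExtCitation Fermat.Agent.S56.SO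

variable (p : ℕ) [Fact p.Prime]

/-- Peu ramifié, for an `𝔽_p`-valued function on the local Galois group. -/
def CbPeu (ζ₀ : AlgebraicClosure ℚ) (g : Gp p → ZMod p) : Prop :=
  ∃ a : AlgebraicClosure ℚ,
    a ∈ primeLocalPlace (pPrime p) ∧ a⁻¹ ∈ primeLocalPlace (pPrime p) ∧ a ≠ 0 ∧
    ∀ γ ∈ locInertia (pPrime p), locp p γ a = ζ₀ ^ (g γ).val * a

/-- The image in `Ω` of a primitive `p`-th root of unity of `ℚ̄`. -/
theorem cbv_zeta {ζ₀ : AlgebraicClosure ℚ} (hζ₀ : IsPrimitiveRoot ζ₀ p) :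
    ∃ ζ : (PadicAlgCl ((pPrime p : Nat.Primes) : ℕ))ˣ,
      (ζ : PadicAlgCl ((pPrime p : Nat.Primes) : ℕ)) = locEmb (pPrime p) ζ₀ ∧
      IsPrimitiveRoot ζ p ∧ ∀ γ : Gp p, γ • ζ = ζ ^ (cycLoc p γ).val := by
  have hp0 : p ≠ 0 := (Fact.out : p.Prime).ne_zero
  have : NeZero p := ⟨hp0⟩
  have hζ : IsPrimitiveRoot (locEmb (pPrime p) ζ₀) p :=
    hζ₀.map_of_injective (locEmb_injective (pPrime p))
  refine ⟨(hζ.isUnit hp0).unit, rfl, IsPrimitiveRoot.coe_units_iff.1 hζ, fun γ => Units.ext ?_⟩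
  rw [primeLocal_smul_units, Units.val_pow_eq_pow_val]
  show locAct (pPrime p) γ (locEmb (pPrime p) ζ₀) = (locEmb (pPrime p) ζ₀) ^ (cycLoc p γ).val
  rw [← locEmb_primeLocalToGlobal, ← map_pow]
  exact congrArg (locEmb (pPrime p)) (cycLoc_spec p γ ζ₀ hζ₀.pow_eq_one)

/-- Membership in `P₀` in terms of the norm of `Ω`. -/
theorem cbv_mem_iff (x : AlgebraicClosure ℚ) :
    x ∈ primeLocalPlace (pPrime p) ↔ ‖locEmb (pPrime p) x‖ ≤ 1 := by
  show x ∈ padicPlace p ↔ ‖padicEmbedding p x‖ ≤ 1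
  rw [mem_padicPlace_iff]
  exact Iff.rfl

/-- A unit of `P₀` has norm one. -/
theorem cbv_norm_unit {u : AlgebraicClosure ℚ} (hu : u ∈ primeLocalPlace (pPrime p))
    (hu' : u⁻¹ ∈ primeLocalPlace (pPrime p)) (hu0 : u ≠ 0) : ‖locEmb (pPrime p) u‖ = 1 := by
  have h1 := (cbv_mem_iff p u).1 hu
  have h2 := (cbv_mem_iff p u⁻¹).1 hu'
  rw [map_inv₀, norm_inv] at h2
  have h0 : 0 < ‖locEmb (pPrime p) u‖ :=
    norm_pos_iff.2 ((map_ne_zero (locEmb (pPrime p))).2 hu0)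
  have h3 : 1 ≤ ‖locEmb (pPrime p) u‖ := by
    rw [inv_le_one₀ h0] at h2
    exact h2
  exact le_antisymm h1 h3

/-- The norm of the image of a nonzero inertia-fixed element of `ℚ̄` is a power of `p`. -/
theorem cbv_norm_fixed {c : AlgebraicClosure ℚ} (hc0 : c ≠ 0)
    (hfix : ∀ σ ∈ (primeLocalPlace (pPrime p)).inertiaSubgroupIn ℚ, σ c = c) :
    ∃ n : ℤ, ‖locEmb (pPrime p) c‖ = (p : ℝ) ^ n := by
  have hp : p.Prime := Fact.out
  have hP := so_liesOver p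
  have hnp : ‖locEmb (pPrime p) ((p : ℕ) : AlgebraicClosure ℚ)‖ = ((p : ℝ))⁻¹ := by
    rw [map_natCast]
    exact so_norm_natCast_self p
  have key : ∀ x : AlgebraicClosure ℚ, x ≠ 0 →
      x ∈ FFL.inertiaRing (primeLocalPlace (pPrime p)) →
      ∃ n : ℕ, ‖locEmb (pPrime p) x‖ = ((p : ℝ))⁻¹ ^ n := by
    intro x hx0 hx
    obtain ⟨n, u, hu, hu', hxu⟩ := FFL.exists_eq_pow_mul_unit hp.ne_zero hP
      (FFL.unrProp p hp _ hP) (FFL.dvdProp hp hP) hx hx0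
    have hu0 : u ≠ 0 := by
      rintro rfl
      rw [mul_zero] at hxu
      exact hx0 hxu
    refine ⟨n, ?_⟩
    rw [hxu, map_mul, map_pow, norm_mul, norm_pow, cbv_norm_unit p hu.1 hu'.1 hu0, mul_one, hnp]
  rcases (primeLocalPlace (pPrime p)).mem_or_inv_mem c with h | h
  · obtain ⟨n, hn⟩ := key c hc0 ⟨h, hfix⟩
    exact ⟨-(n : ℤ), by rw [hn, inv_pow, zpow_neg, zpow_natCast]⟩
  · obtain ⟨n, hn⟩ := key c⁻¹ (inv_ne_zero hc0)
      ⟨h, fun σ hσ => by rw [map_inv₀, hfix σ hσ]⟩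
    rw [map_inv₀, norm_inv, inv_pow, inv_inj] at hn
    exact ⟨(n : ℤ), by rw [zpow_natCast, hn]⟩

/-- A `p`-th root in `Ω` of a nonzero rational number is in the image of `ℚ̄`. -/
theorem cbv_root_range {ζ₀ : AlgebraicClosure ℚ} (hζ₀ : IsPrimitiveRoot ζ₀ p)
    {b₀ : PadicAlgCl ((pPrime p : Nat.Primes) : ℕ)} {r : ℚ} (hr : r ≠ 0)
    (h : b₀ ^ p = (r : PadicAlgCl ((pPrime p : Nat.Primes) : ℕ))) :
    ∃ β : AlgebraicClosure ℚ, locEmb (pPrime p) β = b₀ := by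
  have hp : p.Prime := Fact.out
  have : NeZero p := ⟨hp.ne_zero⟩
  obtain ⟨β₁, hβ₁⟩ := IsAlgClosed.exists_pow_nat_eq (r : AlgebraicClosure ℚ) hp.pos
  have hβ₁0 : β₁ ≠ 0 := by
    rintro rfl
    rw [zero_pow hp.ne_zero] at hβ₁
    exact hr (by exact_mod_cast hβ₁.symm)
  have hι0 : locEmb (pPrime p) β₁ ≠ 0 := (map_ne_zero _).2 hβ₁0
  have hr0 : (r : PadicAlgCl ((pPrime p : Nat.Primes) : ℕ)) ≠ 0 := by exact_mod_cast hr
  have h1 : (b₀ / locEmb (pPrime p) β₁) ^ p = 1 := by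
    rw [div_pow, ← map_pow, hβ₁, map_ratCast, h, div_self hr0]
  have hζ : IsPrimitiveRoot (locEmb (pPrime p) ζ₀) p :=
    hζ₀.map_of_injective (locEmb_injective (pPrime p))
  obtain ⟨j, -, hj⟩ := hζ.eq_pow_of_pow_eq_one h1
  refine ⟨ζ₀ ^ j * β₁, ?_⟩
  rw [map_mul, map_pow, hj, div_mul_cancel₀ _ hι0]

/-- **The Kummer generator of a peu ramifié cocycle has valuation divisible by `p`.** -/
theorem cbv_dvd_valuation (hp2 : p ≠ 2) {ζ₀ : AlgebraicClosure ℚ} (hζ₀ : IsPrimitiveRoot ζ₀ p)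
    {ζ : (PadicAlgCl ((pPrime p : Nat.Primes) : ℕ))ˣ}
    (hζι : (ζ : PadicAlgCl ((pPrime p : Nat.Primes) : ℕ)) = locEmb (pPrime p) ζ₀)
    {g : Gp p → ZMod p} (hg : CbPeu p ζ₀ g)
    {b : (PadicAlgCl ((pPrime p : Nat.Primes) : ℕ))ˣ} {x : ℚ_[((pPrime p : Nat.Primes) : ℕ)]ˣ}
    (hb : ∀ γ : Gp p, γ • b / b = kfpE ζ (g γ))
    (hx : algebraMap ℚ_[((pPrime p : Nat.Primes) : ℕ)] (PadicAlgCl ((pPrime p : Nat.Primes) : ℕ))
          (x : ℚ_[((pPrime p : Nat.Primes) : ℕ)])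
          = ((b ^ p : (PadicAlgCl ((pPrime p : Nat.Primes) : ℕ))ˣ) :
              PadicAlgCl ((pPrime p : Nat.Primes) : ℕ))) :
    (p : ℤ) ∣ (x : ℚ_[((pPrime p : Nat.Primes) : ℕ)]).valuation := by
  have hp : p.Prime := Fact.out
  have hp1 : (1 : ℝ) < p := by exact_mod_cast hp.one_lt
  have hp0 : (0 : ℝ) < p := by exact_mod_cast hp.pos
  obtain ⟨r, z, hr, hxz⟩ : ∃ (r : ℚ) (z : ℚ_[((pPrime p : Nat.Primes) : ℕ)]ˣ), r ≠ 0 ∧
      (x : ℚ_[((pPrime p : Nat.Primes) : ℕ)]) = (r : ℚ_[((pPrime p : Nat.Primes) : ℕ)]) *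
        (z : ℚ_[((pPrime p : Nat.Primes) : ℕ)]) ^ p := cbp_exists_rat p hp2 x
  set zΩ : PadicAlgCl ((pPrime p : Nat.Primes) : ℕ) :=
    algebraMap ℚ_[((pPrime p : Nat.Primes) : ℕ)] (PadicAlgCl ((pPrime p : Nat.Primes) : ℕ))
      (z : ℚ_[((pPrime p : Nat.Primes) : ℕ)]) with hzΩ
  have hzΩ0 : zΩ ≠ 0 := (map_ne_zero _).2 z.ne_zero
  -- the `p`-th root of `r`
  have hb₀ : ((b : PadicAlgCl ((pPrime p : Nat.Primes) : ℕ)) / zΩ) ^ p
      = (r : PadicAlgCl ((pPrime p : Nat.Primes) : ℕ)) := by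
    rw [div_pow, ← Units.val_pow_eq_pow_val, ← hx, hxz, map_mul, map_pow, map_ratCast,
      mul_div_assoc, div_self (pow_ne_zero _ hzΩ0), mul_one]
  obtain ⟨β, hβ⟩ := cbv_root_range p hζ₀ hr hb₀
  have hβ0 : β ≠ 0 := by
    rintro rfl
    rw [map_zero] at hβ
    exact (div_ne_zero b.ne_zero hzΩ0) hβ.symm
  have hζ₀0 : ζ₀ ≠ 0 := hζ₀.ne_zero hp.ne_zero
  -- the action on `β`
  have hact : ∀ γ : Gp p, locp p γ β = ζ₀ ^ (g γ).val * β := by
    intro γ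
    apply locEmb_injective (pPrime p)
    rw [locEmb_primeLocalToGlobal, hβ, map_mul, map_pow, hβ, ← hζι, map_div₀]
    have e1 : locAct (pPrime p) γ zΩ = zΩ :=
      AlgEquiv.commutes (show PadicAlgCl ((pPrime p : Nat.Primes) : ℕ)
        ≃ₐ[ℚ_[((pPrime p : Nat.Primes) : ℕ)]] PadicAlgCl ((pPrime p : Nat.Primes) : ℕ) from γ) _
    have e2 : γ • b = kfpE ζ (g γ) * b := by rw [← hb γ, div_mul_cancel]
    have e3 : locAct (pPrime p) γ (b : PadicAlgCl ((pPrime p : Nat.Primes) : ℕ))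
        = (ζ : PadicAlgCl ((pPrime p : Nat.Primes) : ℕ)) ^ (g γ).val *
          (b : PadicAlgCl ((pPrime p : Nat.Primes) : ℕ)) := by
      rw [← primeLocal_smul_units, e2, Units.val_mul]
      rfl
    rw [e1, e3, mul_div_assoc]
  -- the quotient by the unit of `P₀`
  obtain ⟨a, ha, ha', ha0, haI⟩ := hg
  have hfix : ∀ σ ∈ (primeLocalPlace (pPrime p)).inertiaSubgroupIn ℚ, σ (β / a) = β / a := by
    intro σ hσ
    obtain ⟨τ, hτ, rfl⟩ := exists_of_mem_inertia (pPrime p) hσ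
    have h1 := hact τ
    have h2 := haI τ hτ
    rw [map_div₀]
    show locp p τ β / locp p τ a = β / a
    rw [h1, h2, mul_div_mul_left _ _ (pow_ne_zero _ hζ₀0)]
  obtain ⟨n, hn⟩ := cbv_norm_fixed p (div_ne_zero hβ0 ha0) hfix
  have hnβ : ‖locEmb (pPrime p) β‖ = (p : ℝ) ^ n := by
    rw [map_div₀, norm_div, cbv_norm_unit p ha ha' ha0, div_one] at hn
    exact hn
  -- norms
  have hr' : (r : ℚ_[((pPrime p : Nat.Primes) : ℕ)]) ≠ 0 := by exact_mod_cast hr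
  have hnr : ‖(r : ℚ_[((pPrime p : Nat.Primes) : ℕ)])‖ = ((p : ℝ) ^ n) ^ p := by
    rw [← hnβ, hβ, ← norm_pow, hb₀, ← PadicAlgCl.norm_extends]
    congr 1
  have hvr : (r : ℚ_[((pPrime p : Nat.Primes) : ℕ)]).valuation = -(n * p) := by
    have h1 := Padic.norm_eq_zpow_neg_valuation hr'
    rw [hnr, ← zpow_natCast, ← zpow_mul] at h1
    have h2 := zpow_right_injective₀ hp0 hp1.ne' h1
    omega
  have hv : (x : ℚ_[((pPrime p : Nat.Primes) : ℕ)]).valuation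
      = (r : ℚ_[((pPrime p : Nat.Primes) : ℕ)]).valuation +
        p * (z : ℚ_[((pPrime p : Nat.Primes) : ℕ)]).valuation := by
    rw [hxz, Padic.valuation_mul hr' (pow_ne_zero _ z.ne_zero), Padic.valuation_pow]
  rw [hv, hvr]
  exact ⟨-n + (z : ℚ_[((pPrime p : Nat.Primes) : ℕ)]).valuation, by ring⟩

end Fermat.Agent.S56.W4
end MergeWrap_S56_W4_CountB_Val

section MergeWrap_S56_W4_CountB -- from S56/W4/CountB.lean

set_option autoImplicit false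
set_option linter.style.haveILetI false

namespace Fermat.Agent.S56.W4

open Fermat.Agent.F4 Fermat.Agent.F4.Loc ExtCitation Fermat.Agent.S56.SO

/-- Two cocycles whose Kummer generators differ by a `p`-th power of `ℚ_p` differ by a
coboundary. -/
theorem cb_cobound (p : ℕ) [Fact p.Prime]
    {ζ : (PadicAlgCl ((pPrime p : Nat.Primes) : ℕ))ˣ} (hζprim : IsPrimitiveRoot ζ p)
    (hζ : ∀ γ : Gp p, γ • ζ = ζ ^ (cycLoc p γ).val)
    {f f' : Gp p → ZMod p}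
    {b b' : (PadicAlgCl ((pPrime p : Nat.Primes) : ℕ))ˣ}
    {x x' z : ℚ_[((pPrime p : Nat.Primes) : ℕ)]ˣ}
    (hb : ∀ γ : Gp p, γ • b / b = kfpE ζ (f γ))
    (hx : algebraMap ℚ_[((pPrime p : Nat.Primes) : ℕ)] (PadicAlgCl ((pPrime p : Nat.Primes) : ℕ))
          (x : ℚ_[((pPrime p : Nat.Primes) : ℕ)])
          = ((b ^ p : (PadicAlgCl ((pPrime p : Nat.Primes) : ℕ))ˣ) :
              PadicAlgCl ((pPrime p : Nat.Primes) : ℕ)))
    (hb' : ∀ γ : Gp p, γ • b' / b' = kfpE ζ (f' γ))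
    (hx' : algebraMap ℚ_[((pPrime p : Nat.Primes) : ℕ)] (PadicAlgCl ((pPrime p : Nat.Primes) : ℕ))
          (x' : ℚ_[((pPrime p : Nat.Primes) : ℕ)])
          = ((b' ^ p : (PadicAlgCl ((pPrime p : Nat.Primes) : ℕ))ˣ) :
              PadicAlgCl ((pPrime p : Nat.Primes) : ℕ)))
    (hz : x = x' * z ^ p) :
    ∃ t : ZMod p, ∀ γ : Gp p, f γ - f' γ = (cycLoc p γ - 1) * t := by
  classical
  have : NeZero p := ⟨(Fact.out : p.Prime).ne_zero⟩
  have hζp : ζ ^ p = 1 := hζprim.pow_eq_one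
  -- the image of `z` in `Ωˣ`
  obtain ⟨zu, hzu, hzfix⟩ : ∃ zu : (PadicAlgCl ((pPrime p : Nat.Primes) : ℕ))ˣ,
      b ^ p = b' ^ p * zu ^ p ∧ ∀ γ : Gp p, γ • zu = zu := by
    refine ⟨Units.map (algebraMap ℚ_[((pPrime p : Nat.Primes) : ℕ)]
      (PadicAlgCl ((pPrime p : Nat.Primes) : ℕ))).toMonoidHom z, Units.ext ?_,
      fun γ => Units.ext ?_⟩
    · rw [← hx, Units.val_mul, ← hx', Units.val_pow_eq_pow_val, Units.coe_map]
      show algebraMap _ _ ((x : ℚ_[((pPrime p : Nat.Primes) : ℕ)]ˣ) :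
        ℚ_[((pPrime p : Nat.Primes) : ℕ)]) = _ * (algebraMap _ _
          (z : ℚ_[((pPrime p : Nat.Primes) : ℕ)])) ^ p
      rw [← map_pow, ← map_mul]
      exact congrArg _ (congrArg Units.val hz)
    · rw [primeLocal_smul_units, Units.coe_map]
      exact AlgEquiv.commutes (show PadicAlgCl ((pPrime p : Nat.Primes) : ℕ)
        ≃ₐ[ℚ_[((pPrime p : Nat.Primes) : ℕ)]] PadicAlgCl ((pPrime p : Nat.Primes) : ℕ) from γ) _
  have hc : (b / (b' * zu)) ^ p = 1 := by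
    rw [div_pow, mul_pow, hzu, div_self']
  obtain ⟨j, hjc⟩ : ∃ j : ℕ, ζ ^ j = b / (b' * zu) := by
    have hc' : ((b / (b' * zu) : (PadicAlgCl ((pPrime p : Nat.Primes) : ℕ))ˣ) :
        PadicAlgCl ((pPrime p : Nat.Primes) : ℕ)) ^ p = 1 := by
      rw [← Units.val_pow_eq_pow_val, hc, Units.val_one]
    obtain ⟨j, -, hj⟩ := (IsPrimitiveRoot.coe_units_iff.2 hζprim).eq_pow_of_pow_eq_one hc'
    exact ⟨j, Units.ext (by rw [Units.val_pow_eq_pow_val, hj])⟩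
  have hbeq : b = b' * zu * ζ ^ j := by
    rw [hjc, mul_div_cancel]
  refine ⟨(j : ZMod p), fun γ => ?_⟩
  have h2 : kfpE ζ ((cycLoc p γ - 1) * (j : ZMod p)) * ζ ^ j = (ζ ^ j) ^ (cycLoc p γ).val := by
    rw [← kfpE_natCast hζp j, ← kfpE_add hζp, ← kfpE_mul hζp]
    congr 1
    ring
  have h1 : kfpE ζ (f γ) = kfpE ζ (f' γ) * kfpE ζ ((cycLoc p γ - 1) * (j : ZMod p)) := by
    have e1 : γ • b = kfpE ζ (f γ) * b := by rw [← hb γ, div_mul_cancel]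
    have e2 : γ • b' = kfpE ζ (f' γ) * b' := by rw [← hb' γ, div_mul_cancel]
    have e3 : γ • b = γ • b' * zu * (ζ ^ j) ^ (cycLoc p γ).val := by
      conv_lhs => rw [hbeq]
      rw [smul_mul', smul_mul', hzfix, smul_pow', hζ γ, ← pow_mul, ← pow_mul, mul_comm j]
    have e4 : kfpE ζ (f γ) * b
        = kfpE ζ (f' γ) * kfpE ζ ((cycLoc p γ - 1) * (j : ZMod p)) * b := by
      rw [← e1, e3, e2, ← h2]
      conv_rhs => rw [hbeq]
      ac_rfl
    exact mul_right_cancel e4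
  rw [← kfpE_add hζp] at h1
  have h3 := kfpE_injective hζprim h1
  rw [h3]
  ring

/-- **(K1, peu ramifié)** the peu ramifiés `cycLoc`-twisted cocycles `Gp p → 𝔽_p` fall into at
most `p` classes modulo coboundaries (`ℤ_p^× / (ℤ_p^×)^p`). -/
theorem cb_kummer_fp (p : ℕ) [Fact p.Prime] (hp2 : p ≠ 2) {ζ₀ : AlgebraicClosure ℚ}
    (hζ₀ : IsPrimitiveRoot ζ₀ p) :
    ∃ F : (Gp p → ZMod p) → Fin p, ∀ f f' : Gp p → ZMod p,
      f ∈ twZ p (cycLoc p) → f' ∈ twZ p (cycLoc p) → CbPeu p ζ₀ f → CbPeu p ζ₀ f' → F f = F f' →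
      ∃ t : ZMod p, ∀ γ : Gp p, f γ - f' γ = (cycLoc p γ - 1) * t := by
  classical
  have : NeZero p := ⟨(Fact.out : p.Prime).ne_zero⟩
  have hK2 : ∃ G : ℚ_[((pPrime p : Nat.Primes) : ℕ)]ˣ → Fin p,
      ∀ x y : ℚ_[((pPrime p : Nat.Primes) : ℕ)]ˣ,
        (p : ℤ) ∣ (x : ℚ_[((pPrime p : Nat.Primes) : ℕ)]).valuation →
        (p : ℤ) ∣ (y : ℚ_[((pPrime p : Nat.Primes) : ℕ)]).valuation → G x = G y →
        ∃ z : ℚ_[((pPrime p : Nat.Primes) : ℕ)]ˣ, x = y * z ^ p :=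
    cbp_units_mod_pow p hp2
  obtain ⟨G, hG⟩ := hK2
  obtain ⟨ζ, hζι, hζprim, hζ⟩ := cbv_zeta p hζ₀
  have hζp : ζ ^ p = 1 := hζprim.pow_eq_one
  have hex : ∀ f : Gp p → ZMod p, ∃ x : ℚ_[((pPrime p : Nat.Primes) : ℕ)]ˣ,
      f ∈ twZ p (cycLoc p) → ∃ b : (PadicAlgCl ((pPrime p : Nat.Primes) : ℕ))ˣ,
        (∀ γ : Gp p, γ • b / b = kfpE ζ (f γ)) ∧
        algebraMap ℚ_[((pPrime p : Nat.Primes) : ℕ)] (PadicAlgCl ((pPrime p : Nat.Primes) : ℕ))
          (x : ℚ_[((pPrime p : Nat.Primes) : ℕ)])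
          = ((b ^ p : (PadicAlgCl ((pPrime p : Nat.Primes) : ℕ))ˣ) :
              PadicAlgCl ((pPrime p : Nat.Primes) : ℕ)) := by
    intro f
    by_cases hf : f ∈ twZ p (cycLoc p)
    · obtain ⟨b, x, hb, hx⟩ := kfp_exists_root hζp hζ hf
      exact ⟨x, fun _ => ⟨b, hb, hx⟩⟩
    · exact ⟨1, fun h => absurd h hf⟩
  choose X hX using hex
  refine ⟨fun f => G (X f), fun f f' hf hf' hpeu hpeu' hFF => ?_⟩
  obtain ⟨b, hb, hx⟩ := hX f hf
  obtain ⟨b', hb', hx'⟩ := hX f' hf'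
  obtain ⟨z, hz⟩ := hG _ _ (cbv_dvd_valuation p hp2 hζ₀ hζι hpeu hb hx)
    (cbv_dvd_valuation p hp2 hζ₀ hζι hpeu' hb' hx') hFF
  exact cb_cobound p hζprim hζ hb hx hb' hx' hz

/-- **(B)** there are at most `|k|²` peu ramifiés cocycles of `k(ω)`. -/
theorem twZpeu_card_le {k : Type} [Field k] [Finite k] (p : ℕ) [Fact p.Prime] (hp2 : p ≠ 2)
    (hpk : (p : k) = 0) (ω : Gp p → k) (hω : IsCycLoc p ω)
    (ζ : AlgebraicClosure ℚ) (hζ : IsPrimitiveRoot ζ p) :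
    Finite ↥(twZpeu p ζ hζ.pow_eq_one ω) ∧
      Nat.card ↥(twZpeu p ζ hζ.pow_eq_one ω) ≤ Nat.card k ^ 2 := by
  classical
  have hchar : CharP k p := sok3_charP p hpk
  letI : Algebra (ZMod p) k := ZMod.algebra k p
  letI : Fintype k := Fintype.ofFinite k
  set d := Module.finrank (ZMod p) k with hd
  have hcard : Nat.card k = p ^ d := by
    have h := Module.card_eq_pow_finrank (K := ZMod p) (V := k)
    rw [ZMod.card] at h
    rw [Nat.card_eq_fintype_card, h]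
  let b : Module.Basis (Fin d) (ZMod p) k := Module.finBasis (ZMod p) k
  obtain ⟨F, hF⟩ := cb_kummer_fp p hp2 hζ
  obtain ⟨γ₁, hγ₁⟩ := exists_cycLoc_ne_one p hp2
  let Φ : ↥(twZpeu p ζ hζ.pow_eq_one ω) → (Fin d → Fin p) × k := fun f =>
    (fun i => F (fun γ => b.coord i (f.1 γ)), f.1 γ₁)
  have hpeu : ∀ (f : ↥(twZpeu p ζ hζ.pow_eq_one ω)) (i : Fin d),
      CbPeu p ζ (fun γ => b.coord i (f.1 γ)) := fun f i =>
    f.2.2 (b.coord i).toAddMonoidHom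
  have hΦ : Function.Injective Φ := by
    intro f f' hff
    have h1 : ∀ i, F (fun γ => b.coord i (f.1 γ)) = F (fun γ => b.coord i (f'.1 γ)) :=
      fun i => congrFun (congrArg Prod.fst hff) i
    have h2 : f.1 γ₁ = f'.1 γ₁ := congrArg Prod.snd hff
    have h3 : ∀ i, ∃ t : ZMod p, ∀ γ : Gp p,
        b.coord i (f.1 γ) - b.coord i (f'.1 γ) = (cycLoc p γ - 1) * t :=
      fun i => hF _ _ (sok3_coord_mem p ω hω (b.coord i) f.2.1)
        (sok3_coord_mem p ω hω (b.coord i) f'.2.1) (hpeu f i) (hpeu f' i) (h1 i)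
    choose t ht using h3
    set T : k := ∑ i, t i • b i with hT
    have hTi : ∀ i, b.coord i T = t i := by
      intro i
      rw [hT, Module.Basis.coord_apply, Module.Basis.repr_sum_self]
    have hkey : ∀ γ : Gp p, f.1 γ - f'.1 γ = (ω γ - 1) * T := by
      intro γ
      apply b.repr.injective
      ext i
      have e1 : b.repr (f.1 γ - f'.1 γ) i = b.coord i (f.1 γ) - b.coord i (f'.1 γ) := by
        rw [map_sub, Finsupp.sub_apply]; rfl
      have e2 : b.repr ((ω γ - 1) * T) i = (cycLoc p γ - 1) * t i := by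
        have e3 : (ω γ - 1) * T = (cycLoc p γ - 1) • T := by
          rw [Algebra.smul_def, map_sub, map_one, sok3_omega_eq p ω hω γ]
        rw [e3, map_smul, Finsupp.smul_apply, smul_eq_mul]
        congr 1
        exact hTi i
      rw [e1, e2, ht i γ]
    have hω1 : ω γ₁ - 1 ≠ 0 := by
      intro h0
      apply hγ₁
      have h4 : algebraMap (ZMod p) k (cycLoc p γ₁) = algebraMap (ZMod p) k 1 := by
        rw [map_one, ← sok3_omega_eq p ω hω γ₁]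
        exact sub_eq_zero.1 h0
      exact (algebraMap (ZMod p) k).injective h4
    have hT0 : T = 0 := by
      have h5 := hkey γ₁
      rw [h2, sub_self] at h5
      rcases mul_eq_zero.1 h5.symm with h | h
      · exact absurd h hω1
      · exact h
    apply Subtype.ext
    funext γ
    have h6 := hkey γ
    rw [hT0, mul_zero] at h6
    exact sub_eq_zero.1 h6
  haveI : Finite ↥(twZpeu p ζ hζ.pow_eq_one ω) := Finite.of_injective Φ hΦ
  refine ⟨inferInstance, ?_⟩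
  calc Nat.card ↥(twZpeu p ζ hζ.pow_eq_one ω) ≤ Nat.card ((Fin d → Fin p) × k) :=
        Nat.card_le_card_of_injective Φ hΦ
    _ = Nat.card k ^ 2 := by
        rw [Nat.card_prod, Nat.card_fun, Nat.card_fin, Nat.card_fin, hcard, ← pow_mul,
          ← pow_add]
        congr 1
        ring

end Fermat.Agent.S56.W4
end MergeWrap_S56_W4_CountB
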