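import Fermat.Agent.MU.S56.W4.Defs
import Fermat.Agent.MU.S56.W3.Arch
import Fermat.Agent.MU.Lib.FFL.Free
import Fermat.Agent.Lib.MultRed.InertiaCyclo
import Fermat.Agent.S59.DefCond.StrictOrdAlg

section MergeWrap_S56_W4_Tri -- from S56/W4/Tri.lean

set_option autoImplicit false

namespace Fermat.Agent.S56.W4

open Fermat.Agent.F4 ExtCitation Fermat.Agent.S56.SO Fermat.Agent.FFL

variable {k : Type} [Field k]

/-- The kernel of the map to the inertia coinvariants of `ρbar`. -/
noncomputable abbrev coinvBar (P : ValuationSubring (AlgebraicClosure ℚ))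
    (ρbar : ResidualGaloisRep k) : Submodule k ρbar.V :=
  coinvKer P (GaloisRepAdic.ofResidualGaloisRep ρbar)

theorem sub_mem_coinvBar (P : ValuationSubring (AlgebraicClosure ℚ)) (ρbar : ResidualGaloisRep k)
    {σ : GQ} (hσ : σ ∈ P.inertiaSubgroupIn ℚ) (v : ρbar.V) : ρbar.ρ σ v - v ∈ coinvBar P ρbar :=
  sub_mem_coinvKer P (GaloisRepAdic.ofResidualGaloisRep ρbar) hσ v

theorem map_mem_coinvBar (P : ValuationSubring (AlgebraicClosure ℚ)) (ρbar : ResidualGaloisRep k)
    {τ : GQ} (hτ : τ ∈ P.decompositionSubgroup ℚ) {x : ρbar.V} (hx : x ∈ coinvBar P ρbar) :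
    ρbar.ρ τ x ∈ coinvBar P ρbar :=
  map_mem_coinvKer P (GaloisRepAdic.ofResidualGaloisRep ρbar) hτ hx

/-- Inertia acts non-trivially on `ρbar` (its determinant is the cyclotomic character, `p` odd). -/
theorem coinvBar_ne_bot (p : ℕ) [Fact p.Prime] (hp2 : p ≠ 2)
    (P : ValuationSubring (AlgebraicClosure ℚ)) (hP : P.LiesOverPrime p)
    (ρbar : ResidualGaloisRep k)
    (hdet : (GaloisRepAdic.ofResidualGaloisRep ρbar).DetIsCyclotomic p) :
    coinvBar P ρbar ≠ ⊥ := by
  intro hbot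
  have hp : p.Prime := Fact.out
  have hpk : (p : k) = 0 := Fermat.Agent.S56.arch_p_eq_zero p ρbar hdet
  have hchar : CharP k p := (CharP.charP_iff_prime_eq_zero hp).mpr hpk
  obtain ⟨σ₀, hσ₀, hne⟩ := Fermat.Agent.MultRed.exists_inertia_cycExp_ne_one p hp2 P hP
  obtain ⟨a₀, ha₀⟩ := Fermat.Agent.S59.SOArith.exists_cycExp p σ₀ 1
  have h1 : ρbar.ρ σ₀ = 1 := by
    apply LinearMap.ext
    intro v
    have h2 := sub_mem_coinvBar P ρbar hσ₀ v
    rw [hbot, Submodule.mem_bot, sub_eq_zero] at h2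
    rw [h2, Module.End.one_apply]
  have h3 : LinearMap.det (ρbar.ρ σ₀) = (a₀ : k) :=
    Fermat.Agent.S56.arch_det_eq p ρbar hdet σ₀ a₀
      (fun μ hμ => ha₀ μ (by rwa [pow_one]))
  rw [h1, map_one] at h3
  apply hne a₀ ha₀
  have h' : (((a₀ : ℤ) - 1 : ℤ) : k) = 0 := by
    push_cast
    rw [← h3, sub_self]
  exact (CharP.intCast_eq_zero_iff k p _).mp h'

/-- If the inertia coinvariants of `ρbar` are nonzero (and inertia acts non-trivially), `ρbar` is
triangular with unramified quotient. -/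
theorem exists_flTri_of_ne (P : ValuationSubring (AlgebraicClosure ℚ))
    (ρbar : ResidualGaloisRep k) (hbot : coinvBar P ρbar ≠ ⊥) (htop : coinvBar P ρbar ≠ ⊤) :
    ∃ w : Module.Basis (Fin 2) k ρbar.V, FlTri ρbar.ρ P w := by
  classical
  obtain ⟨w₀, hw₀C, hw₀⟩ := Submodule.exists_mem_ne_zero_of_ne_bot hbot
  obtain ⟨w₁, -, hw₁C⟩ := SetLike.exists_of_lt (lt_top_iff_ne_top.mpr htop)
  have hli : LinearIndependent k ![w₀, w₁] := by
    rw [LinearIndependent.pair_iff]
    intro s t hst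
    have ht : t = 0 := by
      by_contra ht
      apply hw₁C
      have h1 : w₁ = (-(t⁻¹ * s)) • w₀ := by
        have h2 : t • w₁ = -(s • w₀) := by
          rw [eq_neg_iff_add_eq_zero, add_comm]
          exact hst
        calc w₁ = t⁻¹ • (t • w₁) := by rw [smul_smul, inv_mul_cancel₀ ht, one_smul]
          _ = (-(t⁻¹ * s)) • w₀ := by rw [h2, smul_neg, smul_smul, neg_smul]
      rw [h1]
      exact Submodule.smul_mem _ _ hw₀C
    refine ⟨?_, ht⟩
    rw [ht, zero_smul, add_zero] at hst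
    exact (smul_eq_zero.mp hst).resolve_right hw₀
  have hcard : Fintype.card (Fin 2) = Module.finrank k ρbar.V := by
    rw [ρbar.finrank_eq, Fintype.card_fin]
  let w : Module.Basis (Fin 2) k ρbar.V := basisOfLinearIndependentOfCardEqFinrank hli hcard
  have hw0 : w 0 = w₀ := by
    show basisOfLinearIndependentOfCardEqFinrank hli hcard 0 = w₀
    rw [coe_basisOfLinearIndependentOfCardEqFinrank]
    rfl
  have hw1 : w 1 = w₁ := by
    show basisOfLinearIndependentOfCardEqFinrank hli hcard 1 = w₁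
    rw [coe_basisOfLinearIndependentOfCardEqFinrank]
    rfl
  -- elements of `C` have no `w 1`-component
  have key : ∀ x ∈ coinvBar P ρbar, w.repr x 1 = 0 := by
    intro x hx
    by_contra hne
    apply hw₁C
    have hx' : x = w.repr x 0 • w₀ + w.repr x 1 • w₁ := by
      conv_lhs => rw [← w.sum_repr x]
      rw [Fin.sum_univ_two, hw0, hw1]
    have h1 : w₁ = (w.repr x 1)⁻¹ • (x - w.repr x 0 • w₀) := by
      have h2 : x - w.repr x 0 • w₀ = w.repr x 1 • w₁ := by
        rw [sub_eq_iff_eq_add']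
        exact hx'
      rw [h2, smul_smul, inv_mul_cancel₀ hne, one_smul]
    rw [h1]
    exact Submodule.smul_mem _ _ (Submodule.sub_mem _ hx (Submodule.smul_mem _ _ hw₀C))
  refine ⟨w, ⟨fun σ hσ => ?_, fun σ hσ => ?_⟩⟩
  · apply key
    rw [hw0]
    exact map_mem_coinvBar P ρbar hσ hw₀C
  · have h1 := key _ (sub_mem_coinvBar P ρbar hσ (w 1))
    rw [map_sub, Finsupp.sub_apply, sub_eq_zero] at h1
    rw [h1, Module.Basis.repr_self, Finsupp.single_eq_same]

/-- **The supersingular case has no inertia coinvariants**: if `ρbar` is not triangular with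
unramified quotient at `P`, every vector is in the augmentation subgroup of inertia. -/
theorem coinv_eq_top_of_not_flTri (p : ℕ) [Fact p.Prime] (hp2 : p ≠ 2)
    (P : ValuationSubring (AlgebraicClosure ℚ)) (hP : P.LiesOverPrime p)
    (ρbar : ResidualGaloisRep k)
    (hdet : (GaloisRepAdic.ofResidualGaloisRep ρbar).DetIsCyclotomic p)
    (hss : ¬ ∃ w : Module.Basis (Fin 2) k ρbar.V, FlTri ρbar.ρ P w) :
    ∀ v : ρbar.V, v ∈ augI P (fun σ (v : ρbar.V) => ρbar.ρ σ v) := by
  have htop : coinvBar P ρbar = ⊤ := by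
    by_contra htop
    exact hss (exists_flTri_of_ne P ρbar (coinvBar_ne_bot p hp2 P hP ρbar hdet) htop)
  intro v
  have h1 : v ∈ (coinvKer P (GaloisRepAdic.ofResidualGaloisRep ρbar)).toAddSubgroup := by
    have h2 : v ∈ coinvBar P ρbar := by
      rw [htop]
      exact Submodule.mem_top
    exact h2
  have h3 := coinvKer_toAddSubgroup P (GaloisRepAdic.ofResidualGaloisRep ρbar)
  rw [h3] at h1
  exact h1

/-- Conversely, in the ordinary case the inertia coinvariants are nonzero: `coinvBar ≤ k · w 0`. -/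
theorem coinvBar_le_of_flTri {P : ValuationSubring (AlgebraicClosure ℚ)}
    {ρbar : ResidualGaloisRep k} {w : Module.Basis (Fin 2) k ρbar.V} (hw : FlTri ρbar.ρ P w) :
    ∀ x ∈ coinvBar P ρbar, w.repr x 1 = 0 := by
  have gen : ∀ σ ∈ P.inertiaSubgroupIn ℚ, ∀ v : ρbar.V, w.repr (ρbar.ρ σ v - v) 1 = 0 := by
    intro σ hσ v
    have hD : σ ∈ P.decompositionSubgroup ℚ := Fermat.Agent.S59.SO.inertia_le_decomposition hσ
    have hv : v = w.repr v 0 • w 0 + w.repr v 1 • w 1 := by
      conv_lhs => rw [← w.sum_repr v]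
      rw [Fin.sum_univ_two]
    rw [map_sub, Finsupp.sub_apply, sub_eq_zero]
    conv_lhs => rw [hv]
    rw [map_add, map_smul, map_smul, map_add, map_smul, map_smul, Finsupp.add_apply,
      Finsupp.smul_apply, Finsupp.smul_apply, hw.dec σ hD, hw.inert σ hσ, smul_zero, zero_add,
      smul_eq_mul, mul_one]
  intro x hx
  refine Submodule.span_induction (p := fun x _ => w.repr x 1 = 0) ?_ ?_ ?_ ?_ hx
  · rintro y ⟨σ, hσ, v, rfl⟩
    exact gen σ hσ v
  · rw [map_zero]
    rfl
  · intro y z _ _ hy hz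
    rw [map_add, Finsupp.add_apply, hy, hz, add_zero]
  · intro a y _ hy
    rw [map_smul, Finsupp.smul_apply, hy, smul_zero]

end Fermat.Agent.S56.W4
end MergeWrap_S56_W4_Tri
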