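import Mathlib
import Fermat.Prelude.Def_GaloisRep_Flat
import Fermat.Agent.MU.Lib.FFL.FB.FieldRoot
import Fermat.Agent.MU.Lib.BadRed.PeuD.BrkTame
import Fermat.Agent.MU.Lib.FFL.FB.PeuMono
import Fermat.Agent.MU.Lib.FFL.Base
import Fermat.Agent.MU.Lib.FFL.FB.FieldTeich
import Fermat.Agent.Lib.KFin.Inertia
import Fermat.Agent.MU.Lib.FFL.FB.UnitDefs
import Fermat.Agent.MU.S56.W4.Defs
import Fermat.Agent.MU.Lib.FFL.FreeFinal
import Fermat.Agent.MU.S56.W4.Normal.Pack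
import Fermat.Agent.MU.S56.W4.CountB
import Fermat.Agent.MU.S56.W4.Count
import Fermat.Agent.MU.S56.W3.Arch
import Fermat.Agent.S56.W3.SO.Place
import Fermat.Agent.MU.E.Desc.FlatAsmK
import Fermat.Agent.MU.S56.W4.C.Defs
import Fermat.Agent.MU.S56.W3.SO.Tangent.Red
import Fermat.Agent.MU.Lib.FFL.Free
import Fermat.Agent.MU.S56.W4.Tri
import Fermat.Agent.MU.S56.W4.CountA.Main
import Fermat.Agent.MU.S56.W4.C.KT.Defs
import Fermat.Agent.S59.DefCond.StrictOrdArith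
import Fermat.Agent.MU.Lib.TameInertia.Local
import Fermat.Agent.MU.S56.W3.TW.Gen
import Fermat.Agent.MU.S56.W3.TW.Asm
import Fermat.Agent.MU.S56.Local.Walls
import Fermat.Agent.MU.S56.W4.C.S.Final
import Fermat.Agent.MU.S56.W4.C.TR.Main
import Fermat.Agent.MU.S56.W4.C.KT.Bridge
import Fermat.Agent.MU.S56.W4.C.KN.Final
import Fermat.Agent.MU.S56.W4.C.KN.Tame

section MergeWrap_Lib_FFL_FB_Depth -- from Lib/FFL/FB/Depth.lean

set_option autoImplicit false
set_option linter.unusedSectionVars false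
set_option linter.unusedVariables false

namespace Fermat.Agent.FFL.FB

open Fermat.Agent.FFL

local notation "Kb" => AlgebraicClosure ℚ
local notation "GK" => (AlgebraicClosure ℚ ≃ₐ[ℚ] AlgebraicClosure ℚ)

section valuation

variable {K : Type*} [Field K] {Γ₀ : Type*} [LinearOrderedCommGroupWithZero Γ₀]
  (v : Valuation K Γ₀)

/-- Ultrametric with pairwise distinct valuations: the valuation of the sum is the largest one.
Form: every term is bounded by the valuation of the sum. -/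
theorem depth_val_le_sum {ι : Type*} [DecidableEq ι] (S : Finset ι) (t : ι → K)
    (hdist : ∀ i ∈ S, ∀ j ∈ S, i ≠ j → t i ≠ 0 → v (t i) ≠ v (t j)) :
    ∀ i ∈ S, v (t i) ≤ v (∑ j ∈ S, t j) := by
  induction S using Finset.induction_on with
  | empty => intro i hi; simp at hi
  | insert a S ha ih =>
    have ih' := ih (fun i hi j hj hij h0 =>
      hdist i (Finset.mem_insert_of_mem hi) j (Finset.mem_insert_of_mem hj) hij h0)
    rw [Finset.sum_insert ha]
    by_cases hta : t a = 0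
    · intro i hi
      rw [hta, zero_add]
      rcases Finset.mem_insert.1 hi with rfl | hi
      · rw [hta, map_zero]; exact zero_le'
      · exact ih' i hi
    · -- `v (t a)` differs from `v (∑ S)`
      have hne : v (t a) ≠ v (∑ j ∈ S, t j) := by
        intro heq
        -- the sum over `S` is nonzero, so some term of `S` has the valuation of the sum
        have hsum0 : v (∑ j ∈ S, t j) ≠ 0 := by
          rw [← heq]; exact (Valuation.ne_zero_iff v).2 hta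
        obtain ⟨j, hj, hjv⟩ : ∃ j ∈ S, v (∑ j ∈ S, t j) ≤ v (t j) := by
          by_contra hcon
          push_neg at hcon
          have := Valuation.map_sum_lt v hsum0 hcon
          exact lt_irrefl _ this
        have hjeq : v (t j) = v (∑ j ∈ S, t j) := le_antisymm (ih' j hj) hjv
        have haj : a ≠ j := fun h => ha (h ▸ hj)
        exact hdist a (Finset.mem_insert_self a S) j (Finset.mem_insert_of_mem hj) haj hta
          (heq.trans hjeq.symm)
      rw [Valuation.map_add_of_distinct_val v hne]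
      intro i hi
      rcases Finset.mem_insert.1 hi with rfl | hi
      · exact le_max_left _ _
      · exact (ih' i hi).trans (le_max_right _ _)

/-- Some term dominates the sum. -/
theorem depth_exists_sum_le {ι : Type*} (S : Finset ι) (t : ι → K) (hS : S.Nonempty) :
    ∃ i ∈ S, v (∑ j ∈ S, t j) ≤ v (t i) := by
  classical
  by_cases h0 : v (∑ j ∈ S, t j) = 0
  · obtain ⟨i, hi⟩ := hS
    exact ⟨i, hi, by rw [h0]; exact zero_le'⟩
  · by_contra hcon
    push_neg at hcon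
    exact lt_irrefl _ (Valuation.map_sum_lt v h0 hcon)

end valuation

section basics

variable {p : ℕ} {P : ValuationSubring Kb}

theorem depth_fixedBy_div {N : Subgroup GK} {a b : Kb} (ha : FixedBy N a) (hb : FixedBy N b) :
    FixedBy N (a / b) := fun σ hσ => by rw [map_div₀, ha σ hσ, hb σ hσ]

theorem depth_fixedBy_mul {N : Subgroup GK} {a b : Kb} (ha : FixedBy N a) (hb : FixedBy N b) :
    FixedBy N (a * b) := fun σ hσ => by rw [map_mul, ha σ hσ, hb σ hσ]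

theorem depth_fixedBy_pow {N : Subgroup GK} {a : Kb} (ha : FixedBy N a) (n : ℕ) :
    FixedBy N (a ^ n) := fun σ hσ => by rw [map_pow, ha σ hσ]

theorem depth_fixedBy_inv {N : Subgroup GK} {a : Kb} (ha : FixedBy N a) :
    FixedBy N a⁻¹ := fun σ hσ => by rw [map_inv₀, ha σ hσ]

theorem depth_fixedBy_natCast (N : Subgroup GK) (n : ℕ) : FixedBy N (n : Kb) :=
  fun σ _ => map_natCast σ n

theorem depth_fixedBy_sum {N : Subgroup GK} {ι : Type*} (S : Finset ι) (f : ι → Kb)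
    (hf : ∀ i ∈ S, FixedBy N (f i)) : FixedBy N (∑ i ∈ S, f i) := fun σ hσ => by
  rw [map_sum]
  exact Finset.sum_congr rfl fun i hi => hf i hi σ hσ

/-- `π1 ≠ 0`. -/
theorem depth_pi_ne_zero (hp : p.Prime) {π1 : Kb} (hπ : π1 ^ (p ^ 2 - 1) = -(p : Kb)) :
    π1 ≠ 0 := by
  rintro rfl
  have h2 : 2 ≤ p := hp.two_le
  have hN : p ^ 2 - 1 ≠ 0 := by
    have : 4 ≤ p ^ 2 := by nlinarith
    omega
  rw [zero_pow hN] at hπ
  exact ar_p_ne_zero hp (neg_eq_zero.1 hπ.symm)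

/-- `v(π1)^(p²-1) = v(p)`. -/
theorem depth_val_pi_pow {π1 : Kb} (hπ : π1 ^ (p ^ 2 - 1) = -(p : Kb)) :
    P.valuation π1 ^ (p ^ 2 - 1) = P.valuation (p : Kb) := by
  rw [← map_pow, hπ, Valuation.map_neg]

theorem depth_val_p_pos (hp : p.Prime) : 0 < P.valuation (p : Kb) :=
  zero_lt_iff.2 ((Valuation.ne_zero_iff _).2 (ar_p_ne_zero hp))

theorem depth_val_pi_pos (hp : p.Prime) {π1 : Kb} (hπ : π1 ^ (p ^ 2 - 1) = -(p : Kb)) :
    0 < P.valuation π1 :=
  zero_lt_iff.2 ((Valuation.ne_zero_iff _).2 (depth_pi_ne_zero hp hπ))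

theorem depth_val_pi_lt (hp : p.Prime) (hP : P.LiesOverPrime p) {π1 : Kb}
    (hπ : π1 ^ (p ^ 2 - 1) = -(p : Kb)) : P.valuation π1 < 1 := by
  by_contra h
  rw [not_lt] at h
  have h1 : (1 : P.ValueGroup) ≤ P.valuation π1 ^ (p ^ 2 - 1) := one_le_pow₀ h
  rw [depth_val_pi_pow hπ] at h1
  exact absurd (ar_val_p_lt hP) (not_lt.2 h1)

/-- In the value group, `a ^ n = 1` with `n ≠ 0` forces `a = 1`. -/
theorem depth_eq_one_of_pow_eq_one {a : P.ValueGroup} {n : ℕ} (hn : n ≠ 0) (h : a ^ n = 1) :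
    a = 1 := by
  rcases lt_trichotomy a 1 with h1 | h1 | h1
  · exact absurd h (ne_of_lt (pow_lt_one₀ zero_le' h1 hn))
  · exact h1
  · exact absurd h (ne_of_gt (one_lt_pow₀ h1 hn))

/-- The value group of the `N`-fixed field is generated by `v(π1)`. -/
theorem depth_hval (hp : p.Prime) (hP : P.LiesOverPrime p) {π1 : Kb}
    (hπ : π1 ^ (p ^ 2 - 1) = -(p : Kb)) (N : Subgroup GK) (hπN : FixedBy N π1)
    (hunif : ∀ x ∈ P.nonunits, FixedBy N x → x / π1 ∈ P) :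
    ∀ d : Kb, d ≠ 0 → FixedBy N d → ∃ k : ℤ, P.valuation d = P.valuation π1 ^ k := by
  have hπ0 := depth_pi_ne_zero hp hπ
  have hvπ0 : P.valuation π1 ≠ 0 := (Valuation.ne_zero_iff _).2 hπ0
  have key : ∀ n : ℕ, ∀ d : Kb, d ∈ P → FixedBy N d → P.valuation π1 ^ n ≤ P.valuation d →
      ∃ k : ℕ, P.valuation d = P.valuation π1 ^ k := by
    intro n
    induction n with
    | zero =>
      intro d hd _ hle
      rw [pow_zero] at hle
      exact ⟨0, by rw [pow_zero]; exact le_antisymm ((P.valuation_le_one_iff _).2 hd) hle⟩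
    | succ n ih =>
      intro d hd hfix hle
      by_cases h1 : P.valuation d = 1
      · exact ⟨0, by rw [pow_zero]; exact h1⟩
      · have hlt : P.valuation d < 1 :=
          lt_of_le_of_ne ((P.valuation_le_one_iff _).2 hd) h1
        have hdn : d ∈ P.nonunits := (P.mem_nonunits_iff).2 hlt
        have hq := hunif d hdn hfix
        have hle' : P.valuation π1 ^ n ≤ P.valuation (d / π1) := by
          rw [map_div₀, le_div_iff₀ (zero_lt_iff.2 hvπ0), ← pow_succ]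
          exact hle
        obtain ⟨k, hk⟩ := ih (d / π1) hq (depth_fixedBy_div hfix hπN) hle'
        refine ⟨k + 1, ?_⟩
        rw [map_div₀, div_eq_iff hvπ0] at hk
        rw [hk, pow_succ]
  have key2 : ∀ d : Kb, d ≠ 0 → d ∈ P → FixedBy N d →
      ∃ k : ℕ, P.valuation d = P.valuation π1 ^ k := by
    intro d hd0 hd hfix
    obtain ⟨m, hm⟩ := dvdProp hp hP d hd0
    have hvd0 : P.valuation d ≠ 0 := (Valuation.ne_zero_iff _).2 hd0
    have h1 : P.valuation (p : Kb) ^ m ≤ P.valuation d := by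
      have := (P.valuation_le_one_iff _).2 hm
      rwa [map_div₀, map_pow, div_le_iff₀ (zero_lt_iff.2 hvd0), one_mul] at this
    rw [← depth_val_pi_pow hπ, ← pow_mul] at h1
    exact key _ d hd hfix h1
  intro d hd0 hfix
  rcases P.mem_or_inv_mem d with hd | hd
  · obtain ⟨k, hk⟩ := key2 d hd0 hd hfix
    exact ⟨k, by rw [zpow_natCast]; exact hk⟩
  · obtain ⟨k, hk⟩ := key2 d⁻¹ (inv_ne_zero hd0) hd (depth_fixedBy_inv hfix)
    refine ⟨-(k : ℤ), ?_⟩
    rw [map_inv₀] at hk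
    rw [zpow_neg, zpow_natCast, ← hk, inv_inv]

/-- `ζ_p` is fixed by the stabiliser of `π1` in the inertia group. -/
theorem depth_zeta_fixed (hp : p.Prime) (hP : P.LiesOverPrime p) {π1 : Kb}
    (hπ : π1 ^ (p ^ 2 - 1) = -(p : Kb)) {ζ : Kb} (hζ : IsPrimitiveRoot ζ p) :
    ∀ σ ∈ stabI P π1, σ ζ = ζ := by
  intro σ hσ
  by_contra hne
  have hπ0 := depth_pi_ne_zero hp hπ
  have hζ0 : ζ ≠ 0 := hζ.ne_zero hp.ne_zero
  have hζ1 : ζ ≠ 1 := hζ.ne_one hp.one_lt
  -- ξ = σ ζ / ζ is a nontrivial p-th root of unity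
  have hξp : (σ ζ / ζ) ^ p = 1 := by
    rw [div_pow, ← map_pow, hζ.pow_eq_one, map_one, div_one]
  have hξ1 : σ ζ / ζ ≠ 1 := fun h => hne (by rwa [div_eq_one_iff_eq hζ0] at h)
  have hvξ := val_root_sub_one_pow (P := P) hp hξp hξ1
  have hvζ : P.valuation ζ = 1 :=
    depth_eq_one_of_pow_eq_one hp.ne_zero (by rw [← map_pow, hζ.pow_eq_one, map_one])
  have hdiff : σ ζ - ζ = ζ * (σ ζ / ζ - 1) := by field_simp
  have hvdiff : P.valuation (σ ζ - ζ) ^ (p - 1) = P.valuation (p : Kb) := by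
    rw [hdiff, map_mul, hvζ, one_mul, hvξ]
  have hpN : (p + 1) * (p - 1) = p ^ 2 - 1 := by
    have h1 : 1 ≤ p := hp.one_lt.le
    obtain ⟨q, rfl⟩ : ∃ q, p = q + 1 := ⟨p - 1, by omega⟩
    have : (q + 1) ^ 2 = (q + 1 + 1) * q + 1 := by ring
    rw [this]
    simp
  have hvπ : (P.valuation (π1 ^ (p + 1))) ^ (p - 1) = P.valuation (p : Kb) := by
    rw [map_pow, ← pow_mul, hpN, depth_val_pi_pow hπ]
  set θ : Kb := (ζ - 1) / π1 ^ (p + 1) with hθ
  have hvθ : P.valuation θ = 1 := by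
    apply depth_eq_one_of_pow_eq_one (Nat.sub_ne_zero_of_lt hp.one_lt)
    rw [hθ, map_div₀, div_pow, hvπ, val_root_sub_one_pow hp hζ.pow_eq_one hζ1]
    exact div_self (ne_of_gt (depth_val_p_pos hp))
  have hθP : θ ∈ P := (P.valuation_le_one_iff _).1 hvθ.le
  have hin := Fermat.Agent.Cyclo.inertia_sub_mem_nonunits P hσ.1 hθP
  have hσθ : σ θ - θ = (σ ζ - ζ) / π1 ^ (p + 1) := by
    rw [hθ, map_div₀, map_pow, hσ.2, map_sub, map_one]
    ring
  rw [hσθ] at hin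
  have hv1 : P.valuation ((σ ζ - ζ) / π1 ^ (p + 1)) = 1 := by
    apply depth_eq_one_of_pow_eq_one (Nat.sub_ne_zero_of_lt hp.one_lt)
    rw [map_div₀, div_pow, hvπ, hvdiff]
    exact div_self (ne_of_gt (depth_val_p_pos hp))
  have := (P.mem_nonunits_iff).1 hin
  rw [hv1] at this
  exact lt_irrefl _ this


/-- `v(u - 1) = v(π1)^s` for `u` of level `s` with unit leading coefficient. -/
theorem depth_val_of_lcAt (hp : p.Prime) (hP : P.LiesOverPrime p) {π1 : Kb}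
    (hπ : π1 ^ (p ^ 2 - 1) = -(p : Kb)) {s : ℕ} {u a : Kb} (ha : a ∈ P)
    (hau : a ∉ P.nonunits) (hlc : LcAt P π1 s u a) :
    P.valuation (u - 1) = P.valuation π1 ^ s := by
  have hπ0 := depth_pi_ne_zero hp hπ
  have hva : P.valuation a = 1 := by
    apply le_antisymm ((P.valuation_le_one_iff _).2 ha)
    by_contra h
    exact hau ((P.mem_nonunits_iff).2 (not_le.1 h))
  set t : Kb := (u - 1 - a * π1 ^ s) / π1 ^ (s + 1) with ht
  have htP : t ∈ P := hlc
  have hu : u - 1 = a * π1 ^ s + π1 ^ (s + 1) * t := by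
    rw [ht]
    field_simp
    ring
  have hv1 : P.valuation (a * π1 ^ s) = P.valuation π1 ^ s := by
    rw [map_mul, hva, one_mul, map_pow]
  have hv2 : P.valuation (π1 ^ (s + 1) * t) < P.valuation (a * π1 ^ s) := by
    rw [hv1, map_mul, map_pow]
    calc P.valuation π1 ^ (s + 1) * P.valuation t ≤ P.valuation π1 ^ (s + 1) * 1 :=
          mul_le_mul_right ((P.valuation_le_one_iff _).2 htP) _
      _ = P.valuation π1 ^ (s + 1) := mul_one _
      _ < P.valuation π1 ^ s :=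
          pow_lt_pow_right_of_lt_one₀ (depth_val_pi_pos hp hπ) (depth_val_pi_lt hp hP hπ)
            (Nat.lt_succ_self s)
  rw [hu, Valuation.map_add_eq_of_lt_left _ hv2, hv1]

/-- **Root level**: if `β ^ p - 1` has valuation `v(π1)^s` with `0 < s < p² + p`, then
`v(β - 1)^p = v(π1)^s`. -/
theorem depth_rootlevel (hp : p.Prime) (hP : P.LiesOverPrime p) {π1 : Kb}
    (hπ : π1 ^ (p ^ 2 - 1) = -(p : Kb)) {s : ℕ} (hs0 : 0 < s) (hsp : s < p ^ 2 + p) {β : Kb}
    (hu : P.valuation (β ^ p - 1) = P.valuation π1 ^ s) :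
    P.valuation (β - 1) ^ p = P.valuation π1 ^ s := by
  have hvπ0 := depth_val_pi_pos (P := P) hp hπ
  have hvπ1 := depth_val_pi_lt hp hP hπ
  have hvp0 := depth_val_p_pos (P := P) hp
  have hL1 : P.valuation π1 ^ s < 1 := pow_lt_one₀ zero_le' hvπ1 (Nat.pos_iff_ne_zero.1 hs0)
  set b : Kb := β - 1 with hb
  have hβ : β = 1 + b := by rw [hb]; ring
  by_cases hbP : b ∈ P
  · obtain ⟨T, hT⟩ := fb_exists_binom p hp
    have hT' := hT Kb b
    rw [← hβ] at hT'
    obtain ⟨tb, htb, hT''⟩ : ∃ tb ∈ P,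
        β ^ p = 1 + (p : Kb) * b + (p : Kb) * b ^ 2 * tb + b ^ p :=
      ⟨_, ar_aeval_mem P T hbP, hT'⟩
    set w : Kb := (p : Kb) * b * (1 + b * tb) with hw
    have hsplit : β ^ p - 1 = b ^ p + w := by
      rw [hw]
      linear_combination hT''
    have hwv : P.valuation w ≤ P.valuation (p : Kb) * P.valuation b := by
      rw [hw, map_mul, map_mul]
      have h1 : (1 + b * tb) ∈ P :=
        P.add_mem _ _ P.one_mem (P.mul_mem _ _ hbP htb)
      calc P.valuation (p : Kb) * P.valuation b * P.valuation (1 + b * tb)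
          ≤ P.valuation (p : Kb) * P.valuation b * 1 :=
            mul_le_mul_right ((P.valuation_le_one_iff _).2 h1) _
        _ = P.valuation (p : Kb) * P.valuation b := mul_one _
    by_cases hcmp : P.valuation (p : Kb) < P.valuation b ^ (p - 1)
    · -- the good case
      have hvb0 : 0 < P.valuation b := by
        rcases eq_or_lt_of_le (zero_le' (a := P.valuation b)) with h | h
        · rw [← h, zero_pow (Nat.sub_ne_zero_of_lt hp.one_lt)] at hcmp
          exact absurd hcmp (not_lt.2 zero_le')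
        · exact h
      have hlt : P.valuation w < P.valuation (b ^ p) := by
        refine lt_of_le_of_lt hwv ?_
        rw [map_pow]
        have : P.valuation b ^ p = P.valuation b ^ (p - 1) * P.valuation b := by
          rw [← pow_succ, Nat.sub_add_cancel hp.one_lt.le]
        rw [this]
        exact mul_lt_mul_of_pos_right hcmp hvb0
      rw [← hu, hsplit, Valuation.map_add_eq_of_lt_left _ hlt, map_pow]
    · -- the bad case: contradiction
      exfalso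
      rw [not_lt] at hcmp
      have h1 : P.valuation (β ^ p - 1) ≤ P.valuation (p : Kb) * P.valuation b := by
        rw [hsplit]
        refine (P.valuation.map_add _ _).trans (max_le ?_ hwv)
        rw [map_pow]
        have : P.valuation b ^ p = P.valuation b ^ (p - 1) * P.valuation b := by
          rw [← pow_succ, Nat.sub_add_cancel hp.one_lt.le]
        rw [this]
        exact mul_le_mul_left hcmp _
      rw [hu] at h1
      have h2 : (P.valuation π1 ^ s) ^ (p - 1) ≤ P.valuation (p : Kb) ^ p := by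
        calc (P.valuation π1 ^ s) ^ (p - 1)
            ≤ (P.valuation (p : Kb) * P.valuation b) ^ (p - 1) := pow_le_pow_left₀ zero_le' h1 _
          _ = P.valuation (p : Kb) ^ (p - 1) * P.valuation b ^ (p - 1) := mul_pow _ _ _
          _ ≤ P.valuation (p : Kb) ^ (p - 1) * P.valuation (p : Kb) := mul_le_mul_right hcmp _
          _ = P.valuation (p : Kb) ^ p := by
              rw [← pow_succ, Nat.sub_add_cancel hp.one_lt.le]
      have hpN : (p - 1) * (p + 1) = p ^ 2 - 1 := by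
        obtain ⟨q, rfl⟩ : ∃ q, p = q + 1 := ⟨p - 1, by have := hp.one_lt; omega⟩
        have : (q + 1) ^ 2 = q * (q + 1 + 1) + 1 := by ring
        rw [this]
        simp
      have h3 : P.valuation (p : Kb) ^ s ≤ P.valuation (p : Kb) ^ (p * (p + 1)) := by
        calc P.valuation (p : Kb) ^ s = (P.valuation π1 ^ (p ^ 2 - 1)) ^ s := by
              rw [depth_val_pi_pow hπ]
          _ = ((P.valuation π1 ^ s) ^ (p - 1)) ^ (p + 1) := by
              rw [← pow_mul, ← pow_mul, ← pow_mul, ← hpN]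
              congr 1
              ring
          _ ≤ (P.valuation (p : Kb) ^ p) ^ (p + 1) := pow_le_pow_left₀ zero_le' h2 _
          _ = P.valuation (p : Kb) ^ (p * (p + 1)) := by rw [← pow_mul]
      have h4 : P.valuation (p : Kb) ^ (p * (p + 1)) < P.valuation (p : Kb) ^ s :=
        pow_lt_pow_right_of_lt_one₀ hvp0 (ar_val_p_lt hP) (by
          have : p * (p + 1) = p ^ 2 + p := by ring
          omega)
      exact absurd h3 (not_le.2 h4)
  · -- `b ∉ P`: then `v(β^p - 1) > 1`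
    exfalso
    have hvb : 1 < P.valuation b := by
      by_contra h
      exact hbP ((P.valuation_le_one_iff _).1 (not_lt.1 h))
    have hvβ : P.valuation β = P.valuation b := by
      rw [hβ, add_comm]
      exact Valuation.map_add_eq_of_lt_left _ (by rw [map_one]; exact hvb)
    have hvβp : 1 < P.valuation (β ^ p) := by
      rw [map_pow, hvβ]
      exact one_lt_pow₀ hvb hp.ne_zero
    have : P.valuation (β ^ p - 1) = P.valuation (β ^ p) := by
      rw [sub_eq_add_neg]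
      exact Valuation.map_add_eq_of_lt_left _ (by rw [Valuation.map_neg, map_one]; exact hvβp)
    rw [this] at hu
    rw [hu] at hvβp
    exact absurd hL1 (not_lt.2 hvβp.le)

end basics

section expand

variable {p : ℕ}

theorem depth_char_one {N : Subgroup GK} {χ : GK → ZMod p} (hχ : IsCharOn p N χ) : χ 1 = 0 := by
  have h := hχ 1 N.one_mem 1 N.one_mem
  rw [mul_one] at h
  have : χ 1 + 0 = χ 1 + χ 1 := by rw [add_zero]; exact h
  exact (add_left_cancel this).symm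

theorem depth_char_pow {N : Subgroup GK} {χ : GK → ZMod p} (hχ : IsCharOn p N χ) {g : GK}
    (hg : g ∈ N) (n : ℕ) : χ (g ^ n) = (n : ZMod p) * χ g := by
  induction n with
  | zero => rw [pow_zero, depth_char_one hχ, Nat.cast_zero, zero_mul]
  | succ n ih =>
    rw [pow_succ, hχ _ (N.pow_mem hg n) _ hg, ih, Nat.cast_succ]
    ring

theorem depth_char_inv {N : Subgroup GK} {χ : GK → ZMod p} (hχ : IsCharOn p N χ) {g : GK}
    (hg : g ∈ N) : χ g⁻¹ = -χ g := by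
  have h := hχ g hg g⁻¹ (N.inv_mem hg)
  rw [mul_inv_cancel, depth_char_one hχ] at h
  exact eq_neg_of_add_eq_zero_right h.symm

/-- The `i`-th eigencomponent of `x` with respect to `g` (`ξ = g β / β`). -/
noncomputable def depthE (p : ℕ) (ξ : Kb) (g : GK) (x : Kb) (i : ℕ) : Kb :=
  (p : Kb)⁻¹ * ∑ j ∈ Finset.range p, (ξ⁻¹) ^ (i * j) * (g ^ j) x

theorem depthE_sum (hp : p.Prime) {ξ : Kb} (hξ : IsPrimitiveRoot ξ p) (g : GK) (x : Kb) :
    ∑ i ∈ Finset.range p, depthE p ξ g x i = x := by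
  have hp0 : (p : Kb) ≠ 0 := Nat.cast_ne_zero.2 hp.ne_zero
  unfold depthE
  rw [← Finset.mul_sum, Finset.sum_comm]
  have hinner : ∀ j ∈ Finset.range p,
      ∑ i ∈ Finset.range p, (ξ⁻¹) ^ (i * j) * (g ^ j) x =
        if j = 0 then (p : Kb) * x else 0 := by
    intro j hj
    rw [← Finset.sum_mul]
    by_cases hj0 : j = 0
    · subst hj0
      simp
    · rw [if_neg hj0]
      have hcop : j.Coprime p := by
        apply Nat.Coprime.symm
        rw [Nat.Prime.coprime_iff_not_dvd hp]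
        intro hdvd
        have := Nat.le_of_dvd (Nat.pos_of_ne_zero hj0) hdvd
        exact absurd (Finset.mem_range.1 hj) (not_lt.2 this)
      have hη : IsPrimitiveRoot ((ξ⁻¹) ^ j) p := (hξ.inv).pow_of_coprime j hcop
      have hsum := hη.geom_sum_eq_zero hp.one_lt
      have : ∑ i ∈ Finset.range p, (ξ⁻¹) ^ (i * j) = ∑ i ∈ Finset.range p, ((ξ⁻¹) ^ j) ^ i :=
        Finset.sum_congr rfl fun i _ => by rw [pow_mul']
      rw [this, hsum, zero_mul]
  rw [Finset.sum_congr rfl hinner, Finset.sum_ite_eq' (Finset.range p) 0,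
    if_pos (Finset.mem_range.2 hp.pos)]
  field_simp

theorem depthE_apply_gen (hp : p.Prime) {ξ : Kb} (hξ : IsPrimitiveRoot ξ p) (g : GK) (x : Kb)
    (hgξ : g ξ = ξ) (hgp : (g ^ p) x = x) (i : ℕ) :
    g (depthE p ξ g x i) = ξ ^ i * depthE p ξ g x i := by
  have hξ0 : ξ ≠ 0 := hξ.ne_zero hp.ne_zero
  unfold depthE
  rw [map_mul, map_inv₀, map_natCast, map_sum, mul_left_comm (ξ ^ i)]
  congr 1
  rw [Finset.mul_sum]
  set φ : ℕ → Kb := fun j => ξ ^ i * ((ξ⁻¹) ^ (i * j) * (g ^ j) x) with hφ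
  have h1 : ∀ j, g ((ξ⁻¹) ^ (i * j) * (g ^ j) x) = φ (j + 1) := by
    intro j
    show g ((ξ⁻¹) ^ (i * j) * (g ^ j) x) = ξ ^ i * ((ξ⁻¹) ^ (i * (j + 1)) * (g ^ (j + 1)) x)
    rw [map_mul, map_pow, map_inv₀, hgξ]
    have e1 : (g ^ (j + 1)) x = g ((g ^ j) x) := by
      rw [pow_succ', AlgEquiv.mul_apply]
    rw [e1, mul_add, mul_one, pow_add, ← mul_assoc, ← mul_assoc]
    congr 1
    rw [mul_comm (ξ ^ i), mul_assoc, inv_pow ξ i, mul_inv_cancel₀ (pow_ne_zero i hξ0), mul_one]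
  have h2 : φ p = φ 0 := by
    show ξ ^ i * ((ξ⁻¹) ^ (i * p) * (g ^ p) x) = ξ ^ i * ((ξ⁻¹) ^ (i * 0) * (g ^ 0) x)
    rw [hgp, pow_mul', inv_pow, hξ.pow_eq_one, inv_one, one_pow, mul_zero, pow_zero, pow_zero,
      AlgEquiv.one_apply]
  have h3 : ∑ j ∈ Finset.range p, φ (j + 1) = ∑ j ∈ Finset.range p, φ j := by
    have e1 := Finset.sum_range_succ' φ p
    have e2 := Finset.sum_range_succ φ p
    rw [e2, h2] at e1
    exact (add_right_cancel e1).symm
  rw [Finset.sum_congr rfl (fun j _ => h1 j), h3]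

theorem depthE_apply_fix (ξ : Kb) (g h : GK) (x : Kb) (hhξ : h ξ = ξ)
    (hhx : ∀ j : ℕ, h ((g ^ j) x) = (g ^ j) x) (i : ℕ) :
    h (depthE p ξ g x i) = depthE p ξ g x i := by
  unfold depthE
  rw [map_mul, map_inv₀, map_natCast, map_sum]
  congr 1
  refine Finset.sum_congr rfl fun j _ => ?_
  rw [map_mul, map_pow, map_inv₀, hhξ, hhx]

/-- **Kummer expansion**: an element fixed by `ker χ` is a combination of the powers of the
Kummer generator `β` with `N`-fixed coefficients. -/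
theorem depth_expand (hp : p.Prime) (N : Subgroup GK) {ζ : Kb} (hζ : IsPrimitiveRoot ζ p)
    (hζN : FixedBy N ζ) (χ : GK → ZMod p) (hχ : IsCharOn p N χ) {β : Kb} (hβ0 : β ≠ 0)
    (hβ : ∀ γ ∈ N, γ β = ζ ^ (χ γ).val * β) (x : Kb) (hx : ∀ h ∈ N, χ h = 0 → h x = x)
    (g : GK) (hg : g ∈ N) (hc : χ g ≠ 0) :
    ∃ c : ℕ → Kb, (∀ i, FixedBy N (c i)) ∧ x = ∑ i ∈ Finset.range p, c i * β ^ i := by
  have hfact : Fact p.Prime := ⟨hp⟩
  set ξ : Kb := ζ ^ (χ g).val with hξdef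
  have hcop : (χ g).val.Coprime p := by
    apply Nat.Coprime.symm
    rw [Nat.Prime.coprime_iff_not_dvd hp]
    intro hdvd
    have hpos : 0 < (χ g).val := Nat.pos_of_ne_zero (fun h => hc ((ZMod.val_eq_zero _).1 h))
    exact absurd (ZMod.val_lt (χ g)) (not_lt.2 (Nat.le_of_dvd hpos hdvd))
  have hξ : IsPrimitiveRoot ξ p := hζ.pow_of_coprime _ hcop
  have hξ0 : ξ ≠ 0 := hξ.ne_zero hp.ne_zero
  have hξN : FixedBy N ξ := depth_fixedBy_pow hζN _
  have hgβ : g β = ξ * β := hβ g hg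
  have hgp : (g ^ p) x = x := by
    apply hx _ (N.pow_mem hg p)
    rw [depth_char_pow hχ hg, ZMod.natCast_self, zero_mul]
  -- elements of `N` with `χ = 0` fix all `g ^ j x`
  have hfixj : ∀ h ∈ N, χ h = 0 → ∀ j : ℕ, h ((g ^ j) x) = (g ^ j) x := by
    intro h hh hχh j
    have hgj : g ^ j ∈ N := N.pow_mem hg j
    have hconj : (g ^ j)⁻¹ * h * g ^ j ∈ N := N.mul_mem (N.mul_mem (N.inv_mem hgj) hh) hgj
    have hχc : χ ((g ^ j)⁻¹ * h * g ^ j) = 0 := by
      rw [hχ _ (N.mul_mem (N.inv_mem hgj) hh) _ hgj, hχ _ (N.inv_mem hgj) _ hh,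
        depth_char_inv hχ hgj, hχh]
      ring
    have h1 := hx _ hconj hχc
    rw [AlgEquiv.mul_apply, AlgEquiv.mul_apply] at h1
    have h2 := congrArg (g ^ j) h1
    rw [← AlgEquiv.mul_apply (g ^ j) (g ^ j)⁻¹, mul_inv_cancel, AlgEquiv.one_apply] at h2
    exact h2
  set E : ℕ → Kb := depthE p ξ g x with hE
  have hEg : ∀ i, g (E i) = ξ ^ i * E i := fun i =>
    depthE_apply_gen hp hξ g x (hξN g hg) hgp i
  have hEh : ∀ h ∈ N, χ h = 0 → ∀ i, h (E i) = E i := fun h hh hχh i =>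
    depthE_apply_fix ξ g h x (hξN h hh) (hfixj h hh hχh) i
  refine ⟨fun i => E i / β ^ i, fun i => ?_, ?_⟩
  · -- fixed by `N`
    have hcg : g (E i / β ^ i) = E i / β ^ i := by
      rw [map_div₀, map_pow, hEg, hgβ, mul_pow]
      field_simp
    have hcgk : ∀ k : ℕ, (g ^ k) (E i / β ^ i) = E i / β ^ i := by
      intro k
      induction k with
      | zero => rw [pow_zero, AlgEquiv.one_apply]
      | succ k ih => rw [pow_succ, AlgEquiv.mul_apply, hcg, ih]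
    have hch : ∀ h ∈ N, χ h = 0 → h (E i / β ^ i) = E i / β ^ i := by
      intro h hh hχh
      have hhβ : h β = β := by
        rw [hβ h hh, hχh, ZMod.val_zero, pow_zero, one_mul]
      rw [map_div₀, map_pow, hEh h hh hχh, hhβ]
    intro σ hσ
    set k : ℕ := (χ σ * (χ g)⁻¹).val with hk
    have hgk : g ^ k ∈ N := N.pow_mem hg k
    have hhN : σ * (g ^ k)⁻¹ ∈ N := N.mul_mem hσ (N.inv_mem hgk)
    have hχh : χ (σ * (g ^ k)⁻¹) = 0 := by
      rw [hχ _ hσ _ (N.inv_mem hgk), depth_char_inv hχ hgk, depth_char_pow hχ hg, hk,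
        ZMod.natCast_zmod_val, mul_assoc, inv_mul_cancel₀ hc, mul_one, add_neg_cancel]
    have hσeq : σ = (σ * (g ^ k)⁻¹) * g ^ k := by
      rw [mul_assoc, inv_mul_cancel, mul_one]
    rw [hσeq, AlgEquiv.mul_apply, hcgk k, hch _ hhN hχh]
  · rw [← depthE_sum hp hξ g x]
    refine Finset.sum_congr rfl fun i _ => ?_
    have : β ^ i ≠ 0 := pow_ne_zero i hβ0
    show depthE p ξ g x i = E i / β ^ i * β ^ i
    rw [div_mul_cancel₀ _ this]

end expand

section core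

variable {p : ℕ} {P : ValuationSubring Kb}

/-- `a ^ e ≤ 1` forces `0 ≤ e` for `0 < a < 1`. -/
theorem depth_zpow_le_one {a : P.ValueGroup} (h0 : 0 < a) (h1 : a < 1) {e : ℤ}
    (h : a ^ e ≤ 1) : 0 ≤ e := by
  by_contra hneg
  rw [not_le] at hneg
  have := zpow_lt_zpow_right_of_lt_one₀ h0 h1 hneg
  rw [zpow_zero] at this
  exact absurd h (not_le.2 this)

/-- **Core of DEPTH.**  `x = ∑_{m<p} d m · B^m ∈ P`, `v(B)^p = v(π1)^s` with `p ∤ s`, the nonzero
`d m` have valuations in `v(π1)^ℤ`, `g` fixes the `d m` and `g B = B (1 + y)` with `y ∈ P`.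
Then `v(g x - x)^p ≤ v(y)^p · v(π1)`. -/
theorem depth_core (hp : p.Prime) (hP : P.LiesOverPrime p) {π1 : Kb}
    (hπ : π1 ^ (p ^ 2 - 1) = -(p : Kb)) (B y : Kb) (s : ℕ) (hs : ¬ p ∣ s)
    (hB : P.valuation B ^ p = P.valuation π1 ^ s) (hy : y ∈ P) (d : ℕ → Kb)
    (hd : ∀ m, d m ≠ 0 → ∃ k : ℤ, P.valuation (d m) = P.valuation π1 ^ k)
    (x : Kb) (hx : x ∈ P) (hxe : x = ∑ m ∈ Finset.range p, d m * B ^ m)
    (g : GK) (hgd : ∀ m, g (d m) = d m) (hgB : g B = B * (1 + y)) :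
    P.valuation (g x - x) ^ p ≤ P.valuation y ^ p * P.valuation π1 := by
  classical
  have hvπ0 := depth_val_pi_pos (P := P) hp hπ
  have hvπ1 := depth_val_pi_lt hp hP hπ
  have hvπne : P.valuation π1 ≠ 0 := ne_of_gt hvπ0
  have hvπne1 : P.valuation π1 ≠ 1 := ne_of_lt hvπ1
  set t : ℕ → Kb := fun m => d m * B ^ m with ht
  -- valuations of the terms
  have hval_t : ∀ m, t m ≠ 0 → ∃ k : ℤ,
      P.valuation (t m) ^ p = P.valuation π1 ^ ((p : ℤ) * k + (s : ℤ) * (m : ℤ)) := by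
    intro m hm
    have hdm : d m ≠ 0 := fun h => hm (by show d m * B ^ m = 0; rw [h, zero_mul])
    obtain ⟨k, hk⟩ := hd m hdm
    refine ⟨k, ?_⟩
    show P.valuation (d m * B ^ m) ^ p = _
    rw [map_mul, map_pow, mul_pow, ← pow_mul, mul_comm m p, pow_mul, hB, hk, ← zpow_natCast,
      ← zpow_mul, ← zpow_natCast (P.valuation π1) s, ← zpow_natCast, ← zpow_mul,
      ← zpow_add₀ hvπne]
    congr 1
    ring
  have hinj := zpow_right_injective₀ hvπ0 hvπne1
  have hnotdvd : ∀ m : ℕ, m < p → m ≠ 0 → ∀ k : ℤ, (p : ℤ) * k + (s : ℤ) * (m : ℤ) ≠ 0 := by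
    intro m hm hm0 k h0
    have h1 : (p : ℤ) ∣ (s : ℤ) * (m : ℤ) := ⟨-k, by linarith⟩
    have h2 : p ∣ s * m := by exact_mod_cast h1
    rcases (Nat.Prime.dvd_mul hp).1 h2 with h | h
    · exact hs h
    · exact absurd (Nat.le_of_dvd (Nat.pos_of_ne_zero hm0) h) (not_le.2 hm)
  -- distinctness
  have hdist : ∀ m ∈ Finset.range p, ∀ m' ∈ Finset.range p, m ≠ m' → t m ≠ 0 →
      P.valuation (t m) ≠ P.valuation (t m') := by
    intro m hm m' hm' hne h0 heq
    have h0' : t m' ≠ 0 := by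
      intro h
      rw [h, map_zero] at heq
      exact h0 ((Valuation.zero_iff _).1 heq)
    obtain ⟨k, hk⟩ := hval_t m h0
    obtain ⟨k', hk'⟩ := hval_t m' h0'
    rw [heq, hk'] at hk
    have hexp := hinj hk
    have hm1 := Finset.mem_range.1 hm
    have hm1' := Finset.mem_range.1 hm'
    have h1 : (p : ℤ) ∣ (s : ℤ) * ((m : ℤ) - (m' : ℤ)) := ⟨k' - k, by
      linarith⟩
    rcases (Int.Prime.dvd_mul' hp h1) with h | h
    · exact hs (by exact_mod_cast h)
    · have h2 : ((m : ℤ) - (m' : ℤ)).natAbs < p := by omega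
      have h3 : (m : ℤ) - (m' : ℤ) ≠ 0 := by
        intro h4
        apply hne
        omega
      have h4 := Int.natAbs_dvd_natAbs.2 h
      rw [Int.natAbs_natCast] at h4
      have h5 := Nat.le_of_dvd (Int.natAbs_pos.2 h3) h4
      omega
  -- each term is in `P`
  have hsum_le := depth_val_le_sum P.valuation (Finset.range p) t hdist
  have hvx : P.valuation x ≤ 1 := (P.valuation_le_one_iff _).2 hx
  have hmem : ∀ m ∈ Finset.range p, P.valuation (t m) ≤ 1 := fun m hm =>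
    (hsum_le m hm).trans (by rw [← hxe]; exact hvx)
  -- the quantum
  have hquant : ∀ m ∈ Finset.range p, m ≠ 0 → P.valuation (t m) ^ p ≤ P.valuation π1 := by
    intro m hm hm0
    by_cases h0 : t m = 0
    · rw [h0, map_zero, zero_pow hp.ne_zero]
      exact zero_le'
    · obtain ⟨k, hk⟩ := hval_t m h0
      have hle : P.valuation π1 ^ ((p : ℤ) * k + (s : ℤ) * (m : ℤ)) ≤ 1 := by
        rw [← hk]
        exact pow_le_one₀ zero_le' (hmem m hm)
      have he0 := depth_zpow_le_one hvπ0 hvπ1 hle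
      have hene := hnotdvd m (Finset.mem_range.1 hm) hm0 k
      have he1 : (1 : ℤ) ≤ (p : ℤ) * k + (s : ℤ) * (m : ℤ) := by omega
      rw [hk]
      have := zpow_le_zpow_right_of_le_one₀ hvπ0 hvπ1.le he1
      rwa [zpow_one] at this
  -- the difference
  set q : ℕ → Kb := fun m => ∑ l ∈ Finset.range m, (1 + y) ^ l with hq
  have hqP : ∀ m, q m ∈ P := fun m =>
    sum_mem fun l _ => pow_mem (P.add_mem _ _ P.one_mem hy) l
  have hdiff : g x - x = y * ∑ m ∈ Finset.range p, t m * q m := by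
    rw [hxe, map_sum, ← Finset.sum_sub_distrib, Finset.mul_sum]
    refine Finset.sum_congr rfl fun m _ => ?_
    rw [map_mul, map_pow, hgd, hgB, mul_pow]
    have hgeom := mul_geom_sum (1 + y) m
    rw [add_sub_cancel_left] at hgeom
    show d m * (B ^ m * (1 + y) ^ m) - d m * B ^ m = y * (d m * B ^ m * q m)
    rw [hq]
    linear_combination (d m * B ^ m) * (-hgeom)
  have hp0 : 0 < p := hp.pos
  obtain ⟨m0, hm0, hm0le⟩ := depth_exists_sum_le P.valuation (Finset.range p)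
    (fun m => t m * q m) ⟨0, Finset.mem_range.2 hp0⟩
  have hbound : P.valuation (∑ m ∈ Finset.range p, t m * q m) ^ p ≤ P.valuation π1 := by
    by_cases hm00 : m0 = 0
    · subst hm00
      have hq0 : q 0 = 0 := by rw [hq]; simp
      have : P.valuation (t 0 * q 0) = 0 := by rw [hq0, mul_zero, map_zero]
      rw [this] at hm0le
      have h0 : P.valuation (∑ m ∈ Finset.range p, t m * q m) = 0 :=
        le_antisymm hm0le zero_le'
      rw [h0, zero_pow hp.ne_zero]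
      exact zero_le'
    · calc P.valuation (∑ m ∈ Finset.range p, t m * q m) ^ p
          ≤ P.valuation (t m0 * q m0) ^ p := pow_le_pow_left₀ zero_le' hm0le _
        _ ≤ P.valuation (t m0) ^ p := by
            apply pow_le_pow_left₀ zero_le'
            rw [map_mul]
            calc P.valuation (t m0) * P.valuation (q m0) ≤ P.valuation (t m0) * 1 :=
                  mul_le_mul_right ((P.valuation_le_one_iff _).2 (hqP m0)) _
              _ = P.valuation (t m0) := mul_one _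
        _ ≤ P.valuation π1 := hquant m0 hm0 hm00
  rw [hdiff, map_mul, mul_pow]
  exact mul_le_mul_right hbound _

end core

section main

variable {p : ℕ} {P : ValuationSubring Kb}

theorem depth_arith1 (hp : p.Prime) : (p - 1) * (p * (p + 1)) = p * (p ^ 2 - 1) := by
  obtain ⟨q, rfl⟩ : ∃ q, p = q + 1 := ⟨p - 1, by have := hp.one_lt; omega⟩
  have h1 : (q + 1) ^ 2 - 1 = q * (q + 2) := by
    have : (q + 1) ^ 2 = q * (q + 2) + 1 := by ring
    rw [this]; simp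
  rw [h1]
  simp only [Nat.add_sub_cancel]
  ring

/-- `v(ξ - 1)^(p(p²-1)) = v(p)^(p²+p)` for a nontrivial `p`-th root of unity `ξ`. -/
theorem depth_val_root (hp : p.Prime) {ξ : Kb} (hξ : ξ ^ p = 1) (hξ1 : ξ ≠ 1) :
    P.valuation (ξ - 1) ^ (p * (p ^ 2 - 1)) = P.valuation (p : Kb) ^ (p ^ 2 + p) := by
  rw [← depth_arith1 hp, pow_mul, val_root_sub_one_pow hp hξ hξ1]
  congr 1
  ring

/-- Division form of a valuation inequality. -/
theorem depth_div_mem (hp : p.Prime) {z : Kb} {n e : ℕ}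
    (h : P.valuation z ^ n ≤ P.valuation (p : Kb) ^ e) : z ^ n / (p : Kb) ^ e ∈ P := by
  rw [← P.valuation_le_one_iff, map_div₀, map_pow, map_pow,
    div_le_iff₀ (pow_pos (depth_val_p_pos hp) e), one_mul]
  exact h

/-- Binomial re-expansion of `∑ c i β^i` in powers of `β - 1`. -/
theorem depth_reexpand (p : ℕ) (c : ℕ → Kb) (β : Kb) :
    ∑ i ∈ Finset.range p, c i * β ^ i =
      ∑ m ∈ Finset.range p, (∑ i ∈ Finset.range p, c i * (i.choose m : Kb)) * (β - 1) ^ m := by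
  have hpow : ∀ i ∈ Finset.range p,
      β ^ i = ∑ m ∈ Finset.range p, (β - 1) ^ m * (i.choose m : Kb) := by
    intro i hi
    have h1 : β ^ i = ((β - 1) + 1) ^ i := by rw [sub_add_cancel]
    rw [h1, add_pow]
    have hsub : Finset.range (i + 1) ⊆ Finset.range p :=
      Finset.range_subset_range.2 (Finset.mem_range.1 hi)
    rw [← Finset.sum_subset hsub]
    · refine Finset.sum_congr rfl fun m _ => ?_
      rw [one_pow, mul_one]
    · intro m _ hm
      have : i < m := by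
        rw [Finset.mem_range] at hm
        omega
      rw [Nat.choose_eq_zero_of_lt this, Nat.cast_zero, mul_zero]
  calc ∑ i ∈ Finset.range p, c i * β ^ i
      = ∑ i ∈ Finset.range p, ∑ m ∈ Finset.range p, c i * (i.choose m : Kb) * (β - 1) ^ m := by
        refine Finset.sum_congr rfl fun i hi => ?_
        rw [hpow i hi, Finset.mul_sum]
        refine Finset.sum_congr rfl fun m _ => ?_
        ring
    _ = ∑ m ∈ Finset.range p, ∑ i ∈ Finset.range p, c i * (i.choose m : Kb) * (β - 1) ^ m :=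
        Finset.sum_comm
    _ = _ := by
        refine Finset.sum_congr rfl fun m _ => ?_
        rw [Finset.sum_mul]

/-- **DEPTH**, unit case, from `unif` (F3: `π1` is a uniformiser of `K1`). -/
theorem depth_of_unif (hp : p.Prime) (hP : P.LiesOverPrime p) {π1 : Kb} (hπ : IsPi1 p π1)
    (hunif : ∀ x ∈ P.nonunits, FixedBy (stabI P π1) x → x / π1 ∈ P) :
    DepthStatement p P π1 := by
  intro ζ χ β a s hζ hχ hβ hs0 hsp hps ha hau hlc x hx hxfix g hg
  have hfact : Fact p.Prime := ⟨hp⟩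
  have hπ' : π1 ^ (p ^ 2 - 1) = -(p : Kb) := hπ
  have hN0 : p * (p ^ 2 - 1) ≠ 0 := by
    have h2 : 2 ≤ p := hp.two_le
    have : 4 ≤ p ^ 2 := by nlinarith
    have : 0 < p * (p ^ 2 - 1) := Nat.mul_pos hp.pos (by omega)
    omega
  by_cases hc : χ g = 0
  · rw [hxfix g hg hc, sub_self, zero_pow hN0, zero_div]
    exact P.zero_mem
  obtain ⟨hβ0, hβK⟩ := hβ
  have hπN : FixedBy (stabI P π1) π1 := fun σ hσ => hσ.2
  have hζN : FixedBy (stabI P π1) ζ := depth_zeta_fixed hp hP hπ' hζ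
  obtain ⟨c, hcfix, hxc⟩ := depth_expand hp (stabI P π1) hζ hζN χ hχ hβ0 hβK x hxfix g hg hc
  -- the level of `β - 1`
  have hvu := depth_val_of_lcAt hp hP hπ' ha.1 hau hlc
  have hB := depth_rootlevel hp hP hπ' hs0 hsp hvu
  have hvπ0 := depth_val_pi_pos (P := P) hp hπ'
  have hvπ1 := depth_val_pi_lt hp hP hπ'
  have hvp0 := depth_val_p_pos (P := P) hp
  have hB0 : β - 1 ≠ 0 := by
    intro h
    rw [h, map_zero, zero_pow hp.ne_zero] at hB
    exact absurd hB.symm (ne_of_gt (pow_pos hvπ0 s))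
  have hvB1 : P.valuation (β - 1) < 1 := by
    by_contra h
    rw [not_lt] at h
    have h1 : (1 : P.ValueGroup) ≤ P.valuation (β - 1) ^ p := one_le_pow₀ h
    rw [hB] at h1
    exact absurd (pow_lt_one₀ zero_le' hvπ1 (Nat.pos_iff_ne_zero.1 hs0)) (not_lt.2 h1)
  have hvβ : P.valuation β = 1 := by
    have : β = 1 + (β - 1) := by ring
    rw [this]
    have := Valuation.map_add_eq_of_lt_left P.valuation (x := (1 : Kb)) (y := β - 1)
      (by rw [map_one]; exact hvB1)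
    rw [this, map_one]
  -- the root of unity
  set ξ : Kb := ζ ^ (χ g).val with hξdef
  have hξp : ξ ^ p = 1 := by rw [hξdef, ← pow_mul, mul_comm, pow_mul, hζ.pow_eq_one, one_pow]
  have hξ1 : ξ ≠ 1 := by
    intro h
    have h1 := hζ.pow_inj (ZMod.val_lt (χ g)) hp.pos (by rw [pow_zero]; exact h)
    exact hc ((ZMod.val_eq_zero _).1 h1)
  have hgβ : g β = ξ * β := hβK g hg
  set y : Kb := (ξ - 1) * β / (β - 1) with hy
  have hgB : g (β - 1) = (β - 1) * (1 + y) := by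
    rw [map_sub, map_one, hgβ, hy]
    field_simp
    ring
  have hvy : P.valuation y ^ (p * (p ^ 2 - 1)) * P.valuation (p : Kb) ^ s =
      P.valuation (p : Kb) ^ (p ^ 2 + p) := by
    have hBN : P.valuation (β - 1) ^ (p * (p ^ 2 - 1)) = P.valuation (p : Kb) ^ s := by
      rw [pow_mul, hB, ← pow_mul, mul_comm, pow_mul, depth_val_pi_pow hπ']
    rw [hy, map_div₀, map_mul, hvβ, mul_one, div_pow, hBN, depth_val_root hp hξp hξ1]
    exact div_mul_cancel₀ _ (ne_of_gt (pow_pos hvp0 s))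
  have hvy' : P.valuation y ^ (p * (p ^ 2 - 1)) = P.valuation (p : Kb) ^ (p ^ 2 + p - s) := by
    have h1 : P.valuation (p : Kb) ^ (p ^ 2 + p) =
        P.valuation (p : Kb) ^ (p ^ 2 + p - s) * P.valuation (p : Kb) ^ s := by
      rw [← pow_add, Nat.sub_add_cancel hsp.le]
    rw [h1] at hvy
    exact mul_right_cancel₀ (ne_of_gt (pow_pos hvp0 s)) hvy
  have hyP : y ∈ P := by
    rw [← P.valuation_le_one_iff]
    by_contra h
    rw [not_le] at h
    have h1 := one_lt_pow₀ h hN0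
    rw [hvy'] at h1
    exact absurd (pow_le_one₀ zero_le' (ar_val_p_lt hP).le) (not_le.2 h1)
  -- the expansion in powers of `β - 1`
  set d : ℕ → Kb := fun m => ∑ i ∈ Finset.range p, c i * (i.choose m : Kb) with hd
  have hdfix : ∀ m, FixedBy (stabI P π1) (d m) := fun m =>
    depth_fixedBy_sum _ _ fun i _ => depth_fixedBy_mul (hcfix i) (depth_fixedBy_natCast _ _)
  have hdval : ∀ m, d m ≠ 0 → ∃ k : ℤ, P.valuation (d m) = P.valuation π1 ^ k := fun m hm =>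
    depth_hval hp hP hπ' (stabI P π1) hπN hunif (d m) hm (hdfix m)
  have hxd : x = ∑ m ∈ Finset.range p, d m * (β - 1) ^ m := by
    rw [hxc]
    exact depth_reexpand p c β
  have hcore := depth_core hp hP hπ' (β - 1) y s hps hB hyP d hdval x hx hxd g
    (fun m => hdfix m g hg) hgB
  -- raise to the power `p² - 1`
  apply depth_div_mem hp
  calc P.valuation (g x - x) ^ (p * (p ^ 2 - 1))
      = (P.valuation (g x - x) ^ p) ^ (p ^ 2 - 1) := pow_mul _ _ _
    _ ≤ (P.valuation y ^ p * P.valuation π1) ^ (p ^ 2 - 1) := pow_le_pow_left₀ zero_le' hcore _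
    _ = P.valuation y ^ (p * (p ^ 2 - 1)) * P.valuation (p : Kb) := by
        rw [mul_pow, ← pow_mul, depth_val_pi_pow hπ']
    _ = P.valuation (p : Kb) ^ (p ^ 2 + p + 1 - s) := by
        rw [hvy', ← pow_succ]
        congr 1
        omega

/-- **DEPTH**, non-unit case, from `unif`. -/
theorem depthNU_of_unif (hp : p.Prime) (hP : P.LiesOverPrime p) {π1 : Kb} (hπ : IsPi1 p π1)
    (hunif : ∀ x ∈ P.nonunits, FixedBy (stabI P π1) x → x / π1 ∈ P) :
    DepthNUStatement p P π1 := by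
  intro ζ χ β m hζ hχ hβ hm0 hmp hge hle x hx hxfix g hg
  have hfact : Fact p.Prime := ⟨hp⟩
  have hπ' : π1 ^ (p ^ 2 - 1) = -(p : Kb) := hπ
  have hN0 : p * (p ^ 2 - 1) ≠ 0 := by
    have h2 : 2 ≤ p := hp.two_le
    have : 4 ≤ p ^ 2 := by nlinarith
    have : 0 < p * (p ^ 2 - 1) := Nat.mul_pos hp.pos (by omega)
    omega
  by_cases hc : χ g = 0
  · rw [hxfix g hg hc, sub_self, zero_pow hN0, zero_div]
    exact P.zero_mem
  obtain ⟨hβ0, hβK⟩ := hβ
  have hπN : FixedBy (stabI P π1) π1 := fun σ hσ => hσ.2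
  have hζN : FixedBy (stabI P π1) ζ := depth_zeta_fixed hp hP hπ' hζ
  obtain ⟨c, hcfix, hxc⟩ := depth_expand hp (stabI P π1) hζ hζN χ hχ hβ0 hβK x hxfix g hg hc
  have hvπ0 := depth_val_pi_pos (P := P) hp hπ'
  have hvp0 := depth_val_p_pos (P := P) hp
  have hπ0 := depth_pi_ne_zero hp hπ'
  have hB : P.valuation β ^ p = P.valuation π1 ^ m := by
    have h1 := (P.valuation_le_one_iff _).2 hge
    have h2 := (P.valuation_le_one_iff _).2 hle
    rw [map_div₀, map_pow, map_pow, div_le_iff₀ (pow_pos hvπ0 m), one_mul] at h1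
    have hvβ0 : 0 < P.valuation β ^ p :=
      pow_pos (zero_lt_iff.2 ((Valuation.ne_zero_iff _).2 hβ0)) p
    rw [map_div₀, map_pow, map_pow, div_le_iff₀ hvβ0, one_mul] at h2
    exact le_antisymm h1 h2
  have hpm : ¬ p ∣ m := fun h => absurd (Nat.le_of_dvd hm0 h) (not_le.2 hmp)
  set ξ : Kb := ζ ^ (χ g).val with hξdef
  have hξp : ξ ^ p = 1 := by rw [hξdef, ← pow_mul, mul_comm, pow_mul, hζ.pow_eq_one, one_pow]
  have hξ1 : ξ ≠ 1 := by
    intro h
    have h1 := hζ.pow_inj (ZMod.val_lt (χ g)) hp.pos (by rw [pow_zero]; exact h)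
    exact hc ((ZMod.val_eq_zero _).1 h1)
  have hgβ : g β = ξ * β := hβK g hg
  have hξP : ξ ∈ P := Fermat.Agent.Cyclo.pow_eq_one_mem P hp.ne_zero hξp
  have hyP : ξ - 1 ∈ P := sub_mem hξP P.one_mem
  have hgB : g β = β * (1 + (ξ - 1)) := by rw [hgβ]; ring
  have hcval : ∀ i, c i ≠ 0 → ∃ k : ℤ, P.valuation (c i) = P.valuation π1 ^ k := fun i hi =>
    depth_hval hp hP hπ' (stabI P π1) hπN hunif (c i) hi (hcfix i)
  have hcore := depth_core hp hP hπ' β (ξ - 1) m hpm hB hyP c hcval x hx hxc g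
    (fun i => hcfix i g hg) hgB
  apply depth_div_mem hp
  calc P.valuation (g x - x) ^ (p * (p ^ 2 - 1))
      = (P.valuation (g x - x) ^ p) ^ (p ^ 2 - 1) := pow_mul _ _ _
    _ ≤ (P.valuation (ξ - 1) ^ p * P.valuation π1) ^ (p ^ 2 - 1) :=
        pow_le_pow_left₀ zero_le' hcore _
    _ = P.valuation (ξ - 1) ^ (p * (p ^ 2 - 1)) * P.valuation (p : Kb) := by
        rw [mul_pow, ← pow_mul, depth_val_pi_pow hπ']
    _ = P.valuation (p : Kb) ^ (p ^ 2 + p + 1) := by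
        rw [depth_val_root hp hξp hξ1, ← pow_succ]

/-- **DEPTH** (unit case), unconditional. -/
theorem depth (hp : p.Prime) (hP : P.LiesOverPrime p) {π1 : Kb} (hπ : IsPi1 p π1) :
    DepthStatement p P π1 :=
  depth_of_unif hp hP hπ (unitSetting_stabI hp hP hπ).unif

/-- **DEPTH** (non-unit case), unconditional. -/
theorem depthNU (hp : p.Prime) (hP : P.LiesOverPrime p) {π1 : Kb} (hπ : IsPi1 p π1) :
    DepthNUStatement p P π1 :=
  depthNU_of_unif hp hP hπ (unitSetting_stabI hp hP hπ).unif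

end main

end Fermat.Agent.FFL.FB
end MergeWrap_Lib_FFL_FB_Depth

section MergeWrap_Lib_FFL_FB_ELine -- from Lib/FFL/FB/ELine.lean

set_option autoImplicit false
set_option linter.unusedVariables false

namespace Fermat.Agent.FFL.FB

open Fermat.Agent.FFL

local notation "Kb" => AlgebraicClosure ℚ
local notation "GK" => (AlgebraicClosure ℚ ≃ₐ[ℚ] AlgebraicClosure ℚ)

variable {p : ℕ} {P : ValuationSubring Kb} {π1 : Kb}

/-- `1 / p ^ k` is not in `P` for `k ≥ 1`. -/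
theorem el_inv_pow_not_mem (hp : p.Prime) (hP : P.LiesOverPrime p) {k : ℕ} (hk : k ≠ 0) :
    (1 : Kb) / (p : Kb) ^ k ∉ P := by
  intro h
  have hp0 : (p : Kb) ≠ 0 := ar_p_ne_zero hp
  have hv := (P.valuation_le_one_iff _).2 h
  have hvp : P.valuation (p : Kb) < 1 := ar_val_p_lt hP
  have hvp0 : P.valuation (p : Kb) ≠ 0 := (Valuation.ne_zero_iff _).2 hp0
  rw [map_div₀, map_one, map_pow,
    div_le_iff₀ (pow_pos (zero_lt_iff.2 hvp0) _), one_mul] at hv
  exact absurd (pow_lt_one₀ zero_le hvp hk) (not_lt.2 hv)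

/-- `p ^ a / p ^ b ∈ P` forces `b ≤ a`. -/
theorem el_pow_div_pow_mem (hp : p.Prime) (hP : P.LiesOverPrime p) {a b : ℕ}
    (h : (p : Kb) ^ a / (p : Kb) ^ b ∈ P) : b ≤ a := by
  by_contra hlt
  rw [not_le] at hlt
  have hp0 : (p : Kb) ≠ 0 := ar_p_ne_zero hp
  have h1 : (p : Kb) ^ a / (p : Kb) ^ b = 1 / (p : Kb) ^ (b - a) := by
    rw [div_eq_div_iff (pow_ne_zero _ hp0) (pow_ne_zero _ hp0), one_mul, ← pow_add]
    congr 1
    omega
  rw [h1] at h
  exact el_inv_pow_not_mem hp hP (by omega) h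

/-- CHEAP against a depth bound `v(g x - x) ≥ c / (p (p² - 1))`: then `c ≤ p²`. -/
theorem el_cheap_vs_depth (hp : p.Prime) (hP : P.LiesOverPrime p) {y : Kb} (hy : y ≠ 0) {c : ℕ}
    (hcheap : (p : Kb) ^ p / y ^ (p ^ 2 - 1) ∈ P)
    (hdepth : y ^ (p * (p ^ 2 - 1)) / (p : Kb) ^ c ∈ P) : c ≤ p ^ 2 := by
  apply el_pow_div_pow_mem hp hP
  have hp0 : (p : Kb) ≠ 0 := ar_p_ne_zero hp
  have h1 : (p : Kb) ^ (p ^ 2) / (p : Kb) ^ c =
      ((p : Kb) ^ p / y ^ (p ^ 2 - 1)) ^ p * (y ^ (p * (p ^ 2 - 1)) / (p : Kb) ^ c) := by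
    have hy1 : y ^ (p ^ 2 - 1) ≠ 0 := pow_ne_zero _ hy
    have hy2 : y ^ (p * (p ^ 2 - 1)) ≠ 0 := pow_ne_zero _ hy
    rw [div_pow, ← pow_mul, ← pow_mul, mul_comm (p ^ 2 - 1) p, ← sq]
    field_simp
  rw [h1]
  exact P.mul_mem _ _ (pow_mem hcheap p) hdepth

/-- Arithmetic: `s ≡ 2` modulo `p² - 1`, `p + 1 ≤ s < p² + p` gives `s = p² + 1`. -/
theorem el_arith_two {p s : ℕ} (hp3 : 3 ≤ p) (hs1 : p + 1 ≤ s) (hs2 : s < p ^ 2 + p)
    (h : (p ^ 2 - 1) ∣ (s - 2)) : s = p ^ 2 + 1 := by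
  have hq : 3 * p ≤ p ^ 2 := by nlinarith
  obtain ⟨k, hk⟩ := h
  rcases k with _ | _ | k
  · omega
  · omega
  · have h2 : 2 * (p ^ 2 - 1) ≤ (p ^ 2 - 1) * (k + 1 + 1) := by
      rw [mul_comm 2]
      exact Nat.mul_le_mul_left _ (by omega)
    omega

/-- Arithmetic: `s ≡ 2p` modulo `p² - 1`, `p + 1 ≤ s < p² + p` gives `p ∣ s`. -/
theorem el_arith_twop {p s : ℕ} (hp3 : 3 ≤ p) (hs1 : p + 1 ≤ s) (hs2 : s < p ^ 2 + p)
    (h : (2 * p ≤ s ∧ (p ^ 2 - 1) ∣ (s - 2 * p)) ∨ (s < 2 * p ∧ (p ^ 2 - 1) ∣ (2 * p - s))) :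
    p ∣ s := by
  have hq : 3 * p ≤ p ^ 2 := by nlinarith
  rcases h with ⟨h1, k, hk⟩ | ⟨h1, k, hk⟩
  · rcases k with _ | k
    · have : s = 2 * p := by omega
      rw [this]
      exact dvd_mul_left p 2
    · have h2 : (p ^ 2 - 1) ≤ (p ^ 2 - 1) * (k + 1) := Nat.le_mul_of_pos_right _ (by omega)
      omega
  · rcases k with _ | k
    · omega
    · have h2 : (p ^ 2 - 1) ≤ (p ^ 2 - 1) * (k + 1) := Nat.le_mul_of_pos_right _ (by omega)
      omega

/-- A product of two elements of `P` which is a nonunit has a nonunit factor. -/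
theorem el_mul_mem_nonunits {x y : Kb} (hx : x ∈ P) (hy : y ∈ P) (h : x * y ∈ P.nonunits) :
    x ∈ P.nonunits ∨ y ∈ P.nonunits := by
  by_contra hcon
  rw [not_or, ValuationSubring.mem_nonunits_iff, ValuationSubring.mem_nonunits_iff, not_lt,
    not_lt] at hcon
  rw [ValuationSubring.mem_nonunits_iff, map_mul] at h
  have h1 : P.valuation x = 1 := le_antisymm ((P.valuation_le_one_iff _).2 hx) hcon.1
  have h2 : P.valuation y = 1 := le_antisymm ((P.valuation_le_one_iff _).2 hy) hcon.2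
  rw [h1, h2, one_mul] at h
  exact lt_irrefl _ h

/-- A root of unity has valuation `1`. -/
theorem el_val_root {θ : Kb} {e : ℕ} (he : e ≠ 0) (h : θ ^ e = 1) : P.valuation θ = 1 := by
  have h1 : P.valuation θ ^ e = 1 := by rw [← map_pow, h, map_one]
  exact (pow_eq_one_iff_of_nonneg zero_le he).1 h1

/-- If `θ ^ a (θ ^ b - 1)` is a nonunit (`θ` a root of unity), so is `θ ^ b - 1`. -/
theorem el_root_factor {θ : Kb} {e : ℕ} (he : e ≠ 0) (h : θ ^ e = 1) {a b : ℕ}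
    (hm : θ ^ a * (θ ^ b - 1) ∈ P.nonunits) : θ ^ b - 1 ∈ P.nonunits := by
  rw [ValuationSubring.mem_nonunits_iff] at hm ⊢
  rwa [map_mul, map_pow, el_val_root he h, one_pow, one_mul] at hm

/-- **KT-E**: the off-diagonal line analysis. -/
theorem eLine (hp : p.Prime) (hp2 : p ≠ 2) (hP : P.LiesOverPrime p) (hπ : IsPi1 p π1)
    (hexist : KumExistStatement p P π1) (hdepth : DepthStatement p P π1)
    (hdepthNU : DepthNUStatement p P π1) (hrel : KumRelStatement p P π1)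
    (hgood : GoodOfLevelStatement p P π1) : EStatement p P π1 := by
  intro ζ χ τ w t n hζ hχ hsm hτ hτζ hR ht hn hcheap
  have hp3 : 3 ≤ p := by
    have := hp.two_le
    omega
  have hq : 3 * p ≤ p ^ 2 := by nlinarith
  have hT := tameSetting_of_isPi1 hp hP hπ
  have hπ0 : π1 ≠ 0 := hT.hπ0
  by_cases h0 : ∀ g ∈ stabI P π1, χ g = 0
  · refine ⟨1, ⟨one_ne_zero, fun g hg => ?_⟩, ?_⟩
    · rw [h0 g hg, ZMod.val_zero, pow_zero, mul_one, map_one]
    · rw [sub_self, zero_pow (by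
        have : 0 < p * (p ^ 2 - 1) := Nat.mul_pos hp.pos (by omega)
        omega), zero_div]
      exact P.zero_mem
  rw [not_forall] at h0
  obtain ⟨g, h0⟩ := h0
  rw [Classical.not_imp] at h0
  obtain ⟨hg, hχg⟩ := h0
  obtain ⟨x, hxP, hxfix, hy0, hch⟩ := hcheap g hg hχg
  obtain ⟨β, hβ, hcase⟩ := hexist ζ χ hζ hχ hsm
  rcases hcase with h0 | ⟨m, hm0, hmp, hm1, hm2⟩ | ⟨s, a, hNF⟩
  · exact absurd (h0 g hg) hχg
  · exfalso
    have hd := hdepthNU ζ χ β m hζ hχ hβ hm0 hmp hm1 hm2 x hxP hxfix g hg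
    have := el_cheap_vs_depth hp hP hy0 hch hd
    omega
  · have hNF' := hNF
    obtain ⟨hs0, hslt, hps, haR, hau, hlc⟩ := hNF
    have hd := hdepth ζ χ β a s hζ hχ hβ hs0 hslt hps haR hau hlc x hxP hxfix g hg
    have hc := el_cheap_vs_depth hp hP hy0 hch hd
    have hs1 : p + 1 ≤ s := by omega
    refine ⟨β, hβ, hgood β a s hNF' ?_⟩
    -- the relation
    set θ : Kb := τ π1 / π1 with hθ
    have hτI := hτ.1
    have hτD : τ ∈ P.decompositionSubgroup ℚ := hT.mem_decomp_of_inertia hτI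
    have hθe : θ ^ (p ^ 2 - 1) = 1 := hT.tame_pow_eq_one hτI
    have he0 : p ^ 2 - 1 ≠ 0 := by omega
    have hθv : P.valuation θ = 1 := el_val_root he0 hθe
    have hθP : θ ∈ P := (P.valuation_le_one_iff _).1 hθv.le
    have hθθ : (τ * τ) π1 / π1 = θ * θ := hT.tame_mul hτI hτI
    have haτ : τ a = a := haR.2 τ hτI
    have hrel' := hrel ζ χ β a s hζ hχ hβ hNF' 3 ![τ * τ, τ, 1] ![w * w, w, 1] ![1, -t, n]
      (by
        intro j
        fin_cases j
        · exact mul_mem hτD hτD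
        · exact hτD
        · exact one_mem _)
      (by
        intro j
        fin_cases j
        · show (τ * τ) ζ = ζ ^ (w * w)
          rw [AlgEquiv.mul_apply, hτζ, map_pow, hτζ, ← pow_mul]
        · exact hτζ
        · show (1 : GK) ζ = ζ ^ 1
          rw [pow_one, AlgEquiv.one_apply])
      (by
        intro g' hg'
        have h1 := hR g' hg'
        rw [Fin.sum_univ_three]
        show (1 : ℤ) • (((w * w : ℕ) : ZMod p) * χ ((τ * τ)⁻¹ * g' * (τ * τ))) +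
          (-t) • ((w : ZMod p) * χ (τ⁻¹ * g' * τ)) +
          n • (((1 : ℕ) : ZMod p) * χ ((1 : GK)⁻¹ * g' * 1)) = 0
        have h2 : (τ * τ)⁻¹ * g' * (τ * τ) = τ⁻¹ * (τ⁻¹ * g' * τ) * τ := by group
        rw [h2, one_smul, neg_smul, Nat.cast_mul, Nat.cast_one, one_mul, inv_one, one_mul,
          mul_one, mul_assoc, ← sub_eq_add_neg]
        exact h1)
    rw [Fin.sum_univ_three] at hrel'
    have hrel'' : ((1 : ℤ) : Kb) * (((τ * τ) π1 / π1) ^ s * (τ * τ) a) +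
        ((-t : ℤ) : Kb) * ((τ π1 / π1) ^ s * τ a) +
        (n : Kb) * (((1 : GK) π1 / π1) ^ s * (1 : GK) a) ∈ P.nonunits := hrel'
    rw [hθθ, AlgEquiv.mul_apply, haτ, haτ, AlgEquiv.one_apply, AlgEquiv.one_apply,
      div_self hπ0, one_pow, one_mul, Int.cast_one, one_mul, Int.cast_neg] at hrel''
    have hE : (θ ^ (2 * s) - (t : Kb) * θ ^ s + (n : Kb)) * a ∈ P.nonunits := by
      have : (θ ^ (2 * s) - (t : Kb) * θ ^ s + (n : Kb)) * a =
          (θ * θ) ^ s * a + -(t : Kb) * (θ ^ s * a) + (n : Kb) * a := by ring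
      rw [this]
      exact hrel''
    have hav : P.valuation a = 1 := (by
      have h := hau
      rw [ValuationSubring.mem_nonunits_iff, not_lt] at h
      exact le_antisymm ((P.valuation_le_one_iff _).2 haR.1) h)
    have hE' : θ ^ (2 * s) - (t : Kb) * θ ^ s + (n : Kb) ∈ P.nonunits := by
      rw [ValuationSubring.mem_nonunits_iff] at hE ⊢
      rwa [map_mul, hav, mul_one] at hE
    have hF : (θ ^ s - θ ^ 2) * (θ ^ s - θ ^ (2 * p)) ∈ P.nonunits := by
      have : (θ ^ s - θ ^ 2) * (θ ^ s - θ ^ (2 * p)) =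
          (θ ^ (2 * s) - (t : Kb) * θ ^ s + (n : Kb)) +
            (((t : Kb) - (θ ^ 2 + θ ^ (2 * p))) * θ ^ s - ((n : Kb) - θ ^ (2 * p + 2))) := by
        ring
      rw [this]
      exact red_add_mem_nonunits P hE' (red_sub_mem_nonunits P
        (red_mul_mem_nonunits_right P ht (pow_mem hθP s)) hn)
    rcases el_mul_mem_nonunits (sub_mem (pow_mem hθP _) (pow_mem hθP _))
      (sub_mem (pow_mem hθP _) (pow_mem hθP _)) hF with h2 | h2p
    · -- `θ ^ s ≡ θ ^ 2`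
      have h3 : θ ^ 2 * (θ ^ (s - 2) - 1) ∈ P.nonunits := by
        have : θ ^ 2 * (θ ^ (s - 2) - 1) = θ ^ s - θ ^ 2 := by
          rw [mul_sub, mul_one, ← pow_add]
          congr 2
          omega
        rw [this]
        exact h2
      have h4 := hτ.2 (s - 2) (el_root_factor he0 hθe h3)
      have := el_arith_two hp3 hs1 hslt h4
      omega
    · -- `θ ^ s ≡ θ ^ (2 p)`: impossible
      exfalso
      apply hps
      apply el_arith_twop hp3 hs1 hslt
      rcases le_or_gt (2 * p) s with hle | hlt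
      · left
        refine ⟨hle, hτ.2 _ (el_root_factor (a := 2 * p) he0 hθe ?_)⟩
        have : θ ^ (2 * p) * (θ ^ (s - 2 * p) - 1) = θ ^ s - θ ^ (2 * p) := by
          rw [mul_sub, mul_one, ← pow_add]
          congr 2
          omega
        rw [this]
        exact h2p
      · right
        refine ⟨hlt, hτ.2 _ (el_root_factor (a := s) he0 hθe ?_)⟩
        have : θ ^ s * (θ ^ (2 * p - s) - 1) = -(θ ^ s - θ ^ (2 * p)) := by
          rw [mul_sub, mul_one, ← pow_add, neg_sub]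
          congr 2
          omega
        rw [this]
        exact red_neg_mem_nonunits P h2p

end Fermat.Agent.FFL.FB
end MergeWrap_Lib_FFL_FB_ELine

section MergeWrap_Lib_FFL_FB_EtaLine -- from Lib/FFL/FB/EtaLine.lean

set_option autoImplicit false
set_option linter.style.haveILetI false
set_option linter.unusedSectionVars false

namespace Fermat.Agent.FFL.FB

open Fermat.Agent.FFL Polynomial

local notation "Kb" => AlgebraicClosure ℚ
local notation "GK" => (AlgebraicClosure ℚ ≃ₐ[ℚ] AlgebraicClosure ℚ)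

variable {p : ℕ} {P : ValuationSubring Kb} {π1 : Kb}

/-! ### Elementary facts on the maximal ideal -/

theorem etaL_mem {x : Kb} (hx : x ∈ P.nonunits) : x ∈ P := by
  rw [ValuationSubring.mem_nonunits_iff] at hx
  exact (P.valuation_le_one_iff x).1 hx.le

theorem etaL_add {x y : Kb} (hx : x ∈ P.nonunits) (hy : y ∈ P.nonunits) :
    x + y ∈ P.nonunits := by
  rw [ValuationSubring.mem_nonunits_iff] at hx hy ⊢
  exact lt_of_le_of_lt (P.valuation.map_add x y) (max_lt hx hy)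

theorem etaL_neg {x : Kb} (hx : x ∈ P.nonunits) : -x ∈ P.nonunits := by
  rw [ValuationSubring.mem_nonunits_iff] at hx ⊢
  rwa [Valuation.map_neg]

theorem etaL_sub {x y : Kb} (hx : x ∈ P.nonunits) (hy : y ∈ P.nonunits) :
    x - y ∈ P.nonunits := by
  rw [sub_eq_add_neg]
  exact etaL_add hx (etaL_neg hy)

theorem etaL_mul_left {x y : Kb} (hx : x ∈ P) (hy : y ∈ P.nonunits) :
    x * y ∈ P.nonunits := by
  rw [ValuationSubring.mem_nonunits_iff] at hy ⊢
  rw [map_mul]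
  exact mul_lt_one_of_nonneg_of_lt_one_right ((P.valuation_le_one_iff x).2 hx) zero_le hy

theorem etaL_mul_right {x y : Kb} (hx : x ∈ P.nonunits) (hy : y ∈ P) :
    x * y ∈ P.nonunits := by
  rw [mul_comm]
  exact etaL_mul_left hy hx

theorem etaL_one_not_mem : (1 : Kb) ∉ P.nonunits := by
  rw [ValuationSubring.mem_nonunits_iff, map_one]
  exact lt_irrefl _

/-- Cancelling a unit. -/
theorem etaL_cancel {u x : Kb} (hu : u ∈ P) (hu' : u ∉ P.nonunits) (hx : u * x ∈ P.nonunits) :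
    x ∈ P.nonunits := by
  have hinv : u⁻¹ ∈ P := base_inv_mem_of_not_mem_nonunits hu hu'
  have hu0 : u ≠ 0 := by
    rintro rfl
    apply hu'
    rw [ValuationSubring.mem_nonunits_iff, map_zero]
    exact zero_lt_one
  have : x = u⁻¹ * (u * x) := by
    rw [← mul_assoc, inv_mul_cancel₀ hu0, one_mul]
  rw [this]
  exact etaL_mul_left hinv hx

/-- Units are closed under products. -/
theorem etaL_unit_mul {u v : Kb} (hu : u ∈ P) (hu' : u ∉ P.nonunits) (hv' : v ∉ P.nonunits) :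
    u * v ∉ P.nonunits := fun h => hv' (etaL_cancel hu hu' h)

theorem etaL_unit_pow {u : Kb} (hu : u ∈ P) (hu' : u ∉ P.nonunits) (n : ℕ) :
    u ^ n ∉ P.nonunits := by
  induction n with
  | zero => rw [pow_zero]; exact etaL_one_not_mem
  | succ n ih => rw [pow_succ']; exact etaL_unit_mul hu hu' ih

/-- A root of unity is a unit of `P`. -/
theorem etaL_unit_of_pow_eq_one {x : Kb} {n : ℕ} (hn : 0 < n) (h : x ^ n = 1) :
    x ∈ P ∧ x ∉ P.nonunits := by
  have hv : P.valuation x ^ n = 1 := by rw [← map_pow, h, map_one]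
  have h1 : P.valuation x = 1 := by
    rcases lt_trichotomy (P.valuation x) 1 with hlt | heq | hgt
    · exact absurd hv (ne_of_lt (pow_lt_one₀ zero_le hlt hn.ne'))
    · exact heq
    · exact absurd hv (ne_of_gt (one_lt_pow₀ hgt hn.ne'))
  constructor
  · exact (P.valuation_le_one_iff x).1 h1.le
  · rw [ValuationSubring.mem_nonunits_iff, h1]
    exact lt_irrefl _

theorem etaL_p_ne_zero (hp : p.Prime) : (p : Kb) ≠ 0 := Nat.cast_ne_zero.2 hp.ne_zero

theorem etaL_pi_ne_zero (hp : p.Prime) (hπ : IsPi1 p π1) : π1 ≠ 0 := by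
  rintro rfl
  have h0 : p ^ 2 - 1 ≠ 0 := by
    have := hp.two_le
    have : 4 ≤ p ^ 2 := by nlinarith
    omega
  unfold IsPi1 at hπ
  rw [zero_pow h0] at hπ
  exact etaL_p_ne_zero hp (neg_eq_zero.1 hπ.symm)

/-- `θ(σ) = σ π1 / π1` is a `(p² - 1)`-th root of unity. -/
theorem etaL_theta_pow (hp : p.Prime) (hπ : IsPi1 p π1) (σ : GK) :
    (σ π1 / π1) ^ (p ^ 2 - 1) = 1 := by
  have hπ0 := etaL_pi_ne_zero hp hπ
  unfold IsPi1 at hπ
  rw [div_pow, ← map_pow, hπ, map_neg, map_natCast]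
  exact div_self (neg_ne_zero.2 (etaL_p_ne_zero hp))

theorem etaL_theta_unit (hp : p.Prime) (hπ : IsPi1 p π1) (σ : GK) :
    σ π1 / π1 ∈ P ∧ σ π1 / π1 ∉ P.nonunits := by
  have h0 : 0 < p ^ 2 - 1 := by
    have := hp.two_le
    have : 4 ≤ p ^ 2 := by nlinarith
    omega
  exact etaL_unit_of_pow_eq_one h0 (etaL_theta_pow hp hπ σ)

/-- The inertia group is contained in the decomposition group. -/
theorem etaL_inertia_le {σ : GK} (hσ : σ ∈ P.inertiaSubgroupIn ℚ) :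
    σ ∈ P.decompositionSubgroup ℚ := by
  obtain ⟨σ', -, rfl⟩ := Subgroup.mem_map.1 hσ
  exact σ'.2

/-- In a field of characteristic `p`, a fixed point of Frobenius is the image of an integer. -/
theorem etaL_frob_fixed {k : Type*} [Field k] (hp : p.Prime) [CharP k p] {x : k}
    (hx : x ^ p = x) : ∃ n : ℕ, x = (n : k) := by
  classical
  haveI : Fact p.Prime := ⟨hp⟩
  letI : Algebra (ZMod p) k := ZMod.algebra k p
  have hroots : (X ^ p - X : (ZMod p)[X]).roots = Finset.univ.val := by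
    have := FiniteField.roots_X_pow_card_sub_X (ZMod p)
    rwa [ZMod.card] at this
  have hmonic : (X ^ p - X : (ZMod p)[X]).Monic := by
    apply Polynomial.monic_X_pow_sub
    rw [degree_X]
    exact_mod_cast hp.one_lt
  have hdeg : (X ^ p - X : (ZMod p)[X]).natDegree = p :=
    FiniteField.X_pow_card_sub_X_natDegree_eq _ hp.one_lt
  have hprod : (∏ a : ZMod p, (X - C a)) = (X ^ p - X : (ZMod p)[X]) := by
    have h := Polynomial.prod_multiset_X_sub_C_of_monic_of_roots_card_eq hmonic (by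
      rw [hroots, hdeg]
      simp [ZMod.card])
    rw [hroots] at h
    exact h
  have hmap := congrArg (Polynomial.map (algebraMap (ZMod p) k)) hprod
  rw [Polynomial.map_prod] at hmap
  have hev := congrArg (Polynomial.eval x) hmap
  rw [Polynomial.eval_prod] at hev
  simp only [Polynomial.map_sub, Polynomial.map_X, Polynomial.map_C, Polynomial.map_pow,
    eval_sub, eval_X, eval_C, eval_pow] at hev
  rw [hx, sub_self, Finset.prod_eq_zero_iff] at hev
  obtain ⟨a, -, ha⟩ := hev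
  refine ⟨a.val, ?_⟩
  rw [sub_eq_zero] at ha
  rw [ha]
  have : (algebraMap (ZMod p) k) a = (algebraMap (ZMod p) k) ((a.val : ℕ) : ZMod p) := by
    rw [ZMod.natCast_zmod_val]
  rw [this, map_natCast]

/-- If `c ∈ P` and `c ^ p ≡ c` modulo the maximal ideal, then `c` is congruent to an integer. -/
theorem etaL_congr_nat (hp : p.Prime) (hP : P.LiesOverPrime p) {c : Kb} (hc : c ∈ P)
    (h : c ^ p - c ∈ P.nonunits) : ∃ n : ℕ, c - (n : Kb) ∈ P.nonunits := by
  have hpk : ((p : ℕ) : IsLocalRing.ResidueField P) = 0 := by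
    have h1 : (IsLocalRing.residue P) ((p : ℕ) : P) = 0 := by
      rw [IsLocalRing.residue_eq_zero_iff]
      have := (P.mem_nonunits_iff_exists_mem_maximalIdeal (a := (p : Kb))).1 hP
      obtain ⟨ha, hm⟩ := this
      exact hm
    rwa [map_natCast] at h1
  haveI : CharP (IsLocalRing.ResidueField P) p :=
    (CharP.charP_iff_prime_eq_zero hp).2 hpk
  have hx : (IsLocalRing.residue P ⟨c, hc⟩) ^ p = IsLocalRing.residue P ⟨c, hc⟩ := by
    rw [← map_pow, ← sub_eq_zero, ← map_sub, IsLocalRing.residue_eq_zero_iff]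
    obtain ⟨ha, hm⟩ := (P.mem_nonunits_iff_exists_mem_maximalIdeal (a := c ^ p - c)).1 h
    exact hm
  obtain ⟨n, hn⟩ := etaL_frob_fixed hp hx
  refine ⟨n, ?_⟩
  rw [P.mem_nonunits_iff_exists_mem_maximalIdeal]
  refine ⟨sub_mem hc (natCast_mem P n), ?_⟩
  rw [← IsLocalRing.residue_eq_zero_iff]
  have : (⟨c - (n : Kb), sub_mem hc (natCast_mem P n)⟩ : P) = ⟨c, hc⟩ - ((n : ℕ) : P) := by
    apply Subtype.ext
    simp
  rw [this, map_sub, hn, map_natCast, sub_self]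

/-! ### Powers of `ζ` -/

theorem etaL_zeta_congr {ζ : Kb} (hζ : ζ ^ p = 1) {m n : ℕ}
    (h : ((m : ℕ) : ZMod p) = ((n : ℕ) : ZMod p)) : ζ ^ m = ζ ^ n := by
  rw [pow_eq_pow_mod m hζ, pow_eq_pow_mod n hζ]
  rw [ZMod.natCast_eq_natCast_iff'] at h
  rw [h]

/-- The existence of the exponent of `σ` on `ζ`. -/
theorem etaL_exists_exp (hp : p.Prime) {ζ : Kb} (hζ : IsPrimitiveRoot ζ p) (σ : GK) :
    ∃ w : ℕ, σ ζ = ζ ^ w := by
  haveI : NeZero p := ⟨hp.ne_zero⟩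
  have h1 : (σ ζ) ^ p = 1 := by rw [← map_pow, hζ.pow_eq_one, map_one]
  obtain ⟨i, -, hi⟩ := hζ.eq_pow_of_pow_eq_one h1
  exact ⟨i, hi.symm⟩

/-- A Kummer generator of `χ - n χ₁`. -/
theorem etaL_gen_sub (hp : p.Prime) {N : Set GK} {ζ : Kb} (hζ : IsPrimitiveRoot ζ p)
    {χ χ₁ : GK → ZMod p} {β β₁ : Kb} (hβ : IsKummerGen p N ζ χ β)
    (hβ₁ : IsKummerGen p N ζ χ₁ β₁) (n : ℕ) :
    IsKummerGen p N ζ (fun g => χ g - (n : ℤ) • χ₁ g) (β / β₁ ^ n) := by
  haveI : NeZero p := ⟨hp.ne_zero⟩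
  refine ⟨div_ne_zero hβ.1 (pow_ne_zero _ hβ₁.1), fun g hg => ?_⟩
  have hζ0 : ζ ≠ 0 := hζ.ne_zero hp.ne_zero
  rw [map_div₀, map_pow, hβ.2 g hg, hβ₁.2 g hg, mul_pow]
  have key : ζ ^ (χ g).val = ζ ^ (χ g - (n : ℤ) • χ₁ g).val * (ζ ^ (χ₁ g).val) ^ n := by
    rw [← pow_mul, ← pow_add]
    apply etaL_zeta_congr hζ.pow_eq_one
    push_cast
    rw [ZMod.natCast_zmod_val, ZMod.natCast_zmod_val, ZMod.natCast_zmod_val]
    simp only [zsmul_eq_mul, Int.cast_natCast]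
    ring
  rw [key]
  have h1 : (ζ ^ (χ₁ g).val) ^ n ≠ 0 := pow_ne_zero _ (pow_ne_zero _ hζ0)
  have h2 : β₁ ^ n ≠ 0 := pow_ne_zero _ hβ₁.1
  field_simp

/-! ### Leading coefficients -/

theorem etaL_lc_one (i : ℕ) : LcAt P π1 i 1 0 := by
  unfold LcAt
  rw [sub_self, zero_mul, sub_zero, zero_div]
  exact P.zero_mem

theorem etaL_lc_pow (hU : U1aStatement P π1) {i : ℕ} (hi : 0 < i) {u a : Kb} (ha : a ∈ P)
    (h : LcAt P π1 i u a) (n : ℕ) : LcAt P π1 i (u ^ n) ((n : Kb) * a) := by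
  induction n with
  | zero =>
    rw [pow_zero, Nat.cast_zero, zero_mul]
    exact etaL_lc_one i
  | succ n ih =>
    have h1 := hU.2.2.2.2.1 i (u ^ n) u ((n : Kb) * a) a hi
      (P.mul_mem _ _ (natCast_mem P n) ha) ha ih h
    rw [pow_succ]
    have : ((n + 1 : ℕ) : Kb) * a = (n : Kb) * a + a := by
      push_cast
      ring
    rw [this]
    exact h1

/-- The level of the generator of `χ - n χ₁` rises when `a ≡ n a₁`. -/
theorem etaL_level_sub (hU : U1aStatement P π1) {i : ℕ} (hi : 0 < i) {β β₁ a a₁ : Kb}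
    (ha : a ∈ inertiaRing P) (ha₁ : a₁ ∈ inertiaRing P)
    (h : LcAt P π1 i (β ^ p) a) (h₁ : LcAt P π1 i (β₁ ^ p) a₁) (n : ℕ)
    (hn : a - (n : Kb) * a₁ ∈ P.nonunits) :
    InU P π1 (i + 1) ((β / β₁ ^ n) ^ p) := by
  have haP : a ∈ P := (mem_inertiaRing.1 ha).1
  have ha₁P : a₁ ∈ P := (mem_inertiaRing.1 ha₁).1
  have hnaP : (n : Kb) * a₁ ∈ P := P.mul_mem _ _ (natCast_mem P n) ha₁P
  have h2 := etaL_lc_pow hU hi ha₁P h₁ n
  have h3 := hU.2.2.2.2.2 i ((β₁ ^ p) ^ n) ((n : Kb) * a₁) hi hnaP h2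
  have h4 := hU.2.2.2.2.1 i (β ^ p) (((β₁ ^ p) ^ n)⁻¹) a (-((n : Kb) * a₁)) hi haP
    (P.neg_mem _ hnaP) h h3
  have heq : (β / β₁ ^ n) ^ p = β ^ p * ((β₁ ^ p) ^ n)⁻¹ := by
    rw [div_pow, div_eq_mul_inv, ← pow_mul, ← pow_mul, mul_comm n p]
  rw [heq, hU.2.2.2.1]
  have hR : a + -((n : Kb) * a₁) ∈ inertiaRing P :=
    (inertiaRing P).add_mem ha ((inertiaRing P).neg_mem
      ((inertiaRing P).mul_mem (natCast_mem _ n) ha₁))
  refine hU.2.1 i _ (a + -((n : Kb) * a₁)) 0 hR (inertiaRing P).zero_mem h4 ?_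
  rw [sub_zero, ← sub_eq_add_neg]
  exact hn

/-! ### Step A: CHEAP + DEPTH give level `≥ p + 1` -/

theorem etaL_sq_ge (hp : p.Prime) : 4 ≤ p ^ 2 := by
  have := hp.two_le
  nlinarith

/-- `(p ^ a / y ^ b) ^ p` in the form used below. -/
theorem etaL_div_pow_mem {y : Kb} {a b : ℕ} (h : (p : Kb) ^ a / y ^ b ∈ P) :
    (p : Kb) ^ (p * a) / y ^ (p * b) ∈ P := by
  have h1 := pow_mem h p
  rwa [div_pow, ← pow_mul, ← pow_mul, mul_comm a p, mul_comm b p] at h1

theorem etaL_level_ge (hp : p.Prime) (hP : P.LiesOverPrime p) (hD : DepthStatement p P π1)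
    {ζ : Kb} {χ : GK → ZMod p} {β a : Kb} {s : ℕ} (hζ : IsPrimitiveRoot ζ p)
    (hχ : IsCharOn p (stabI P π1) χ) (hβ : IsKummerGen p (stabI P π1 : Set GK) ζ χ β)
    (hNF : UnitNF p P π1 s a (β ^ p)) (hC : CheapAt p P π1 χ)
    {g : GK} (hg : g ∈ stabI P π1) (hgχ : χ g ≠ 0) : p + 1 ≤ s := by
  obtain ⟨x, hxP, hxfix, hne, hcheap⟩ := hC g hg hgχ
  obtain ⟨hs0, hs1, hs2, haR, hau, hlc⟩ := hNF
  have hd := hD ζ χ β a s hζ hχ hβ hs0 hs1 hs2 haR hau hlc x hxP hxfix g hg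
  have hc := etaL_div_pow_mem hcheap
  have hy : (g x - x) ^ (p * (p ^ 2 - 1)) ≠ 0 := pow_ne_zero _ hne
  have hle := le_of_div_mem_of_div_mem hp.ne_zero hP hy hd hc
  have h4 := etaL_sq_ge hp
  have hpp : p * p = p ^ 2 := by ring
  rw [hpp] at hle
  generalize p ^ 2 = q at hle h4 hs1
  omega

theorem etaL_not_nonunitNF (hp : p.Prime) (hP : P.LiesOverPrime p)
    (hDN : DepthNUStatement p P π1)
    {ζ : Kb} {χ : GK → ZMod p} {β : Kb} {m : ℕ} (hζ : IsPrimitiveRoot ζ p)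
    (hχ : IsCharOn p (stabI P π1) χ) (hβ : IsKummerGen p (stabI P π1 : Set GK) ζ χ β)
    (hNF : NonunitNF p P π1 m (β ^ p)) (hC : CheapAt p P π1 χ)
    {g : GK} (hg : g ∈ stabI P π1) (hgχ : χ g ≠ 0) : False := by
  obtain ⟨x, hxP, hxfix, hne, hcheap⟩ := hC g hg hgχ
  obtain ⟨hm0, hm1, hm2, hm3⟩ := hNF
  have hd := hDN ζ χ β m hζ hχ hβ hm0 hm1 hm2 hm3 x hxP hxfix g hg
  have hc := etaL_div_pow_mem hcheap
  have hy : (g x - x) ^ (p * (p ^ 2 - 1)) ≠ 0 := pow_ne_zero _ hne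
  have hle := le_of_div_mem_of_div_mem hp.ne_zero hP hy hd hc
  have hpp : p * p = p ^ 2 := by ring
  rw [hpp] at hle
  omega

/-! ### Step B: `τ`-invariance gives level `= p + 1` -/

theorem etaL_level_eq (hp : p.Prime) (hπ : IsPi1 p π1)
    (hKR : KumRelStatement p P π1) (hCT : CycTameStatement p P π1)
    {ζ : Kb} {χ : GK → ZMod p} {β a : Kb} {s : ℕ} {τ : GK} (hζ : IsPrimitiveRoot ζ p)
    (hχ : IsCharOn p (stabI P π1) χ) (hβ : IsKummerGen p (stabI P π1 : Set GK) ζ χ β)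
    (hNF : UnitNF p P π1 s a (β ^ p)) (hτ : TameGen p P π1 τ)
    (hτχ : ∀ g ∈ stabI P π1, χ (τ⁻¹ * g * τ) = χ g) (hs : p + 1 ≤ s) : s = p + 1 := by
  have hπ0 := etaL_pi_ne_zero hp hπ
  obtain ⟨w, hw⟩ := etaL_exists_exp hp hζ τ
  have hrel := hKR ζ χ β a s hζ hχ hβ hNF 2 ![τ, 1] ![w, 1] ![1, -(w : ℤ)]
    (by
      intro j
      fin_cases j
      · exact etaL_inertia_le hτ.1
      · exact one_mem _)
    (by
      intro j
      fin_cases j
      · exact hw
      · show (1 : GK) ζ = ζ ^ 1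
        rw [pow_one]
        rfl)
    (by
      intro g hg
      rw [Fin.sum_univ_two]
      simp only [Matrix.cons_val_zero, Matrix.cons_val_one, Matrix.cons_val_fin_one]
      rw [hτχ g hg, inv_one, one_mul, mul_one]
      simp only [zsmul_eq_mul, Int.cast_one, Int.cast_neg, Int.cast_natCast, Nat.cast_one]
      ring)
  rw [Fin.sum_univ_two] at hrel
  simp only [Matrix.cons_val_zero, Matrix.cons_val_one, Matrix.cons_val_fin_one] at hrel
  obtain ⟨hs0, hs1, hs2, haR, hau, hlc⟩ := hNF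
  have haP : a ∈ P := (mem_inertiaRing.1 haR).1
  have hτa : τ a = a := (mem_inertiaRing.1 haR).2 τ hτ.1
  have h1 : ((1 : GK) π1) = π1 := rfl
  have h1a : ((1 : GK) a) = a := rfl
  rw [hτa, h1, h1a, div_self hπ0, one_pow, one_mul] at hrel
  have hθ := etaL_theta_unit (P := P) hp hπ τ
  have h2 : a * ((τ π1 / π1) ^ s - (w : Kb)) ∈ P.nonunits := by
    have : a * ((τ π1 / π1) ^ s - (w : Kb)) =
        ((1 : ℤ) : Kb) * ((τ π1 / π1) ^ s * a) + ((-(w : ℤ) : ℤ) : Kb) * a := by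
      push_cast
      ring
    rw [this]
    exact hrel
  have h3 : (τ π1 / π1) ^ s - (w : Kb) ∈ P.nonunits := etaL_cancel haP hau h2
  have h4 := hCT ζ τ w hζ hτ.1 hw
  have h5 : (τ π1 / π1) ^ s - (τ π1 / π1) ^ (p + 1) ∈ P.nonunits := by
    have := etaL_add h3 h4
    rwa [sub_add_sub_cancel] at this
  have h6 : (τ π1 / π1) ^ (p + 1) * ((τ π1 / π1) ^ (s - (p + 1)) - 1) ∈ P.nonunits := by
    have : (τ π1 / π1) ^ (p + 1) * ((τ π1 / π1) ^ (s - (p + 1)) - 1) =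
        (τ π1 / π1) ^ s - (τ π1 / π1) ^ (p + 1) := by
      rw [mul_sub, mul_one, ← pow_add, Nat.add_sub_cancel' hs]
    rw [this]
    exact h5
  have h7 := etaL_cancel (pow_mem hθ.1 _) (etaL_unit_pow hθ.1 hθ.2 _) h6
  have h8 := hτ.2 _ h7
  have h4' := etaL_sq_ge hp
  have h9 : s - (p + 1) = 0 := by
    apply Nat.eq_zero_of_dvd_of_lt h8
    generalize p ^ 2 = q at h4' hs1 ⊢
    omega
  omega

/-! ### Step C: the Frobenius relation -/

theorem etaL_frob_rel (hp : p.Prime) (hπ : IsPi1 p π1)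
    (hKR : KumRelStatement p P π1)
    {ζ : Kb} {χ : GK → ZMod p} {β a : Kb} {s : ℕ} {φ : GK} {w : ℕ}
    (hζ : IsPrimitiveRoot ζ p)
    (hχ : IsCharOn p (stabI P π1) χ) (hβ : IsKummerGen p (stabI P π1 : Set GK) ζ χ β)
    (hNF : UnitNF p P π1 s a (β ^ p)) (hφ : φ ∈ P.decompositionSubgroup ℚ)
    (hφF : ∀ a ∈ inertiaRing P, φ a - a ^ p ∈ P.nonunits)
    (hφχ : ∀ g ∈ stabI P π1, χ (φ⁻¹ * g * φ) = -χ g) (hw : φ ζ = ζ ^ w) :
    (φ π1 / π1) ^ s * a ^ p + (w : Kb) * a ∈ P.nonunits := by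
  have hπ0 := etaL_pi_ne_zero hp hπ
  have hrel := hKR ζ χ β a s hζ hχ hβ hNF 2 ![φ, 1] ![w, 1] ![1, (w : ℤ)]
    (by
      intro j
      fin_cases j
      · exact hφ
      · exact one_mem _)
    (by
      intro j
      fin_cases j
      · exact hw
      · show (1 : GK) ζ = ζ ^ 1
        rw [pow_one]
        rfl)
    (by
      intro g hg
      rw [Fin.sum_univ_two]
      simp only [Matrix.cons_val_zero, Matrix.cons_val_one, Matrix.cons_val_fin_one]
      rw [hφχ g hg, inv_one, one_mul, mul_one]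
      simp only [zsmul_eq_mul, Int.cast_one, Int.cast_natCast, Nat.cast_one]
      ring)
  rw [Fin.sum_univ_two] at hrel
  simp only [Matrix.cons_val_zero, Matrix.cons_val_one, Matrix.cons_val_fin_one] at hrel
  obtain ⟨hs0, hs1, hs2, haR, hau, hlc⟩ := hNF
  have h1 : ((1 : GK) π1) = π1 := rfl
  have h1a : ((1 : GK) a) = a := rfl
  rw [h1, h1a, div_self hπ0, one_pow, one_mul] at hrel
  have hθ := etaL_theta_unit (P := P) hp hπ φ
  have hF := hφF a haR
  have h2 : (φ π1 / π1) ^ s * (φ a - a ^ p) ∈ P.nonunits :=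
    etaL_mul_left (pow_mem hθ.1 _) hF
  have h3 := etaL_sub hrel h2
  have : ((1 : ℤ) : Kb) * ((φ π1 / π1) ^ s * φ a) + (((w : ℤ) : ℤ) : Kb) * a -
      (φ π1 / π1) ^ s * (φ a - a ^ p) = (φ π1 / π1) ^ s * a ^ p + (w : Kb) * a := by
    push_cast
    ring
  rw [this] at h3
  exact h3

/-! ### Step D + E: two leading coefficients are proportional modulo the maximal ideal -/

theorem etaL_lc_prop (hp : p.Prime) (hP : P.LiesOverPrime p) {ξ a a₁ w : Kb}
    (hξ : ξ ∈ P) (hξu : ξ ∉ P.nonunits) (ha : a ∈ P)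
    (ha₁ : a₁ ∈ P) (ha₁u : a₁ ∉ P.nonunits)
    (h : ξ * a ^ p + w * a ∈ P.nonunits) (h₁ : ξ * a₁ ^ p + w * a₁ ∈ P.nonunits) :
    ∃ n : ℕ, a - (n : Kb) * a₁ ∈ P.nonunits := by
  have ha₁inv : a₁⁻¹ ∈ P := base_inv_mem_of_not_mem_nonunits ha₁ ha₁u
  have ha₁0 : a₁ ≠ 0 := by
    rintro rfl
    apply ha₁u
    rw [ValuationSubring.mem_nonunits_iff, map_zero]
    exact zero_lt_one
  -- `ξ a a₁ (a^(p-1) - a₁^(p-1)) ∈ 𝔪`
  have h1 : a₁ * (ξ * a ^ p + w * a) - a * (ξ * a₁ ^ p + w * a₁) ∈ P.nonunits :=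
    etaL_sub (etaL_mul_left ha₁ h) (etaL_mul_left ha h₁)
  have hp1 : p = (p - 1) + 1 := by have := hp.one_lt; omega
  have h2 : a₁ * (ξ * a ^ p + w * a) - a * (ξ * a₁ ^ p + w * a₁) =
      ξ * (a₁ * (a₁ ^ p * ((a * a₁⁻¹) ^ p - a * a₁⁻¹))) := by
    have e1 : a₁ ^ p * (a * a₁⁻¹) ^ p = a ^ p := by
      rw [← mul_pow, mul_comm a₁, mul_assoc, inv_mul_cancel₀ ha₁0, mul_one]
    have e2 : a₁ ^ p * (a * a₁⁻¹) = a₁ ^ (p - 1) * a := by
      conv_lhs => rw [hp1, pow_succ]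
      rw [mul_assoc, mul_comm a, ← mul_assoc a₁, mul_inv_cancel₀ ha₁0, one_mul]
    have e3 : a * a₁ ^ p = a₁ * (a₁ ^ (p - 1) * a) := by
      conv_lhs => rw [hp1, pow_succ]
      ring
    rw [mul_sub, e1, e2, mul_sub, ← e3]
    ring
  rw [h2] at h1
  have h3 := etaL_cancel hξ hξu h1
  have h3' := etaL_cancel ha₁ ha₁u h3
  have h4 := etaL_cancel (pow_mem ha₁ p) (etaL_unit_pow ha₁ ha₁u p) h3'
  obtain ⟨n, hn⟩ := etaL_congr_nat hp hP (P.mul_mem _ _ ha ha₁inv) h4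
  refine ⟨n, ?_⟩
  have : a - (n : Kb) * a₁ = a₁ * (a * a₁⁻¹ - (n : Kb)) := by
    rw [mul_sub, mul_comm a₁ (a * a₁⁻¹), mul_assoc, inv_mul_cancel₀ ha₁0, mul_one, mul_comm a₁]
  rw [this]
  exact etaL_mul_left ha₁ hn

/-! ### The normal form of a nonzero member of the family -/

theorem etaL_normal_form (hp : p.Prime) (hP : P.LiesOverPrime p) (hπ : IsPi1 p π1)
    (hKE : KumExistStatement p P π1) (hKR : KumRelStatement p P π1)
    (hCT : CycTameStatement p P π1) (hD : DepthStatement p P π1)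
    (hDN : DepthNUStatement p P π1)
    {ζ : Kb} (hζ : IsPrimitiveRoot ζ p) {χ : GK → ZMod p}
    (hχ : IsCharOn p (stabI P π1) χ) (hsm : IsSmoothChar p χ) {τ : GK}
    (hτ : TameGen p P π1 τ) (hτχ : ∀ g ∈ stabI P π1, χ (τ⁻¹ * g * τ) = χ g)
    (hC : CheapAt p P π1 χ) {g : GK} (hg : g ∈ stabI P π1) (hgχ : χ g ≠ 0) :
    ∃ β a : Kb, IsKummerGen p (stabI P π1 : Set GK) ζ χ β ∧
      UnitNF p P π1 (p + 1) a (β ^ p) := by
  obtain ⟨β, hβ, h⟩ := hKE ζ χ hζ hχ hsm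
  rcases h with h0 | ⟨m, hm⟩ | ⟨s, a, hNF⟩
  · exact absurd (h0 g hg) hgχ
  · exact (etaL_not_nonunitNF hp hP hDN hζ hχ hβ hm hC hg hgχ).elim
  · have hs := etaL_level_ge hp hP hD hζ hχ hβ hNF hC hg hgχ
    have hs' := etaL_level_eq hp hπ hKR hCT hζ hχ hβ hNF hτ hτχ hs
    rw [hs'] at hNF
    exact ⟨β, a, hβ, hNF⟩

/-! ### The diagonal line -/

/-- **KT-ETA**: the `η`-line statement, from the Kummer leaves. -/
theorem etaLine (hp : p.Prime) (_hp2 : p ≠ 2) (hP : P.LiesOverPrime p) (hπ : IsPi1 p π1)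
    (hU : U1aStatement P π1) (hKE : KumExistStatement p P π1)
    (hKU : KumUniqueStatement p P π1) (hKR : KumRelStatement p P π1)
    (hCT : CycTameStatement p P π1) (hD : DepthStatement p P π1)
    (hDN : DepthNUStatement p P π1) : EtaStatement p P π1 := by
  intro ζ X τ φ hζ hX hcl hτ hτX hφ hφF hφX hCheap hSharp
  by_contra hne
  push Not at hne
  obtain ⟨χ₁, hχ₁X, g₁, hg₁, hg₁χ⟩ := hne
  have hNFall : ∀ χ ∈ X, (∃ g ∈ stabI P π1, χ g ≠ 0) →
      ∃ β a : Kb, IsKummerGen p (stabI P π1 : Set GK) ζ χ β ∧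
        UnitNF p P π1 (p + 1) a (β ^ p) := by
    rintro χ hχX ⟨g, hg, hgχ⟩
    exact etaL_normal_form hp hP hπ hKE hKR hCT hD hDN hζ (hX χ hχX).1 (hX χ hχX).2 hτ
      (hτX χ hχX) (hCheap χ hχX) hg hgχ
  obtain ⟨wφ, hwφ⟩ := etaL_exists_exp hp hζ φ
  obtain ⟨β₁, a₁, hβ₁, hNF₁⟩ := hNFall χ₁ hχ₁X ⟨g₁, hg₁, hg₁χ⟩
  have hθφ := etaL_theta_unit (P := P) hp hπ φ
  have hprop : ∀ χ ∈ X, ∃ n : ℤ, ∀ g ∈ stabI P π1, χ g = n • χ₁ g := by
    intro χ hχX
    by_cases hχ0 : ∃ g ∈ stabI P π1, χ g ≠ 0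
    · obtain ⟨β, a, hβ, hNF⟩ := hNFall χ hχX hχ0
      have hr := etaL_frob_rel hp hπ hKR hζ (hX χ hχX).1 hβ hNF hφ hφF (hφX χ hχX) hwφ
      have hr₁ := etaL_frob_rel hp hπ hKR hζ (hX χ₁ hχ₁X).1 hβ₁ hNF₁ hφ hφF (hφX χ₁ hχ₁X) hwφ
      have haR := hNF.2.2.2.1
      have ha₁R := hNF₁.2.2.2.1
      obtain ⟨n, hn⟩ := etaL_lc_prop hp hP (pow_mem hθφ.1 (p + 1))
        (etaL_unit_pow hθφ.1 hθφ.2 (p + 1)) (mem_inertiaRing.1 haR).1
        (mem_inertiaRing.1 ha₁R).1 hNF₁.2.2.2.2.1 hr hr₁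
      refine ⟨(n : ℤ), ?_⟩
      by_contra hcon
      push Not at hcon
      obtain ⟨g, hg, hgne⟩ := hcon
      have hχ'X := hcl χ₁ hχ₁X χ hχX (n : ℤ)
      obtain ⟨β'', a'', hβ'', hNF''⟩ := hNFall _ hχ'X ⟨g, hg, sub_ne_zero.2 hgne⟩
      have hgen := etaL_gen_sub hp hζ hβ hβ₁ n
      have hlev := etaL_level_sub hU (Nat.succ_pos p) haR ha₁R hNF.2.2.2.2.2 hNF₁.2.2.2.2.2 n hn
      exact hKU ζ _ β'' (β / β₁ ^ n) a'' (p + 1) hζ hβ'' hgen hNF'' hlev
    · push Not at hχ0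
      exact ⟨0, fun g hg => by rw [zero_smul]; exact hχ0 g hg⟩
  obtain ⟨x, hxP, hxfix, hxne, hsharp⟩ := hSharp χ₁ hχ₁X hprop g₁ hg₁ hg₁χ
  obtain ⟨hs0, hs1, hs2, haR, hau, hlc⟩ := hNF₁
  have hd := hD ζ χ₁ β₁ a₁ (p + 1) hζ (hX χ₁ hχ₁X).1 hβ₁ hs0 hs1 hs2 haR hau hlc x hxP hxfix
    g₁ hg₁
  have hc : (p : Kb) ^ (p * 1) / (g₁ x - x) ^ (p * (p ^ 2 - 1)) ∈ P :=
    etaL_div_pow_mem (a := 1) (by rwa [pow_one])
  have hy : (g₁ x - x) ^ (p * (p ^ 2 - 1)) ≠ 0 := pow_ne_zero _ hxne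
  have hle := le_of_div_mem_of_div_mem hp.ne_zero hP hy hd hc
  have h2 := hp.two_le
  have hpp : p ^ 2 = p * p := by ring
  have : 2 * p ≤ p * p := Nat.mul_le_mul_right p h2
  rw [hpp] at hle
  omega

end Fermat.Agent.FFL.FB
end MergeWrap_Lib_FFL_FB_EtaLine

section MergeWrap_Lib_FFL_FB_KumExist -- from Lib/FFL/FB/KumExist.lean

set_option autoImplicit false
set_option linter.style.haveILetI false

namespace Fermat.Agent.FFL.FB

open Fermat.Agent.FFL Polynomial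

local notation "Kb" => AlgebraicClosure ℚ
local notation "GK" => (AlgebraicClosure ℚ ≃ₐ[ℚ] AlgebraicClosure ℚ)

/-! ### Closedness at finite level -/

/-- An automorphism fixing a primitive element of `F` fixes `F`. -/
theorem kumExist_mem_fixingSubgroup (F : IntermediateField ℚ Kb) (α : F)
    (hα : IntermediateField.adjoin ℚ {α} = ⊤) (σ : GK) (h2 : σ ((α : F) : Kb) = ((α : F) : Kb)) :
    σ ∈ F.fixingSubgroup := by
  rw [IntermediateField.mem_fixingSubgroup_iff]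
  intro y hy
  have h3 : (⟨y, hy⟩ : F) ∈ IntermediateField.adjoin ℚ {α} := by
    rw [hα]; exact IntermediateField.mem_top
  obtain ⟨r, s, hrs⟩ := (IntermediateField.mem_adjoin_simple_iff ℚ _).mp h3
  have e : ∀ r : ℚ[X], ((Polynomial.aeval α r : F) : Kb) = Polynomial.aeval ((α : F) : Kb) r :=
    fun r => (Polynomial.aeval_algHom_apply F.val α r).symm
  have e2 : ∀ r : ℚ[X], σ (Polynomial.aeval ((α : F) : Kb) r) =
      Polynomial.aeval (σ ((α : F) : Kb)) r :=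
    fun r => (Polynomial.aeval_algHom_apply (σ : Kb →ₐ[ℚ] Kb) ((α : F) : Kb) r).symm
  have h4 : y = Polynomial.aeval ((α : F) : Kb) r / Polynomial.aeval ((α : F) : Kb) s := by
    have h5 : ((⟨y, hy⟩ : F) : Kb) = ((Polynomial.aeval α r / Polynomial.aeval α s : F) : Kb) :=
      congrArg (fun z : F => (z : Kb)) hrs
    rw [IntermediateField.coe_div, e, e] at h5
    exact h5
  show σ y = y
  rw [h4, map_div₀, e2, e2, h2]

/-- The orbit of an element under a subgroup of the Galois group is finite. -/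
theorem kumExist_orbit_finite (Γ : Subgroup GK) (θ : Kb) : {s : Kb | ∃ g ∈ Γ, g θ = s}.Finite := by
  have hQ : Algebra.IsAlgebraic ℚ Kb := AlgebraicClosure.isAlgebraic ℚ
  have hθ : IsIntegral ℚ θ := (Algebra.IsAlgebraic.isAlgebraic (R := ℚ) θ).isIntegral
  refine (Polynomial.rootSet_finite (minpoly ℚ θ) Kb).subset ?_
  rintro s ⟨g, -, rfl⟩
  rw [Polynomial.mem_rootSet]
  refine ⟨minpoly.ne_zero hθ, ?_⟩
  have h1 := Polynomial.aeval_algHom_apply (g : Kb →ₐ[ℚ] Kb) θ (minpoly ℚ θ)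
  rw [minpoly.aeval, map_zero] at h1
  exact h1

/-- **Closedness at finite level**: if `Γ ≤ N` contains `N ∩ Gal(ℚ̄/F)` for a finite extension
`F` of `ℚ`, an element of `N` fixing the fixed field of `Γ` lies in `Γ`. -/
theorem kumExist_closed (N Γ : Subgroup GK) (F : IntermediateField ℚ Kb)
    [FiniteDimensional ℚ F] (hF : ∀ h ∈ N, h ∈ F.fixingSubgroup → h ∈ Γ) (hΓN : Γ ≤ N)
    {σ : GK} (hσ : σ ∈ N) (hfix : ∀ x : Kb, FixedBy Γ x → σ x = x) : σ ∈ Γ := by
  classical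
  obtain ⟨α, hα⟩ := Field.exists_primitive_element ℚ F
  set θ : Kb := ((α : F) : Kb) with hθdef
  have hfin := kumExist_orbit_finite Γ θ
  set T : Finset Kb := hfin.toFinset with hT
  have hmemT : ∀ s, s ∈ T ↔ ∃ g ∈ Γ, g θ = s := fun s => by
    rw [hT, Set.Finite.mem_toFinset]; rfl
  set f : Kb[X] := ∏ s ∈ T, (X - C s) with hf
  -- `Γ` permutes `T`
  have himage : ∀ g ∈ Γ, T.image (fun s => g s) = T := by
    intro g hg
    refine Finset.eq_of_subset_of_card_le ?_ ?_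
    · intro s hs
      rw [Finset.mem_image] at hs
      obtain ⟨s', hs', rfl⟩ := hs
      obtain ⟨g', hg', rfl⟩ := (hmemT s').1 hs'
      exact (hmemT _).2 ⟨g * g', mul_mem hg hg', rfl⟩
    · rw [Finset.card_image_of_injective _ (fun a b hab => g.injective hab)]
  have hmap : ∀ g ∈ Γ, f.map (g : Kb →+* Kb) = f := by
    intro g hg
    rw [hf, Polynomial.map_prod]
    have h1 : ∀ s ∈ T, (X - C s : Kb[X]).map (g : Kb →+* Kb) = X - C (g s) := by
      intro s _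
      simp
    rw [Finset.prod_congr rfl h1]
    conv_rhs => rw [← himage g hg]
    rw [Finset.prod_image (fun a _ b _ hab => g.injective hab)]
  have hcoeff : ∀ n, FixedBy Γ (f.coeff n) := by
    intro n g hg
    have := congrArg (fun q : Kb[X] => q.coeff n) (hmap g hg)
    simpa [Polynomial.coeff_map] using this
  have hσf : f.map (σ : Kb →+* Kb) = f := by
    ext n
    rw [Polynomial.coeff_map]
    exact hfix _ (hcoeff n)
  have hθT : θ ∈ T := (hmemT θ).2 ⟨1, one_mem _, rfl⟩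
  have hθroot : f.eval θ = 0 := by
    rw [hf, Polynomial.eval_prod]
    exact Finset.prod_eq_zero hθT (by simp)
  have hσroot : f.eval (σ θ) = 0 := by
    have h1 : (f.map (σ : Kb →+* Kb)).eval ((σ : Kb →+* Kb) θ) = (σ : Kb →+* Kb) (f.eval θ) :=
      Polynomial.eval_map_apply (σ : Kb →+* Kb) θ
    rw [hσf, hθroot, map_zero] at h1
    exact h1
  rw [hf, Polynomial.eval_prod, Finset.prod_eq_zero_iff] at hσroot
  obtain ⟨s, hs, hs0⟩ := hσroot
  obtain ⟨γ, hγ, rfl⟩ := (hmemT s).1 hs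
  have hγσ : γ θ = σ θ := by
    have : σ θ - γ θ = 0 := by simpa using hs0
    exact (sub_eq_zero.1 this).symm
  have h2 : (γ⁻¹ * σ) θ = θ := by
    rw [AlgEquiv.mul_apply, ← hγσ, ← AlgEquiv.mul_apply, inv_mul_cancel, AlgEquiv.one_apply]
  have h3 : γ⁻¹ * σ ∈ Γ :=
    hF _ (mul_mem (inv_mem (hΓN hγ)) hσ) (kumExist_mem_fixingSubgroup F α hα _ h2)
  have : σ = γ * (γ⁻¹ * σ) := by group
  rw [this]
  exact mul_mem hγ h3

/-! ### The kernel of a character -/

section Ker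

variable {p : ℕ} {N : Subgroup GK} {χ : GK → ZMod p}

theorem kumExist_char_one (h : IsCharOn p N χ) : χ 1 = 0 := by
  have := h 1 (one_mem N) 1 (one_mem N)
  rw [mul_one] at this
  exact left_eq_add.1 this

theorem kumExist_char_inv (h : IsCharOn p N χ) {g : GK} (hg : g ∈ N) : χ g⁻¹ = -χ g := by
  have := h g hg g⁻¹ (inv_mem hg)
  rw [mul_inv_cancel, kumExist_char_one h] at this
  exact eq_neg_of_add_eq_zero_right this.symm

/-- The kernel of `χ` in `N`. -/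
def kumExistKer (p : ℕ) (N : Subgroup GK) (χ : GK → ZMod p) (h : IsCharOn p N χ) : Subgroup GK where
  carrier := {g | g ∈ N ∧ χ g = 0}
  mul_mem' := fun {a b} ha hb => ⟨mul_mem ha.1 hb.1, by rw [h a ha.1 b hb.1, ha.2, hb.2, add_zero]⟩
  one_mem' := ⟨one_mem N, kumExist_char_one h⟩
  inv_mem' := fun {a} ha => ⟨inv_mem ha.1, by rw [kumExist_char_inv h ha.1, ha.2, neg_zero]⟩

theorem kumExistKer_mem (h : IsCharOn p N χ) {g : GK} : g ∈ kumExistKer p N χ h ↔ g ∈ N ∧ χ g = 0 :=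
  Iff.rfl

theorem kumExistKer_le (h : IsCharOn p N χ) : kumExistKer p N χ h ≤ N := fun _ hg => hg.1

/-- The character as a homomorphism on `N`. -/
def kumExistHom (p : ℕ) (N : Subgroup GK) (χ : GK → ZMod p) (h : IsCharOn p N χ) :
    N →* Multiplicative (ZMod p) where
  toFun g := Multiplicative.ofAdd (χ g.1)
  map_one' := by
    show Multiplicative.ofAdd (χ 1) = 1
    rw [kumExist_char_one h]; rfl
  map_mul' a b := by
    show Multiplicative.ofAdd (χ (a.1 * b.1)) = _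
    rw [h a.1 a.2 b.1 b.2]; rfl

theorem kumExistKer_subgroupOf (h : IsCharOn p N χ) :
    (kumExistKer p N χ h).subgroupOf N = (kumExistHom p N χ h).ker := by
  ext g
  rw [Subgroup.mem_subgroupOf, MonoidHom.mem_ker, kumExistKer_mem]
  constructor
  · intro hg
    show Multiplicative.ofAdd (χ g.1) = 1
    rw [hg.2]; rfl
  · intro hg
    refine ⟨g.2, ?_⟩
    have : Multiplicative.ofAdd (χ g.1) = Multiplicative.ofAdd 0 := hg
    exact Multiplicative.ofAdd.injective this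

theorem kumExistKer_normal (h : IsCharOn p N χ) : ((kumExistKer p N χ h).subgroupOf N).Normal := by
  rw [kumExistKer_subgroupOf]
  exact MonoidHom.normal_ker _

theorem kumExistKer_finiteIndex [NeZero p] (h : IsCharOn p N χ) :
    ((kumExistKer p N χ h).subgroupOf N).FiniteIndex := by
  rw [kumExistKer_subgroupOf]
  infer_instance

end Ker

/-! ### Powers of a root of unity indexed by `ℤ/p` -/

theorem kumExist_pow_val_add {p : ℕ} [NeZero p] {ζ : Kb} (hζ : ζ ^ p = 1) (a b : ZMod p) :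
    ζ ^ (a + b).val = ζ ^ a.val * ζ ^ b.val := by
  rw [ZMod.val_add, ← pow_add, ← pow_eq_pow_mod _ hζ]

/-! ### KT-EXIST -/

/-- **KT-EXIST**. -/
theorem kumExist {p : ℕ} {P : ValuationSubring Kb} {π1 : Kb} (hp : p.Prime)
    (hP : P.LiesOverPrime p) (hπ : IsPi1 p π1) (hKum : KumStatement)
    (hU6 : U6Statement p P π1 (stabI P π1)) : KumExistStatement p P π1 := by
  intro ζ χ hζ hχ hsm
  haveI : NeZero p := ⟨hp.ne_zero⟩
  obtain ⟨F, hFfin, hF⟩ := hsm
  have hζp : ζ ^ p = 1 := hζ.pow_eq_one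
  have hζ0 : ζ ≠ 0 := by
    intro h
    rw [h, zero_pow hp.ne_zero] at hζp
    exact zero_ne_one hζp
  set N : Subgroup GK := stabI P π1 with hN
  set Γ : Subgroup GK := kumExistKer p N χ hχ with hΓ
  -- the multiplicative character
  obtain ⟨a₀, ha₀, -, ha₀N⟩ := hKum N Γ (kumExistKer_le hχ) (kumExistKer_normal hχ)
    (kumExistKer_finiteIndex hχ)
    (fun σ hσ hfix => kumExist_closed N Γ F (fun h hh hhF => ⟨hh, hF h hhF⟩) (kumExistKer_le hχ)
      hσ hfix)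
    (fun σ => ζ ^ (χ σ).val) (fun σ _ => pow_ne_zero _ hζ0)
    (fun σ hσ τ hτ => by
      show ζ ^ (χ (σ * τ)).val = _
      rw [hχ σ hσ τ hτ, kumExist_pow_val_add hζp])
    (fun σ _ τ hτ => by
      show τ (ζ ^ (χ σ).val) = _
      rw [map_pow, zeta_fixed_of_stabI hp hP hπ hζp hτ])
    (fun γ hγ => by
      show ζ ^ (χ γ).val = 1
      rw [hγ.2, ZMod.val_zero, pow_zero])
  -- `u₀ = a₀ ^ p` is in `K1`
  have hu₀N : FixedBy N (a₀ ^ p) := by
    intro σ hσ
    rw [map_pow, ha₀N σ hσ, mul_pow, ← pow_mul, mul_comm (χ σ).val p, pow_mul, hζp, one_pow,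
      one_mul]
  obtain ⟨z, hzN, hz0, hcases⟩ := hU6 (a₀ ^ p) (pow_ne_zero _ ha₀) hu₀N
  have hβp : (a₀ / z) ^ p = a₀ ^ p / z ^ p := div_pow _ _ _
  have hgen : IsKummerGen p (stabI P π1 : Set GK) ζ χ (a₀ / z) := by
    refine ⟨div_ne_zero ha₀ hz0, fun g hg => ?_⟩
    rw [map_div₀, ha₀N g hg, hzN g hg, mul_div_assoc]
  refine ⟨a₀ / z, hgen, ?_⟩
  rcases hcases with ⟨m, hm0, hmp, h1, h2⟩ | hpow | ⟨i, a, hi0, hi, hpi, haR, hau, hlc⟩
  · right; left
    exact ⟨m, hm0, hmp, by rw [hβp]; exact h1, by rw [hβp]; exact h2⟩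
  · left
    intro g hg
    have hβ1 : (a₀ / z) ^ p = 1 := by
      rw [hβp, hpow, div_self (pow_ne_zero _ hz0)]
    have h1 : g (a₀ / z) = a₀ / z := zeta_fixed_of_stabI hp hP hπ hβ1 hg
    have h2 := hgen.2 g hg
    rw [h1] at h2
    have h3 : ζ ^ (χ g).val = 1 := by
      have h4 : (1 : Kb) * (a₀ / z) = ζ ^ (χ g).val * (a₀ / z) := by rw [one_mul]; exact h2
      exact (mul_right_cancel₀ hgen.1 h4).symm
    have h5 : p ∣ (χ g).val := (hζ.pow_eq_one_iff_dvd _).1 h3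
    have h6 : (χ g).val = 0 := Nat.eq_zero_of_dvd_of_lt h5 (ZMod.val_lt _)
    exact (ZMod.val_eq_zero _).1 h6
  · right; right
    exact ⟨i, a, hi0, hi, hpi, haR, hau, by rw [hβp]; exact hlc⟩

end Fermat.Agent.FFL.FB
end MergeWrap_Lib_FFL_FB_KumExist

section MergeWrap_Lib_FFL_FB_KumGood -- from Lib/FFL/FB/KumGood.lean

set_option autoImplicit false

namespace Fermat.Agent.FFL.FB

open Fermat.Agent.FFL

local notation "Kb" => AlgebraicClosure ℚ
local notation "GK" => (AlgebraicClosure ℚ ≃ₐ[ℚ] AlgebraicClosure ℚ)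

variable {p : ℕ} {P : ValuationSubring Kb}

/-- The exact valuation of `β - 1` for `β ^ p` in unit normal form of level `s`:
`v(β - 1)^(p (p² - 1)) = v(p)^s`. -/
theorem kumGood_val_eq (hp : p.Prime) (hP : P.LiesOverPrime p) {π1 : Kb} (hπ : IsPi1 p π1)
    {β a : Kb} {s : ℕ} (h : UnitNF p P π1 s a (β ^ p)) :
    P.valuation (β - 1) ^ (p * (p ^ 2 - 1)) = P.valuation (p : Kb) ^ s := by
  obtain ⟨hs0, hsp, -, ha, hau, hlc⟩ := h
  have hπ' : π1 ^ (p ^ 2 - 1) = -(p : Kb) := hπ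
  have hvu := depth_val_of_lcAt hp hP hπ' ha.1 hau hlc
  have hB := depth_rootlevel hp hP hπ' hs0 hsp hvu
  rw [pow_mul, hB, ← pow_mul, mul_comm, pow_mul, depth_val_pi_pow hπ']

/-- **KT-GOOD**. -/
theorem goodOfLevel (hp : p.Prime) (hP : P.LiesOverPrime p) {π1 : Kb} (hπ : IsPi1 p π1) :
    GoodOfLevelStatement p P π1 := by
  intro β a s h hs
  apply depth_div_mem hp
  rw [kumGood_val_eq hp hP hπ h]
  exact pow_le_pow_of_le_one (depth_val_p_pos hp).le (ar_val_p_lt hP).le hs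

end Fermat.Agent.FFL.FB
end MergeWrap_Lib_FFL_FB_KumGood

section MergeWrap_Lib_FFL_FB_KumRel -- from Lib/FFL/FB/KumRel.lean

set_option autoImplicit false

namespace Fermat.Agent.FFL.FB

open Fermat.Agent.FFL

local notation "Kb" => AlgebraicClosure ℚ
local notation "GK" => (AlgebraicClosure ℚ ≃ₐ[ℚ] AlgebraicClosure ℚ)

variable {p : ℕ} {P : ValuationSubring Kb} {π1 : Kb}

/-- `1` has leading coefficient `0` at every level. -/
theorem kumRel_lcAt_one (P : ValuationSubring Kb) (π1 : Kb) (s : ℕ) : LcAt P π1 s 1 0 := by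
  unfold LcAt
  rw [sub_self, zero_mul, sub_zero, zero_div]
  exact P.zero_mem

/-- Leading coefficients of natural powers. -/
theorem kumRel_lcAt_pow (hU : U1aStatement P π1) {s : ℕ} (hs : 0 < s) {u A : Kb} (hA : A ∈ P)
    (h : LcAt P π1 s u A) (n : ℕ) : LcAt P π1 s (u ^ n) ((n : Kb) * A) := by
  induction n with
  | zero =>
    rw [pow_zero, Nat.cast_zero, zero_mul]
    exact kumRel_lcAt_one P π1 s
  | succ n ih =>
    have h5 := hU.2.2.2.2.1 s (u ^ n) u ((n : Kb) * A) A hs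
      (P.mul_mem _ _ (natCast_mem P n) hA) hA ih h
    rw [pow_succ, Nat.cast_succ, add_mul, one_mul]
    exact h5

/-- Leading coefficients of integer powers. -/
theorem kumRel_lcAt_zpow (hU : U1aStatement P π1) {s : ℕ} (hs : 0 < s) {u A : Kb} (hA : A ∈ P)
    (h : LcAt P π1 s u A) (n : ℤ) : LcAt P π1 s (u ^ n) ((n : Kb) * A) := by
  rcases Int.eq_nat_or_neg n with ⟨k, rfl | rfl⟩
  · rw [zpow_natCast, Int.cast_natCast]
    exact kumRel_lcAt_pow hU hs hA h k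
  · have h1 := kumRel_lcAt_pow hU hs hA h k
    have h6 := hU.2.2.2.2.2 s (u ^ k) ((k : Kb) * A) hs (P.mul_mem _ _ (natCast_mem P k) hA) h1
    rw [zpow_neg, zpow_natCast, Int.cast_neg, Int.cast_natCast, neg_mul]
    exact h6

/-- Leading coefficients of finite products. -/
theorem kumRel_lcAt_prod (hU : U1aStatement P π1) {s : ℕ} (hs : 0 < s) {ι : Type*}
    (S : Finset ι) (U B : ι → Kb) (hB : ∀ j ∈ S, B j ∈ P)
    (h : ∀ j ∈ S, LcAt P π1 s (U j) (B j)) :
    LcAt P π1 s (∏ j ∈ S, U j) (∑ j ∈ S, B j) := by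
  classical
  induction S using Finset.induction_on with
  | empty =>
    rw [Finset.prod_empty, Finset.sum_empty]
    exact kumRel_lcAt_one P π1 s
  | insert j S hj ih =>
    rw [Finset.prod_insert hj, Finset.sum_insert hj]
    have hBS : ∑ i ∈ S, B i ∈ P := sum_mem fun i hi => hB i (Finset.mem_insert_of_mem hi)
    exact hU.2.2.2.2.1 s (U j) (∏ i ∈ S, U i) (B j) (∑ i ∈ S, B i) hs
      (hB j (Finset.mem_insert_self j S)) hBS (h j (Finset.mem_insert_self j S))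
      (ih (fun i hi => hB i (Finset.mem_insert_of_mem hi))
        (fun i hi => h i (Finset.mem_insert_of_mem hi)))

/-- `ζ ^ n = 1` (integer exponent) when `n ≡ 0` modulo `p`. -/
theorem kumRel_zpow_eq_one {ζ : Kb} (hζ : IsPrimitiveRoot ζ p) {n : ℤ}
    (hn : ((n : ℤ) : ZMod p) = 0) : ζ ^ n = 1 := by
  rw [ZMod.intCast_zmod_eq_zero_iff_dvd] at hn
  obtain ⟨k, rfl⟩ := hn
  rw [zpow_mul, zpow_natCast, hζ.pow_eq_one, one_zpow]

/-- A product of integer powers of `ζ`. -/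
theorem kumRel_prod_zpow {ζ : Kb} (hζ0 : ζ ≠ 0) {ι : Type*} (S : Finset ι) (f : ι → ℤ) :
    ∏ j ∈ S, ζ ^ (f j) = ζ ^ (∑ j ∈ S, f j) := by
  classical
  induction S using Finset.induction_on with
  | empty => rw [Finset.prod_empty, Finset.sum_empty, zpow_zero]
  | insert j S hj ih => rw [Finset.prod_insert hj, Finset.sum_insert hj, ih, zpow_add₀ hζ0]

/-- **KT-REL**. -/
theorem kumRel (hp : p.Prime) (hU1a : U1aStatement P π1)
    (hU3 : U3Statement p P π1 (stabI P π1)) (hU5 : U5Statement P π1)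
    (hConj : KumConjStatement p P π1) : KumRelStatement p P π1 := by
  classical
  intro ζ χ β a s hζ hχ hβ hNF r σ w n hσD hσζ hrel
  obtain ⟨hs0, hsp, hps, ha, hau, hlc⟩ := hNF
  have hfact : Fact p.Prime := ⟨hp⟩
  have hβ0 : β ≠ 0 := hβ.1
  -- the leading coefficients of the conjugates
  set A : Fin r → Kb := fun j => (σ j π1 / π1) ^ s * σ j a with hA
  have hσP : ∀ j, ∀ x ∈ P, σ j x ∈ P := fun j x hx => mem_of_decomp (hσD j) hx
  have hθP : ∀ j, σ j π1 / π1 ∈ P := by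
    intro j
    by_cases hπ0 : π1 = 0
    · rw [hπ0, div_zero]; exact P.zero_mem
    · rw [← P.valuation_le_one_iff, map_div₀, val_decomp (hσD j),
        div_self ((Valuation.ne_zero_iff _).2 hπ0)]
  have hAP : ∀ j, A j ∈ P := fun j =>
    P.mul_mem _ _ (pow_mem (hθP j) s) (hσP j a ha.1)
  have hlcj : ∀ j, LcAt P π1 s (σ j (β ^ p)) (A j) := fun j =>
    hU5 (σ j) (hσP j) s (β ^ p) a hlc
  have hlcz : ∀ j, LcAt P π1 s ((σ j (β ^ p)) ^ (n j)) ((n j : Kb) * A j) := fun j =>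
    kumRel_lcAt_zpow hU1a hs0 (hAP j) (hlcj j) (n j)
  have hprod := kumRel_lcAt_prod hU1a hs0 Finset.univ
    (fun j => (σ j (β ^ p)) ^ (n j)) (fun j => (n j : Kb) * A j)
    (fun j _ => P.mul_mem _ _ (intCast_mem P (n j)) (hAP j)) (fun j _ => hlcz j)
  -- the element `z`
  set z : Kb := ∏ j, (σ j β) ^ (n j) with hz
  have hzp : z ^ p = ∏ j, (σ j (β ^ p)) ^ (n j) := by
    rw [hz, ← Finset.prod_pow]
    refine Finset.prod_congr rfl fun j _ => ?_
    rw [map_pow, ← zpow_natCast ((σ j β) ^ n j) p, ← zpow_mul, mul_comm, zpow_mul, zpow_natCast]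
  have hzfix : FixedBy (stabI P π1) z := by
    intro g hg
    have hgj : ∀ j, g (σ j β) =
        ζ ^ (((w j : ZMod p) * χ ((σ j)⁻¹ * g * σ j)).val) * σ j β := fun j =>
      (hConj ζ χ β (σ j) (w j) hζ (hσD j) (hσζ j) hβ).2 g hg
    rw [hz, map_prod]
    have h1 : ∀ j, g ((σ j β) ^ (n j)) =
        (ζ ^ (((w j : ZMod p) * χ ((σ j)⁻¹ * g * σ j)).val : ℤ)) ^ (n j) * (σ j β) ^ (n j) := by
      intro j
      rw [map_zpow₀, hgj j, mul_zpow, zpow_natCast]
    rw [Finset.prod_congr rfl (fun j _ => h1 j), Finset.prod_mul_distrib]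
    have h2 : ∏ j, (ζ ^ (((w j : ZMod p) * χ ((σ j)⁻¹ * g * σ j)).val : ℤ)) ^ (n j) = 1 := by
      have hζ0 : ζ ≠ 0 := hζ.ne_zero hp.ne_zero
      have h3 : ∀ j, (ζ ^ (((w j : ZMod p) * χ ((σ j)⁻¹ * g * σ j)).val : ℤ)) ^ (n j) =
          ζ ^ ((((w j : ZMod p) * χ ((σ j)⁻¹ * g * σ j)).val : ℤ) * n j) := fun j => by
        rw [← zpow_mul]
      rw [Finset.prod_congr rfl (fun j _ => h3 j), kumRel_prod_zpow hζ0]
      apply kumRel_zpow_eq_one hζ
      rw [Int.cast_sum, ← hrel g hg]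
      refine Finset.sum_congr rfl fun j _ => ?_
      rw [Int.cast_mul, Int.cast_natCast, ZMod.natCast_zmod_val, zsmul_eq_mul, mul_comm]
    rw [h2, one_mul]
  -- level `s + 1`
  have hInU : InU P π1 s (z ^ p) := by
    rw [hzp]
    exact hU1a.2.2.1 s _ _
      (sum_mem fun j _ => P.mul_mem _ _ (intCast_mem P (n j)) (hAP j)) hprod
  have hInU1 := hU3.1 s z hps hsp hzfix hInU
  have hlc0 : LcAt P π1 s (z ^ p) 0 := (hU1a.2.2.2.1 s (z ^ p)).1 hInU1
  rw [← hzp] at hprod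
  have := hU1a.1 s (z ^ p) _ 0 hprod hlc0
  rwa [sub_zero] at this

end Fermat.Agent.FFL.FB
end MergeWrap_Lib_FFL_FB_KumRel

section MergeWrap_Lib_FFL_FB_KumUniq -- from Lib/FFL/FB/KumUniq.lean

set_option autoImplicit false
set_option linter.style.haveILetI false
set_option linter.unusedSectionVars false
set_option linter.unusedVariables false

namespace Fermat.Agent.FFL.FB

open Fermat.Agent.FFL Fermat.Agent.Cyclo Polynomial

open scoped Pointwise

local notation "Kb" => AlgebraicClosure ℚ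
local notation "GK" => (AlgebraicClosure ℚ ≃ₐ[ℚ] AlgebraicClosure ℚ)

variable {p : ℕ} {P : ValuationSubring Kb} {π1 : Kb}

/-- The inertia group is normal in the decomposition group. -/
theorem conj_mem_inertia_of_decomp {δ τ : GK} (hδ : δ ∈ P.decompositionSubgroup ℚ)
    (hτ : τ ∈ P.inertiaSubgroupIn ℚ) : δ * τ * δ⁻¹ ∈ P.inertiaSubgroupIn ℚ := by
  have h := Fermat.Agent.KFin.kf_conj_mem_inertiaSubgroupIn (K := ℚ) P δ τ hτ
  have hδP : δ • P = P := hδ
  rwa [hδP] at h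

theorem conj_mem_inertia_of_decomp' {δ τ : GK} (hδ : δ ∈ P.decompositionSubgroup ℚ)
    (hτ : τ ∈ P.inertiaSubgroupIn ℚ) : δ⁻¹ * τ * δ ∈ P.inertiaSubgroupIn ℚ := by
  have h := conj_mem_inertia_of_decomp (inv_mem hδ) hτ
  rwa [inv_inv] at h

/-- `N = stabI P π` is normal in the decomposition group, if `π ^ e` is fixed by it. -/
theorem TameSetting.stabI_conj_mem {e : ℕ} {π : Kb} (S : TameSetting p P e π)
    (hD : ∀ δ ∈ P.decompositionSubgroup ℚ, δ (π ^ e) = π ^ e) {δ τ : GK}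
    (hδ : δ ∈ P.decompositionSubgroup ℚ) (hτ : τ ∈ stabI P π) : δ⁻¹ * τ * δ ∈ stabI P π := by
  refine ⟨conj_mem_inertia_of_decomp' hδ hτ.1, ?_⟩
  have hξe : (δ π / π) ^ e = 1 := by
    rw [div_pow, ← map_pow, hD δ hδ, div_self (pow_ne_zero _ S.hπ0)]
  have hξfix : τ (δ π / π) = δ π / π := root_fixed_of_inertia S.hp S.hP S.he hξe hτ.1
  have hδπ : δ π = (δ π / π) * π := by rw [div_mul_cancel₀ _ S.hπ0]
  have h1 : τ (δ π) = δ π := by
    conv_lhs => rw [hδπ, map_mul, hξfix, hτ.2, ← hδπ]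
  rw [AlgEquiv.mul_apply, AlgEquiv.mul_apply, h1, ← AlgEquiv.mul_apply, inv_mul_cancel,
    AlgEquiv.one_apply]

/-- `N1 = stabI P π1` is normal in the decomposition group. -/
theorem stabI_conj_mem_of_isPi1 (hp : p.Prime) (hP : P.LiesOverPrime p) (hπ : IsPi1 p π1)
    {δ τ : GK} (hδ : δ ∈ P.decompositionSubgroup ℚ) (hτ : τ ∈ stabI P π1) :
    δ⁻¹ * τ * δ ∈ stabI P π1 := by
  refine (tameSetting_of_isPi1 hp hP hπ).stabI_conj_mem (fun δ _ => ?_) hδ hτ
  have hπ' : π1 ^ (p ^ 2 - 1) = -(p : Kb) := hπ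
  rw [hπ', map_neg, map_natCast]

theorem stabI_conj_mem_of_isPi1' (hp : p.Prime) (hP : P.LiesOverPrime p) (hπ : IsPi1 p π1)
    {δ τ : GK} (hδ : δ ∈ P.decompositionSubgroup ℚ) (hτ : τ ∈ stabI P π1) :
    δ * τ * δ⁻¹ ∈ stabI P π1 := by
  have h := stabI_conj_mem_of_isPi1 hp hP hπ (inv_mem hδ) hτ
  rwa [inv_inv] at h

/-- `ζ ^ ((w : ZMod p) * c).val = (ζ ^ w) ^ c.val` for a `p`-th root of unity. -/
theorem zeta_pow_val_mul {ζ : Kb} (hζ : ζ ^ p = 1) (w : ℕ) (c : ZMod p) :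
    ζ ^ ((w : ZMod p) * c).val = (ζ ^ w) ^ c.val := by
  rw [← pow_mul, ZMod.val_mul, ZMod.val_natCast, Nat.mod_mul_mod, ← pow_eq_pow_mod _ hζ]

/-- **KUM-CONJ**: for `σ` in the decomposition group with `σ ζ = ζ ^ w`, `σ β` is a Kummer
generator of `g ↦ w · χ(σ⁻¹ g σ)`. -/
theorem kumConj (hp : p.Prime) (hp2 : p ≠ 2) (hP : P.LiesOverPrime p) (hπ : IsPi1 p π1) :
    KumConjStatement p P π1 := by
  intro ζ χ β σ w hζ hσ hσζ hβ
  obtain ⟨hβ0, hβ⟩ := hβ
  refine ⟨fun h => hβ0 ((map_eq_zero_iff σ σ.injective).1 h), fun g hg => ?_⟩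
  have hconj : σ⁻¹ * g * σ ∈ stabI P π1 := stabI_conj_mem_of_isPi1 hp hP hπ hσ hg
  have h1 := hβ _ hconj
  have h2 : g (σ β) = σ ((σ⁻¹ * g * σ) β) := by
    rw [AlgEquiv.mul_apply, AlgEquiv.mul_apply, ← AlgEquiv.mul_apply σ σ⁻¹, mul_inv_cancel,
      AlgEquiv.one_apply]
  rw [h2, h1, map_mul, map_pow, hσζ]
  show (ζ ^ w) ^ (χ (σ⁻¹ * g * σ)).val * σ β =
    ζ ^ ((w : ZMod p) * χ (σ⁻¹ * g * σ)).val * σ β
  rw [zeta_pow_val_mul hζ.pow_eq_one]

/-- **KUM-UNIQUE**: if one generator of `χ` is in unit normal form of level `s`, no generator of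
`χ` has level `≥ s + 1`. -/
theorem kumUnique (hp : p.Prime) (hp2 : p ≠ 2) (hP : P.LiesOverPrime p) (hπ : IsPi1 p π1)
    (hU1a : U1aStatement P π1) (hU3 : U3Statement p P π1 (stabI P π1)) :
    KumUniqueStatement p P π1 := by
  intro ζ χ β β' a s hζ hβ hβ' hNF hInU
  obtain ⟨hβ0, hβ⟩ := hβ
  obtain ⟨hβ'0, hβ'⟩ := hβ'
  obtain ⟨hs0, hs, hps, haR, hau, hlc⟩ := hNF
  obtain ⟨h1, h2, h3, h4, h5, h6⟩ := hU1a
  obtain ⟨hU3a, -⟩ := hU3
  have hzfix : FixedBy (stabI P π1) (β / β') := by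
    intro g hg
    rw [map_div₀, hβ g hg, hβ' g hg]
    have hζ0 : ζ ^ (χ g).val ≠ 0 := pow_ne_zero _ (hζ.ne_zero hp.ne_zero)
    field_simp
  have hlc' : LcAt P π1 s (β' ^ p) 0 := (h4 s _).1 hInU
  have hlcinv : LcAt P π1 s (β' ^ p)⁻¹ (-0) := h6 s _ 0 hs0 P.zero_mem hlc'
  have hlcz : LcAt P π1 s (β ^ p * (β' ^ p)⁻¹) (a + -0) :=
    h5 s _ _ a (-0) hs0 haR.1 (by rw [neg_zero]; exact P.zero_mem) hlc hlcinv
  have hzp : (β / β') ^ p = β ^ p * (β' ^ p)⁻¹ := by rw [div_pow, div_eq_mul_inv]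
  rw [← hzp, neg_zero, add_zero] at hlcz
  have hInUz : InU P π1 s ((β / β') ^ p) := h3 s _ a haR.1 hlcz
  have hInUz' : InU P π1 (s + 1) ((β / β') ^ p) := hU3a s (β / β') hps hs hzfix hInUz
  have hlc0 : LcAt P π1 s ((β / β') ^ p) 0 := (h4 s _).1 hInUz'
  have hcon := h1 s _ a 0 hlcz hlc0
  rw [sub_zero] at hcon
  exact hau hcon

end Fermat.Agent.FFL.FB
end MergeWrap_Lib_FFL_FB_KumUniq

section MergeWrap_Lib_FFL_FB_Kummer -- from Lib/FFL/FB/Kummer.lean

set_option autoImplicit false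

namespace Fermat.Agent.FFL.FB

open Fermat.Agent.FFL

local notation "Kb" => AlgebraicClosure ℚ
local notation "GK" => (AlgebraicClosure ℚ ≃ₐ[ℚ] AlgebraicClosure ℚ)

/-- The multiplicative monoid of `Γ`-fixed elements. -/
def kumFixed (Γ : Subgroup GK) : Submonoid Kb where
  carrier := {x | FixedBy Γ x}
  mul_mem' := fun {x y} hx hy σ hσ => by rw [map_mul, hx σ hσ, hy σ hσ]
  one_mem' := fun σ _ => map_one σ

theorem mem_kumFixed {Γ : Subgroup GK} {x : Kb} : x ∈ kumFixed Γ ↔ FixedBy Γ x := Iff.rfl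

/-- Restriction of an automorphism to the `Γ`-fixed elements, as a monoid hom to `ℚ̄`. -/
noncomputable def kumRes (Γ : Subgroup GK) (σ : GK) : kumFixed Γ →* Kb where
  toFun := fun x => σ (x : Kb)
  map_one' := by simp
  map_mul' := fun x y => by simp

@[simp] theorem kumRes_apply (Γ : Subgroup GK) (σ : GK) (x : kumFixed Γ) :
    kumRes Γ σ x = σ (x : Kb) := rfl

theorem kum : KumStatement := by
  intro N Γ hΓN hnorm hfin hclosed χ hχ0 hχmul hχfix hχΓ
  classical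
  let _ : Fintype (N ⧸ Γ.subgroupOf N) := Subgroup.fintypeQuotientOfFiniteIndex
  -- representatives
  set rep : N ⧸ Γ.subgroupOf N → GK := fun q => ((Quotient.out q : N) : GK) with hrep
  have hrepN : ∀ q, rep q ∈ N := fun q => (Quotient.out q : N).2
  -- the distinct restrictions
  have hinj : Function.Injective (fun q : N ⧸ Γ.subgroupOf N => kumRes Γ (rep q)) := by
    intro q q' h
    have hx : ∀ x : Kb, FixedBy Γ x → ((rep q)⁻¹ * rep q') x = x := by
      intro x hx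
      have := DFunLike.congr_fun h ⟨x, hx⟩
      simp only [kumRes_apply] at this
      rw [AlgEquiv.mul_apply, ← this]
      exact (rep q).symm_apply_apply x
    have hmem : (rep q)⁻¹ * rep q' ∈ Γ :=
      hclosed _ (N.mul_mem (N.inv_mem (hrepN q)) (hrepN q')) hx
    have : (QuotientGroup.mk (Quotient.out q : N) : N ⧸ Γ.subgroupOf N) =
        QuotientGroup.mk (Quotient.out q' : N) := by
      rw [QuotientGroup.eq]
      exact hmem
    simpa using this
  have hli : LinearIndependent Kb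
      (fun q : N ⧸ Γ.subgroupOf N => (kumRes Γ (rep q) : kumFixed Γ → Kb)) :=
    (linearIndependent_monoidHom (kumFixed Γ) Kb).comp _ hinj
  -- a suitable `b`
  obtain ⟨b, hb⟩ : ∃ b : kumFixed Γ,
      ∑ q : N ⧸ Γ.subgroupOf N, (χ (rep q))⁻¹ * rep q (b : Kb) ≠ 0 := by
    by_contra hcon
    push Not at hcon
    have hzero : ∑ q : N ⧸ Γ.subgroupOf N,
        (χ (rep q))⁻¹ • (kumRes Γ (rep q) : kumFixed Γ → Kb) = 0 := by
      funext b
      simp only [Finset.sum_apply, Pi.smul_apply, smul_eq_mul, kumRes_apply, Pi.zero_apply]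
      exact hcon b
    have := Fintype.linearIndependent_iff.mp hli _ hzero
      (QuotientGroup.mk (1 : N) : N ⧸ Γ.subgroupOf N)
    exact inv_ne_zero (hχ0 _ (hrepN _)) this
  refine ⟨_, hb, ?_⟩
  -- equivariance
  have hequi : ∀ σ ∈ N, σ (∑ q : N ⧸ Γ.subgroupOf N, (χ (rep q))⁻¹ * rep q (b : Kb)) =
      χ σ * ∑ q : N ⧸ Γ.subgroupOf N, (χ (rep q))⁻¹ * rep q (b : Kb) := by
    intro σ hσ
    rw [map_sum, Finset.mul_sum]
    rw [← Equiv.sum_comp (MulAction.toPerm (⟨σ, hσ⟩ : N))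
      (fun q => χ σ * ((χ (rep q))⁻¹ * rep q (b : Kb)))]
    refine Finset.sum_congr rfl fun q _ => ?_
    -- `rep (σ • q) = σ * rep q * γ`
    have hq : (⟨σ, hσ⟩ : N) • q = QuotientGroup.mk ((⟨σ, hσ⟩ : N) * Quotient.out q) := by
      conv_lhs => rw [← QuotientGroup.out_eq' q]
      rfl
    obtain ⟨γ, hγ⟩ := QuotientGroup.mk_out_eq_mul (Γ.subgroupOf N)
      ((⟨σ, hσ⟩ : N) * Quotient.out q)
    have hγΓ : ((γ : N) : GK) ∈ Γ := Subgroup.mem_subgroupOf.mp γ.2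
    have hrep' : rep ((⟨σ, hσ⟩ : N) • q) = σ * rep q * ((γ : N) : GK) := by
      simp only [hrep]
      rw [hq, hγ]
      rfl
    simp only [MulAction.toPerm_apply]
    rw [hrep']
    have hχ1 : χ (σ * rep q * ((γ : N) : GK)) = χ σ * χ (rep q) := by
      rw [hχmul _ (N.mul_mem hσ (hrepN q)) _ (hΓN hγΓ), hχΓ _ hγΓ, mul_one,
        hχmul _ hσ _ (hrepN q)]
    have hb1 : (σ * rep q * ((γ : N) : GK)) (b : Kb) = σ (rep q (b : Kb)) := by
      rw [AlgEquiv.mul_apply, b.2 _ hγΓ, AlgEquiv.mul_apply]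
    rw [hχ1, hb1, map_mul, map_inv₀, hχfix _ (hrepN q) σ hσ]
    have h1 := hχ0 σ hσ
    have h2 := hχ0 _ (hrepN q)
    field_simp
  refine ⟨fun γ hγ => ?_, hequi⟩
  rw [hequi γ (hΓN hγ), hχΓ γ hγ, one_mul]

end Fermat.Agent.FFL.FB
end MergeWrap_Lib_FFL_FB_Kummer

section MergeWrap_S56_W4_Normal -- from S56/W4/Normal.lean

set_option autoImplicit false

namespace Fermat.Agent.S56.W4

open Fermat.Agent.F4 ExtCitation Fermat.Agent.S56.SO Fermat.Agent.FFL

/-- **(TP)** a flat tangent cocycle is, up to the coboundary of some `m ∈ ad⁰`, triangular on the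
decomposition group and `W0 w`-valued on inertia, with peu ramifié upper right entry. -/
theorem fl_tangent_normal_form {k : Type} [Field k] [Finite k] (p : ℕ) [Fact p.Prime]
    (hp2 : p ≠ 2) (hpk : (p : k) = 0) (ρbar : ResidualGaloisRep k)
    (P : ValuationSubring (AlgebraicClosure ℚ)) (hP : P.LiesOverPrime p)
    (w : Module.Basis (Fin 2) k ρbar.V) (hw : FlTri ρbar.ρ P w)
    (ζ : AlgebraicClosure ℚ) (hζ : IsPrimitiveRoot ζ p) (hpeu : PeuFlat p P)
    (c : GQ → ad0 ρbar) (ρ : GaloisRepAdic (DualNumber k)) (hdef : IsDefOf ρbar c ρ)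
    (hdet : ρ.DetIsCyclotomic p) (hfl : ρ.IsFlatAt p) :
    ∃ m : ad0 ρbar,
      (∀ σ ∈ P.decompositionSubgroup ℚ,
        IsTri w ((c σ + ((ad0 ρbar).ρ σ m - m) : ad0 ρbar) : ↥(ad0Sub ρbar)).1) ∧
      (∀ σ ∈ P.inertiaSubgroupIn ℚ,
        ((c σ + ((ad0 ρbar).ρ σ m - m) : ad0 ρbar) : ↥(ad0Sub ρbar)).1 ∈ W0 w) ∧
      IsPeu p P ζ
        (fun σ => mat w ((c σ + ((ad0 ρbar).ρ σ m - m) : ad0 ρbar) : ↥(ad0Sub ρbar)).1 0 1) := by
  obtain ⟨e, he⟩ := hdef
  obtain ⟨m, ℓ'', Λ₁, -, hgen, hΛ, h1, h2, hcyc, hg⟩ :=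
    tp_package p hp2 hpk ρbar P hP w hw c ρ e he hdet hfl
  refine ⟨m, h1, h2, ?_⟩
  refine tp_peu_apply p P ζ hζ.pow_eq_one hpeu ρbar w c ρ e he hfl ℓ'' hgen
    (fun y => Λ₁ y) (fun s => TrivSqZeroExt.snd s) (fun x y => map_add Λ₁ x y) hΛ ?_ ?_ _ ?_
  · intro s n
    show TrivSqZeroExt.snd (s * (n : DualNumber k)) = n • TrivSqZeroExt.snd s
    rw [DualNumber.snd_mul, TrivSqZeroExt.snd_natCast, TrivSqZeroExt.fst_natCast, mul_zero,
      zero_add, nsmul_eq_mul, mul_comm]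
  · intro σ hσ
    obtain ⟨a, ha⟩ := Fermat.Agent.S59.SOArith.exists_cycExp p σ 1
    exact ⟨a, ha ζ (by rw [pow_one]; exact hζ.pow_eq_one), hcyc σ hσ a ha⟩
  · intro σ hσ t ht
    exact (hg σ hσ t ht).1

/-- **(TP')** if `ρbar` has a flat deformation to `k[ε]`, its extension cocycle is peu ramifié. -/
theorem fl_resid_peu {k : Type} [Field k] [Finite k] (p : ℕ) [Fact p.Prime]
    (hp2 : p ≠ 2) (hpk : (p : k) = 0) (ρbar : ResidualGaloisRep k)
    (P : ValuationSubring (AlgebraicClosure ℚ)) (hP : P.LiesOverPrime p)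
    (w : Module.Basis (Fin 2) k ρbar.V) (hw : FlTri ρbar.ρ P w)
    (ζ : AlgebraicClosure ℚ) (hζ : IsPrimitiveRoot ζ p) (hpeu : PeuFlat p P)
    (c : GQ → ad0 ρbar) (ρ : GaloisRepAdic (DualNumber k)) (hdef : IsDefOf ρbar c ρ)
    (hdet : ρ.DetIsCyclotomic p) (hfl : ρ.IsFlatAt p) :
    IsPeu p P ζ (fun σ => mat w (ρbar.ρ σ) 0 1) := by
  obtain ⟨e, he⟩ := hdef
  obtain ⟨m, ℓ'', Λ₁, hℓ0, hgen, -, -, -, hcyc, hg⟩ :=
    tp_package p hp2 hpk ρbar P hP w hw c ρ e he hdet hfl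
  refine tp_peu_apply p P ζ hζ.pow_eq_one hpeu ρbar w c ρ e he hfl ℓ'' hgen
    (fun y => w.repr (redFst y) 0) (fun s => TrivSqZeroExt.fst s) ?_ ?_ ?_ ?_ _ ?_
  · intro x y
    show w.repr (redFst (x + y)) 0 = w.repr (redFst x) 0 + w.repr (redFst y) 0
    rw [map_add, map_add, Finsupp.add_apply]
  · intro s
    show w.repr (redFst (s • ℓ'')) 0 = TrivSqZeroExt.fst s
    rw [redFst_smul, hℓ0, map_smul, Finsupp.smul_apply, Fermat.Agent.S59.SO.repr_self_zero_zero,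
      smul_eq_mul, mul_one]
  · intro s n
    show TrivSqZeroExt.fst (s * (n : DualNumber k)) = n • TrivSqZeroExt.fst s
    rw [TrivSqZeroExt.fst_mul, TrivSqZeroExt.fst_natCast, nsmul_eq_mul, mul_comm]
  · intro σ hσ
    obtain ⟨a, ha⟩ := Fermat.Agent.S59.SOArith.exists_cycExp p σ 1
    exact ⟨a, ha ζ (by rw [pow_one]; exact hζ.pow_eq_one), hcyc σ hσ a ha⟩
  · intro σ hσ t ht
    exact (hg σ hσ t ht).2

end Fermat.Agent.S56.W4
end MergeWrap_S56_W4_Normal

section MergeWrap_S56_W4_Asm -- from S56/W4/Asm.lean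

set_option autoImplicit false

namespace Fermat.Agent.S56.W4

open Fermat.Agent.F4 ExtCitation Fermat.Agent.S56.SO Fermat.Agent.FFL IsLocalRing

/-- The statement of seat (A) (helper9, `twZ_card_le_unram`): for an unramified smooth character
`η ≠ 1`, there are at most `|k|²` cocycles of `k(ω η)`. -/
def CountAStatement (p : ℕ) [Fact p.Prime] (k : Type) [Field k] : Prop :=
  ∀ (ω : Gp p → k), IsCycLoc p ω → ∀ η : Gp p →* kˣ,
    (∃ U ∈ levelsAll.sets, U.comap (locp p) ≤ η.ker) →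
    (∀ τ ∈ locInertia (pPrime p), η τ = 1) → (∃ γ, η γ ≠ 1) →
    Finite (twZ p (fun γ => ω γ * (η γ : k))) ∧
      Nat.card (twZ p (fun γ => ω γ * (η γ : k))) ≤ Nat.card k ^ 2

section Wiring

variable {k : Type} [Field k] {p : ℕ} [Fact p.Prime] {ρbar : ResidualGaloisRep k}
  {w : Module.Basis (Fin 2) k ρbar.V}

theorem flTri_isTri (hw : FlTri ρbar.ρ (primeLocalPlace (pPrime p)) w) (γ : Gp p) :
    IsTri w (ρbar.ρ (locp p γ)) :=
  hw.dec _ (locp_mem_decomposition p γ)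

/-- The lower right entry of `ρbar` on the local group, as a character. -/
noncomputable def zChar (hw : FlTri ρbar.ρ (primeLocalPlace (pPrime p)) w) : Gp p →* kˣ where
  toFun γ := Units.mk0 (mat w (ρbar.ρ (locp p γ)) 1 1)
    (tri_diag_ne_zero (flTri_isTri hw γ) (ρ_mul_inv ρbar _)).2
  map_one' := by
    apply Units.ext
    show mat w (ρbar.ρ (locp p 1)) 1 1 = 1
    rw [map_one, map_one, mat_one, Matrix.one_apply_eq]
  map_mul' γ δ := by
    apply Units.ext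
    show mat w (ρbar.ρ (locp p (γ * δ))) 1 1 =
      mat w (ρbar.ρ (locp p γ)) 1 1 * mat w (ρbar.ρ (locp p δ)) 1 1
    rw [map_mul, map_mul, mat_mul, mul_apply_two, (isTri_iff w _).mp (flTri_isTri hw γ),
      zero_mul, zero_add]

theorem zChar_apply (hw : FlTri ρbar.ρ (primeLocalPlace (pPrime p)) w) (γ : Gp p) :
    ((zChar hw γ : kˣ) : k) = mat w (ρbar.ρ (locp p γ)) 1 1 := rfl

/-- The determinant of a triangular endomorphism. -/
theorem det_eq_of_isTri {V : Type} [AddCommGroup V] [Module k V] (w : Module.Basis (Fin 2) k V)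
    {g : Module.End k V} (hg : IsTri w g) : LinearMap.det g = mat w g 0 0 * mat w g 1 1 := by
  rw [← LinearMap.det_toMatrix w, Matrix.det_fin_two]
  have h := (isTri_iff w g).mp hg
  rw [mat] at h
  rw [h, mul_zero, sub_zero]

/-- `ψ = det · z⁻²`. -/
theorem omegaW_eq (hw : FlTri ρbar.ρ (primeLocalPlace (pPrime p)) w) (γ : Gp p) :
    omegaW p ρbar w γ =
      LinearMap.det (ρbar.ρ (locp p γ)) * (((zChar hw)⁻¹ ^ 2 : Gp p →* kˣ) γ : k) := by
  have hz : mat w (ρbar.ρ (locp p γ)) 1 1 ≠ 0 :=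
    (tri_diag_ne_zero (flTri_isTri hw γ) (ρ_mul_inv ρbar _)).2
  have e : (((zChar hw)⁻¹ ^ 2 : Gp p →* kˣ) γ : k) = (mat w (ρbar.ρ (locp p γ)) 1 1)⁻¹ ^ 2 := by
    rw [MonoidHom.pow_apply, MonoidHom.inv_apply, Units.val_pow_eq_pow_val, Units.val_inv_eq_inv_val,
      zChar_apply]
  rw [e, det_eq_of_isTri w (flTri_isTri hw γ), omegaW]
  field_simp

/-- The count for `ψ`: case (B) if `ψ` is the cyclotomic character, case (A) otherwise. -/
theorem card_twZpeu_omegaW_le [Finite k] (hp2 : p ≠ 2) (hpk : (p : k) = 0)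
    (hdet : (GaloisRepAdic.ofResidualGaloisRep ρbar).DetIsCyclotomic p)
    (hw : FlTri ρbar.ρ (primeLocalPlace (pPrime p)) w)
    (ζ : AlgebraicClosure ℚ) (hζ : IsPrimitiveRoot ζ p) (hA : CountAStatement p k) :
    Finite ↥(twZpeu p ζ hζ.pow_eq_one (omegaW p ρbar w)) ∧
      Nat.card ↥(twZpeu p ζ hζ.pow_eq_one (omegaW p ρbar w)) ≤ Nat.card k ^ 2 := by
  by_cases hcyc : IsCycLoc p (omegaW p ρbar w)
  · exact twZpeu_card_le p hp2 hpk (omegaW p ρbar w) hcyc ζ hζ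
  · -- case (A)
    have hω₀ : IsCycLoc p (fun γ : Gp p => LinearMap.det (ρbar.ρ (locp p γ))) :=
      fun γ a ha => Fermat.Agent.S56.arch_det_eq p ρbar hdet (locp p γ) a ha
    have hsm : ∃ U ∈ levelsAll.sets,
        U.comap (locp p) ≤ ((zChar hw)⁻¹ ^ 2 : Gp p →* kˣ).ker := by
      refine ⟨ρbar.ρ.ker, ker_mem_levelsAll ρbar, fun γ hγ => ?_⟩
      have h1 : ρbar.ρ (locp p γ) = 1 := MonoidHom.mem_ker.mp hγ
      have h2 : zChar hw γ = 1 := by
        apply Units.ext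
        rw [zChar_apply, h1, mat_one, Matrix.one_apply_eq, Units.val_one]
      rw [MonoidHom.mem_ker, MonoidHom.pow_apply, MonoidHom.inv_apply, h2, inv_one, one_pow]
    have hunr : ∀ τ ∈ locInertia (pPrime p), ((zChar hw)⁻¹ ^ 2 : Gp p →* kˣ) τ = 1 := by
      intro τ hτ
      have h2 : zChar hw τ = 1 := by
        apply Units.ext
        rw [zChar_apply, mat_apply, Units.val_one]
        exact hw.inert _ hτ
      rw [MonoidHom.pow_apply, MonoidHom.inv_apply, h2, inv_one, one_pow]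
    have hne : ∃ γ, ((zChar hw)⁻¹ ^ 2 : Gp p →* kˣ) γ ≠ 1 := by
      by_contra hall
      push Not at hall
      apply hcyc
      intro γ a ha
      rw [omegaW_eq hw γ, hall γ, Units.val_one, mul_one]
      exact hω₀ γ a ha
    obtain ⟨hfin, hcard⟩ := hA _ hω₀ _ hsm hunr hne
    have hfun : (fun γ : Gp p => LinearMap.det (ρbar.ρ (locp p γ)) *
        (((zChar hw)⁻¹ ^ 2 : Gp p →* kˣ) γ : k)) = omegaW p ρbar w :=
      funext fun γ => (omegaW_eq hw γ).symm
    rw [hfun] at hfin hcard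
    have hle : twZpeu p ζ hζ.pow_eq_one (omegaW p ρbar w) ≤ twZ p (omegaW p ρbar w) :=
      fun f hf => hf.1
    have hfin' : Finite ↥(twZpeu p ζ hζ.pow_eq_one (omegaW p ρbar w)) :=
      Finite.of_injective (AddSubgroup.inclusion hle) (AddSubgroup.inclusion_injective hle)
    exact ⟨hfin', (Nat.card_le_card_of_injective (AddSubgroup.inclusion hle)
      (AddSubgroup.inclusion_injective hle)).trans hcard⟩

end Wiring

/-- **W4, ordinary case**: if `ρbar` is ordinary at `P₀`, the flat tangent classes at `p` lie in a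
subgroup with at most `|k| · #H⁰(D_p, ad⁰ρbar)` elements. -/
theorem localWall_flat_ord {𝒪 : Type} [CommRing 𝒪] [IsLocalRing 𝒪] [Finite (ResidueField 𝒪)]
    (p : ℕ) [Fact p.Prime] (hp2 : p ≠ 2) (ρbar : ResidualGaloisRep (ResidueField 𝒪))
    (hdet : (GaloisRepAdic.ofResidualGaloisRep ρbar).DetIsCyclotomic p)
    (𝒟 : ∀ ⦃A : Type⦄ [CommRing A] [IsLocalRing A] [Algebra 𝒪 A], GaloisRepAdic A → Prop)
    (h𝒟 : ∀ ⦃A : Type⦄ [CommRing A] [IsLocalRing A] [Algebra 𝒪 A] (ρ : GaloisRepAdic A),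
      𝒟 ρ → ρ.DetIsCyclotomic p ∧ ρ.IsFlatAt p)
    (hA : CountAStatement p (ResidueField 𝒪))
    (w : Module.Basis (Fin 2) (ResidueField 𝒪) ρbar.V)
    (hw : FlTri ρbar.ρ (primeLocalPlace (pPrime p)) w) :
    LocalWall (ad0 ρbar) (TangentClasses 𝒪 ρbar 𝒟) (pPrime p)
      (Nat.card (ResidueField 𝒪)) := by
  classical
  have hp : p.Prime := Fact.out
  have hpk : (p : ResidueField 𝒪) = 0 := Fermat.Agent.S56.arch_p_eq_zero p ρbar hdet
  have hfinM : Finite (ad0 ρbar) :=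
    Module.finite_of_finite (ResidueField 𝒪) (M := ↥(ad0Sub ρbar))
  by_cases hT : (TangentClasses 𝒪 ρbar 𝒟).Nonempty
  · obtain ⟨x₀, c₀, -, ρ₀, hρ₀, hdef₀⟩ := hT
    have hP := SO.so_liesOver p
    have hpeu : PeuFlat p (primeLocalPlace (pPrime p)) := peuFlat hp hP
    have : NeZero p := ⟨hp.ne_zero⟩
    obtain ⟨ζ, hζ⟩ := HasEnoughRootsOfUnity.exists_primitiveRoot (AlgebraicClosure ℚ) p
    have h𝒟₀ := @h𝒟 _ _ _ (Fermat.Agent.S53.dualNumberAlgebra 𝒪) ρ₀ hρ₀.1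
    have hb : IsPeuLoc p ζ (fun γ => mat w (ρbar.ρ (locp p γ)) 0 1) :=
      isPeuLoc_of_isPeu (fl_resid_peu p hp2 hpk ρbar (primeLocalPlace (pPrime p)) hP w hw ζ hζ
        hpeu c₀.1 ρ₀ hdef₀ h𝒟₀.1 h𝒟₀.2)
    have hcount := card_twZpeu_omegaW_le hp2 hpk hdet hw ζ hζ hA
    obtain ⟨hfin, hcard⟩ := card_Lfl_le hp2 hpk hdet hw ζ hζ hb hcount
    refine ⟨Lfl p ρbar w ζ hζ.pow_eq_one, ?_, hfin, hcard⟩
    rintro x ⟨c, rfl, ρ, hρ, hdef⟩
    have h𝒟ρ := @h𝒟 _ _ _ (Fermat.Agent.S53.dualNumberAlgebra 𝒪) ρ hρ.1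
    obtain ⟨m, hm1, hm2, hm3⟩ := fl_tangent_normal_form p hp2 hpk ρbar
      (primeLocalPlace (pPrime p)) hP w hw ζ hζ hpeu c.1 ρ hdef h𝒟ρ.1 h𝒟ρ.2
    -- the restricted cocycle and its modification by the coboundary of `m`
    let cl : ↥(Z1 (locLevelsAll (pPrime p)) (SO.Mloc p ρbar)) :=
      Z1res levelsAll (ad0 ρbar) (primeLocalToGlobal (pPrime p)) c
    let dm : ↥(Z1 (locLevelsAll (pPrime p)) (SO.Mloc p ρbar)) :=
      ⟨δ0 (SO.Mloc p ρbar) m, groupCohomology.d₀₁_apply_mem_cocycles₁ _,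
        isLC₁_δ0 (SO.isSmooth_Mloc p ρbar) _⟩
    have hmem : cl + dm ∈ Zfl p ρbar w ζ hζ.pow_eq_one :=
      ⟨fun γ => hm1 _ (SO.locp_mem_decomposition p γ), fun γ hγ => hm2 _ hγ,
        isPeuLoc_of_isPeu hm3⟩
    have hdm : H1smπ (locLevelsAll (pPrime p)) (SO.Mloc p ρbar) dm = 0 := by
      rw [H1smπ, Submodule.mkQ_apply, Submodule.Quotient.mk_eq_zero, Submodule.mem_comap]
      exact ⟨m, rfl⟩
    have hres : resLoc (ad0 ρbar) (pPrime p) (H1smπ levelsAll (ad0 ρbar) c) =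
        H1smπ (locLevelsAll (pPrime p)) (SO.Mloc p ρbar) cl := rfl
    refine ⟨⟨cl + dm, hmem⟩, ?_⟩
    show H1smπ (locLevelsAll (pPrime p)) (SO.Mloc p ρbar) (cl + dm) = _
    rw [map_add, hdm, add_zero, hres]
  · refine ⟨⊥, fun x hx => (hT ⟨x, hx⟩).elim, inferInstance, ?_⟩
    rw [AddSubgroup.card_bot]
    exact Nat.one_le_iff_ne_zero.mpr (Nat.mul_ne_zero Nat.card_pos.ne' Nat.card_pos.ne')

end Fermat.Agent.S56.W4
end MergeWrap_S56_W4_Asm

section MergeWrap_S56_W4_C_Asm -- from S56/W4/C/Asm.lean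

set_option autoImplicit false

namespace Fermat.Agent.S56.SS

open Fermat.Agent.F4 ExtCitation Fermat.Agent.FFL Fermat.Agent.FlatMod IsLocalRing
open Fermat.Agent.S56.SO
open scoped TensorProduct

local notation "Kb" => AlgebraicClosure ℚ
local notation "GK" => (AlgebraicClosure ℚ ≃ₐ[ℚ] AlgebraicClosure ℚ)

variable {k : Type} [Field k]

/-- The additive equivalence `k[ε] ⊗ V ≃ V × V`, `u ↦ (u₀, u₁)` for `u = u₀ + ε u₁`. -/
noncomputable def redEquiv (V : Type) [AddCommGroup V] [Module k V] :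
    (DualNumber k ⊗[k] V) ≃+ V × V where
  toFun u := (redFst u, redSnd u)
  invFun x := (1 : DualNumber k) ⊗ₜ[k] x.1 +
    (DualNumber.eps : DualNumber k) • ((1 : DualNumber k) ⊗ₜ[k] x.2)
  left_inv u := (eq_redFst_add_redSnd u).symm
  right_inv x := by
    refine Prod.ext ?_ ?_
    · show redFst _ = x.1
      rw [map_add, redFst_eps_smul, redFst_one_tmul, add_zero]
    · show redSnd _ = x.2
      rw [map_add, redSnd_eps_smul, redSnd_one_tmul, redFst_one_tmul, zero_add]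
  map_add' u v := by
    refine Prod.ext ?_ ?_
    · show redFst (u + v) = redFst u + redFst v
      rw [map_add]
    · show redSnd (u + v) = redSnd u + redSnd v
      rw [map_add]

omit [Field k] in
theorem finite_dualNumber_ss [Finite k] : Finite (DualNumber k) :=
  Finite.of_injective (fun x : DualNumber k => (TrivSqZeroExt.fst x, TrivSqZeroExt.snd x))
    (fun _ _ h => TrivSqZeroExt.ext (congrArg Prod.fst h) (congrArg Prod.snd h))

/-- The module `V × V` of a flat tangent point is a flat Galois module. -/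
theorem defAct_flat [Finite k] (p : ℕ) (ρbar : ResidualGaloisRep k) (c : GQ → ad0 ρbar)
    (ρ : GaloisRepAdic (DualNumber k)) (hdef : IsDefOf ρbar c ρ) (hfl : ρ.IsFlatAt p) :
    IsFlatGaloisModule p (ρbar.V × ρbar.V)
      (defAct ρbar (fun σ => (c σ : ↥(ad0Sub ρbar)).1)) := by
  obtain ⟨e, he⟩ := hdef
  have : Finite (DualNumber k) := finite_dualNumber_ss
  have h1 := isFlatGaloisModule_of_isFlatAt ρ hfl
  refine h1.of_equiv (e.symm.toAddEquiv.trans (redEquiv ρbar.V)) ?_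
  intro σ x
  obtain ⟨u, rfl⟩ := e.surjective x
  have h2 : e.symm (ρ.ρ σ (e u)) = defEnd ρbar (c σ : ↥(ad0Sub ρbar)).1 σ u := by
    rw [he σ u, LinearEquiv.symm_apply_apply]
  show redEquiv ρbar.V (e.symm (ρ.ρ σ (e u))) = defAct ρbar _ σ (redEquiv ρbar.V (e.symm (e u)))
  rw [h2, LinearEquiv.symm_apply_apply]
  refine Prod.ext ?_ ?_
  · show redFst (defEnd ρbar _ σ u) = ρbar.ρ σ (redFst u)
    rw [redFst_defEnd]
  · show redSnd (defEnd ρbar _ σ u) = (c σ : ↥(ad0Sub ρbar)).1 (ρbar.ρ σ (redFst u)) +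
      ρbar.ρ σ (redSnd u)
    rw [redSnd_defEnd, add_comm]

/-- `ρbar` itself is flat when a flat tangent point exists. -/
theorem actOf_flat [Finite k] (p : ℕ) [Fact p.Prime] (ρbar : ResidualGaloisRep k)
    (c : GQ → ad0 ρbar) (ρ : GaloisRepAdic (DualNumber k)) (hdef : IsDefOf ρbar c ρ)
    (hfl : ρ.IsFlatAt p) : IsFlatGaloisModule p ρbar.V (actOf ρbar) :=
  (defAct_flat p ρbar c ρ hdef hfl).quot (AddMonoidHom.fst ρbar.V ρbar.V)
    (fun v => ⟨(v, 0), rfl⟩) (fun _ _ => rfl)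

/-- The cocycle identity of a level-constant cocycle of `ad⁰ρbar`, as endomorphisms. -/
theorem cocycle_end (ρbar : ResidualGaloisRep k) (c : ↥(Z1 levelsAll (ad0 ρbar))) (σ τ : GQ) :
    ((c : GQ → ad0 ρbar) (σ * τ) : ↥(ad0Sub ρbar)).1 =
      ((c : GQ → ad0 ρbar) σ : ↥(ad0Sub ρbar)).1 +
        ρbar.ρ σ * ((c : GQ → ad0 ρbar) τ : ↥(ad0Sub ρbar)).1 * ρbar.ρ σ⁻¹ := by
  have h1 := (groupCohomology.mem_cocycles₁_iff (c : GQ → ad0 ρbar)).mp c.2.1 σ τ
  have h2 : ((c : GQ → ad0 ρbar) (σ * τ) : ↥(ad0Sub ρbar)).1 =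
      (((ad0 ρbar).ρ σ ((c : GQ → ad0 ρbar) τ) + (c : GQ → ad0 ρbar) σ : ad0 ρbar) :
        ↥(ad0Sub ρbar)).1 := by rw [h1]
  rw [h2, add_comm, mul_assoc]
  rfl

/-- **W4, case C, from the interface statements.** -/
theorem localWall_flat_ss_of_props {𝒪 : Type} [CommRing 𝒪] [IsLocalRing 𝒪]
    [Finite (ResidueField 𝒪)]
    (p : ℕ) [Fact p.Prime] (hp2 : p ≠ 2)
    (hS : SStructProp p) (hH : HopfSideProp p) (hT : FieldTProp p) (hN : CountProp p)
    (ρbar : ResidualGaloisRep (ResidueField 𝒪))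
    (hdet : (GaloisRepAdic.ofResidualGaloisRep ρbar).DetIsCyclotomic p)
    (hsplit : ∀ σ : GK, ∃ α β : ResidueField 𝒪, LinearMap.charpoly (ρbar.ρ σ) =
      (Polynomial.X - Polynomial.C α) * (Polynomial.X - Polynomial.C β))
    (𝒟 : ∀ ⦃A : Type⦄ [CommRing A] [IsLocalRing A] [Algebra 𝒪 A], GaloisRepAdic A → Prop)
    (h𝒟 : ∀ ⦃A : Type⦄ [CommRing A] [IsLocalRing A] [Algebra 𝒪 A] (ρ : GaloisRepAdic A),
      𝒟 ρ → ρ.DetIsCyclotomic p ∧ ρ.IsFlatAt p)
    (hss : ∀ v : ρbar.V, v ∈ augI (Pp p) (actOf ρbar)) :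
    LocalWall (ad0 ρbar) (TangentClasses 𝒪 ρbar 𝒟) (pPrime p)
      (Nat.card (ResidueField 𝒪)) := by
  classical
  have hfinM : Finite (ad0 ρbar) :=
    Module.finite_of_finite (ResidueField 𝒪) (M := ↥(ad0Sub ρbar))
  by_cases hTn : (TangentClasses 𝒪 ρbar 𝒟).Nonempty
  · obtain ⟨x₀, c₀, -, ρ₀, hρ₀, hdef₀⟩ := hTn
    have hfl₀ := (@h𝒟 _ _ _ (Fermat.Agent.S53.dualNumberAlgebra 𝒪) ρ₀ hρ₀.1).2
    obtain ⟨s⟩ := hS (ResidueField 𝒪) ρbar hp2 hdet hsplit
      (actOf_flat p ρbar c₀.1 ρ₀ hdef₀ hfl₀) hss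
    obtain ⟨L, hL, hfin, hcard⟩ := hN (ResidueField 𝒪) ρbar s hp2 hdet
    refine ⟨L, ?_, hfin, hcard.trans (Nat.le_mul_of_pos_right _ Nat.card_pos)⟩
    rintro x ⟨c, rfl, ρ, hρ, hdef⟩
    have hfl := (@h𝒟 _ _ _ (Fermat.Agent.S53.dualNumberAlgebra 𝒪) ρ hρ.1).2
    obtain ⟨hch, hsh⟩ := hH (ResidueField 𝒪) ρbar s hp2
      (fun σ => ((c : GQ → ad0 ρbar) σ : ↥(ad0Sub ρbar)).1) (cocycle_end ρbar c)
      (defAct_flat p ρbar c.1 ρ hdef hfl)
    exact hL _ ⟨c, rfl, hT (ResidueField 𝒪) ρbar s hp2 hdet c hch hsh⟩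
  · refine ⟨⊥, fun x hx => (hTn ⟨x, hx⟩).elim, inferInstance, ?_⟩
    rw [AddSubgroup.card_bot]
    exact Nat.one_le_iff_ne_zero.mpr (Nat.mul_ne_zero Nat.card_pos.ne' Nat.card_pos.ne')

end Fermat.Agent.S56.SS
end MergeWrap_S56_W4_C_Asm

section MergeWrap_S56_W4_FlatAsm -- from S56/W4/FlatAsm.lean

set_option autoImplicit false

namespace Fermat.Agent.S56.W4

open Fermat.Agent.F4 ExtCitation IsLocalRing

/-- **W4 from the interface statements of the two cases.** -/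
theorem localWall_flat_of_props {𝒪 : Type} [CommRing 𝒪] [IsLocalRing 𝒪]
    [Finite (ResidueField 𝒪)]
    (p : ℕ) [Fact p.Prime] (hp2 : p ≠ 2)
    (hA : CountAStatement p (ResidueField 𝒪))
    (hS : SS.SStructProp p) (hH : SS.HopfSideProp p) (hT : SS.FieldTProp p)
    (hN : SS.CountProp p)
    (ρbar : ResidualGaloisRep (ResidueField 𝒪))
    (hdet : (GaloisRepAdic.ofResidualGaloisRep ρbar).DetIsCyclotomic p)
    (hsplit : ∀ σ : AlgebraicClosure ℚ ≃ₐ[ℚ] AlgebraicClosure ℚ,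
      ∃ α β : ResidueField 𝒪, LinearMap.charpoly (ρbar.ρ σ) =
        (Polynomial.X - Polynomial.C α) * (Polynomial.X - Polynomial.C β))
    (𝒟 : ∀ ⦃A : Type⦄ [CommRing A] [IsLocalRing A] [Algebra 𝒪 A], GaloisRepAdic A → Prop)
    (h𝒟 : ∀ ⦃A : Type⦄ [CommRing A] [IsLocalRing A] [Algebra 𝒪 A] (ρ : GaloisRepAdic A),
      𝒟 ρ → ρ.DetIsCyclotomic p ∧ ρ.IsFlatAt p) :
    LocalWall (ad0 ρbar) (TangentClasses 𝒪 ρbar 𝒟) (pPrime p)
      (Nat.card (ResidueField 𝒪)) := by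
  by_cases h : ∃ w : Module.Basis (Fin 2) (ResidueField 𝒪) ρbar.V,
      FlTri ρbar.ρ (primeLocalPlace (pPrime p)) w
  · obtain ⟨w, hw⟩ := h
    exact localWall_flat_ord p hp2 ρbar hdet 𝒟 h𝒟 hA w hw
  · exact SS.localWall_flat_ss_of_props p hp2 hS hH hT hN ρbar hdet hsplit 𝒟 h𝒟
      (coinv_eq_top_of_not_flTri p hp2 _ (SO.so_liesOver p) ρbar hdet h)

end Fermat.Agent.S56.W4
end MergeWrap_S56_W4_FlatAsm

section MergeWrap_S56_W4_FlatFinal -- from S56/W4/FlatFinal.lean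

set_option autoImplicit false

namespace Fermat.Agent.S56.W4

open Fermat.Agent.F4 ExtCitation IsLocalRing

/-- Seat (A), in the packaged form. -/
theorem countAStatement (p : ℕ) [Fact p.Prime] (hp2 : p ≠ 2) (k : Type) [Field k] [Finite k]
    (hpk : (p : k) = 0) : CountAStatement p k :=
  fun ω hω η hlev hunr hne =>
    Fermat.Agent.S56.W4A.twZ_card_le_unram p hp2 hpk ω hω η hlev hunr hne

/-- **W4 from the interface statements of case C.** -/
theorem localWall_flat_of_ss {𝒪 : Type} [CommRing 𝒪] [IsLocalRing 𝒪]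
    [Finite (ResidueField 𝒪)]
    (p : ℕ) [Fact p.Prime] (hp2 : p ≠ 2)
    (hS : SS.SStructProp p) (hH : SS.HopfSideProp p) (hT : SS.FieldTProp p)
    (hN : SS.CountProp p)
    (ρbar : ResidualGaloisRep (ResidueField 𝒪))
    (hdet : (GaloisRepAdic.ofResidualGaloisRep ρbar).DetIsCyclotomic p)
    (hsplit : ∀ σ : AlgebraicClosure ℚ ≃ₐ[ℚ] AlgebraicClosure ℚ,
      ∃ α β : ResidueField 𝒪, LinearMap.charpoly (ρbar.ρ σ) =
        (Polynomial.X - Polynomial.C α) * (Polynomial.X - Polynomial.C β))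
    (𝒟 : ∀ ⦃A : Type⦄ [CommRing A] [IsLocalRing A] [Algebra 𝒪 A], GaloisRepAdic A → Prop)
    (h𝒟 : ∀ ⦃A : Type⦄ [CommRing A] [IsLocalRing A] [Algebra 𝒪 A] (ρ : GaloisRepAdic A),
      𝒟 ρ → ρ.DetIsCyclotomic p ∧ ρ.IsFlatAt p) :
    LocalWall (ad0 ρbar) (TangentClasses 𝒪 ρbar 𝒟) (pPrime p)
      (Nat.card (ResidueField 𝒪)) :=
  localWall_flat_of_props p hp2
    (countAStatement p hp2 (ResidueField 𝒪) (Fermat.Agent.S56.arch_p_eq_zero p ρbar hdet))
    hS hH hT hN ρbar hdet hsplit 𝒟 h𝒟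

end Fermat.Agent.S56.W4
end MergeWrap_S56_W4_FlatFinal

section MergeWrap_S56_W4_C_KT_Coc -- from S56/W4/C/KT/Coc.lean

set_option autoImplicit false

namespace Fermat.Agent.S56.SS

open Fermat.Agent.F4 ExtCitation Fermat.Agent.FFL Fermat.Agent.FFL.FB

local notation "Kb" => AlgebraicClosure ℚ
local notation "GK" => (AlgebraicClosure ℚ ≃ₐ[ℚ] AlgebraicClosure ℚ)

/-- **KT-COC**. -/
theorem ktCocProp : KTCocProp := by
  intro k _ _ ρbar c
  have hone : (c : GQ → ad0 ρbar) 1 = 0 :=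
    groupCohomology.cocycles₁_map_one ⟨(c : GQ → ad0 ρbar), c.2.1⟩
  refine ⟨fun g h => ?_, ?_, fun g => ?_⟩
  · have h1 := (groupCohomology.mem_cocycles₁_iff (c : GQ → ad0 ρbar)).mp c.2.1 g h
    have h2 : ((c : GQ → ad0 ρbar) (g * h) : ↥(ad0Sub ρbar)).1 =
        (((ad0 ρbar).ρ g ((c : GQ → ad0 ρbar) h) + (c : GQ → ad0 ρbar) g : ad0 ρbar) :
          ↥(ad0Sub ρbar)).1 := by rw [h1]
    rw [h2, add_comm, mul_assoc]
    rfl
  · obtain ⟨U, ⟨F, hF, -, rfl⟩, hU⟩ := c.2.2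
    refine ⟨F, hF, fun h hh => ?_⟩
    have h3 := hU 1 h hh
    rw [one_mul, hone] at h3
    rw [h3]
    rfl
  · exact ((c : GQ → ad0 ρbar) g : ↥(ad0Sub ρbar)).2

end Fermat.Agent.S56.SS
end MergeWrap_S56_W4_C_KT_Coc

section MergeWrap_S56_W4_C_KT_AsmAux -- from S56/W4/C/KT/AsmAux.lean

set_option autoImplicit false

namespace Fermat.Agent.S56.SS

open Fermat.Agent.F4 ExtCitation Fermat.Agent.FFL Fermat.Agent.FFL.FB

local notation "Kb" => AlgebraicClosure ℚ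
local notation "GK" => (AlgebraicClosure ℚ ≃ₐ[ℚ] AlgebraicClosure ℚ)

variable {p : ℕ} [Fact p.Prime] {k : Type} [Field k] {ρbar : ResidualGaloisRep k}

/-- The diagonal coefficients of `ρbar σ`, `σ` in inertia. -/
def dco (s : SSStruct p ρbar) (σ : GK) (i : Fin 2) : k :=
  if i = 0 then s.ψ σ else (s.ψ σ) ^ p

theorem dco_zero (s : SSStruct p ρbar) (σ : GK) : dco s σ 0 = s.ψ σ := rfl

theorem dco_one (s : SSStruct p ρbar) (σ : GK) : dco s σ 1 = (s.ψ σ) ^ p := rfl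

theorem rho_b (s : SSStruct p ρbar) {σ : GK} (hσ : σ ∈ Ip p) (i : Fin 2) :
    ρbar.ρ σ (s.b i) = dco s σ i • s.b i := by
  fin_cases i
  · exact s.diag0 σ hσ
  · exact s.diag1 σ hσ

theorem psi_ne_zero (s : SSStruct p ρbar) {σ : GK} (hσ : σ ∈ Ip p) : s.ψ σ ≠ 0 := by
  obtain ⟨n, hn⟩ := s.gen σ hσ
  rw [hn]
  exact pow_ne_zero n s.ne_zero

theorem dco_ne_zero (s : SSStruct p ρbar) {σ : GK} (hσ : σ ∈ Ip p) (i : Fin 2) :
    dco s σ i ≠ 0 := by
  fin_cases i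
  · exact psi_ne_zero s hσ
  · exact pow_ne_zero p (psi_ne_zero s hσ)

theorem rho_eq_one_of_mem_I1 (s : SSStruct p ρbar) {g : GK} (hg : g ∈ I1 s) :
    ρbar.ρ g = 1 := by
  apply s.b.ext
  intro i
  rw [rho_b s hg.1 i, Module.End.one_apply]
  have h1 : s.ψ g = 1 := hg.2
  fin_cases i
  · show dco s g 0 • s.b 0 = s.b 0
    rw [dco_zero, h1, one_smul]
  · show dco s g 1 • s.b 1 = s.b 1
    rw [dco_one, h1, one_pow, one_smul]

theorem repr_rho (s : SSStruct p ρbar) {σ : GK} (hσ : σ ∈ Ip p) (v : ρbar.V) (i : Fin 2) :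
    s.b.repr (ρbar.ρ σ v) i = dco s σ i * s.b.repr v i := by
  have h1 : (s.b.coord i).comp (ρbar.ρ σ) = dco s σ i • s.b.coord i := by
    apply s.b.ext
    intro j
    rw [LinearMap.comp_apply, rho_b s hσ j, map_smul, LinearMap.smul_apply, smul_eq_mul,
      smul_eq_mul, Module.Basis.coord_apply, Module.Basis.repr_self, Finsupp.single_apply]
    split_ifs with h
    · rw [h]
    · rw [mul_zero, mul_zero]
  have h2 := LinearMap.congr_fun h1 v
  rw [LinearMap.comp_apply, LinearMap.smul_apply, smul_eq_mul, Module.Basis.coord_apply,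
    Module.Basis.coord_apply] at h2
  exact h2

theorem rho_inv_apply (σ : GK) (v : ρbar.V) : ρbar.ρ σ (ρbar.ρ σ⁻¹ v) = v := by
  rw [← Module.End.mul_apply, ← map_mul, mul_inv_cancel, map_one, Module.End.one_apply]

theorem rho_inv_apply' (σ : GK) (v : ρbar.V) : ρbar.ρ σ⁻¹ (ρbar.ρ σ v) = v := by
  rw [← Module.End.mul_apply, ← map_mul, inv_mul_cancel, map_one, Module.End.one_apply]

theorem repr_rho_inv (s : SSStruct p ρbar) {σ : GK} (hσ : σ ∈ Ip p) (v : ρbar.V) (i : Fin 2) :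
    s.b.repr (ρbar.ρ σ⁻¹ v) i = (dco s σ i)⁻¹ * s.b.repr v i := by
  have h1 := repr_rho s hσ (ρbar.ρ σ⁻¹ v) i
  rw [rho_inv_apply] at h1
  rw [h1, ← mul_assoc, inv_mul_cancel₀ (dco_ne_zero s hσ i), one_mul]

/-- Entries of a conjugate by an element of inertia. -/
theorem ent_conj_inertia (s : SSStruct p ρbar) (M : Module.End k ρbar.V) {σ : GK}
    (hσ : σ ∈ Ip p) (i j : Fin 2) :
    s.b.repr ((ρbar.ρ σ⁻¹ * M * ρbar.ρ σ) (s.b j)) i =
      dco s σ j * (dco s σ i)⁻¹ * s.b.repr (M (s.b j)) i := by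
  rw [Module.End.mul_apply, Module.End.mul_apply, rho_b s hσ j, map_smul, map_smul, map_smul,
    Finsupp.smul_apply, smul_eq_mul, repr_rho_inv s hσ, mul_assoc]

/-- The conjugation formula for a cocycle at an element acting trivially. -/
theorem conj_formula (C : GK → Module.End k ρbar.V)
    (hcoc : ∀ g h : GK, C (g * h) = C g + ρbar.ρ g * C h * ρbar.ρ g⁻¹)
    {g : GK} (hg : ρbar.ρ g = 1) (σ : GK) :
    C (σ⁻¹ * g * σ) = ρbar.ρ σ⁻¹ * C g * ρbar.ρ σ := by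
  have hginv : ρbar.ρ g⁻¹ = 1 := by
    have h := map_mul ρbar.ρ g⁻¹ g
    rw [inv_mul_cancel, map_one, hg, mul_one] at h
    exact h.symm
  have h0 := hcoc σ⁻¹ σ
  rw [inv_mul_cancel, inv_inv] at h0
  have hC1 : C 1 = 0 := by
    have h := hcoc 1 1
    rw [mul_one, inv_one, map_one, one_mul, mul_one] at h
    exact left_eq_add.mp h
  rw [hC1] at h0
  have h1 := hcoc (σ⁻¹ * g) σ
  have h2 := hcoc σ⁻¹ g
  rw [inv_inv] at h2
  rw [h1, h2, mul_inv_rev, inv_inv, map_mul, map_mul, hg, hginv, mul_one, one_mul]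
  have h3 : C σ⁻¹ + ρbar.ρ σ⁻¹ * C g * ρbar.ρ σ + ρbar.ρ σ⁻¹ * C σ * ρbar.ρ σ =
      ρbar.ρ σ⁻¹ * C g * ρbar.ρ σ + (C σ⁻¹ + ρbar.ρ σ⁻¹ * C σ * ρbar.ρ σ) := by abel
  rw [h3, ← h0, add_zero]

/-- A cocycle is additive on elements acting trivially. -/
theorem coc_add (C : GK → Module.End k ρbar.V)
    (hcoc : ∀ g h : GK, C (g * h) = C g + ρbar.ρ g * C h * ρbar.ρ g⁻¹)
    {g : GK} (hg : ρbar.ρ g = 1) (h : GK) : C (g * h) = C g + C h := by
  have hginv : ρbar.ρ g⁻¹ = 1 := by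
    have h := map_mul ρbar.ρ g⁻¹ g
    rw [inv_mul_cancel, map_one, hg, mul_one] at h
    exact h.symm
  rw [hcoc, hg, hginv, one_mul, mul_one]

/-- The trace in the basis of `s`. -/
theorem trace_eq_ent (s : SSStruct p ρbar) (M : Module.End k ρbar.V) :
    LinearMap.trace k ρbar.V M = s.b.repr (M (s.b 0)) 0 + s.b.repr (M (s.b 1)) 1 := by
  rw [LinearMap.trace_eq_matrix_trace k s.b M, Matrix.trace_fin_two, LinearMap.toMatrix_apply,
    LinearMap.toMatrix_apply]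

/-- Entries of a conjugate by an anti-diagonal automorphism. -/
theorem ent_conj_swap (s : SSStruct p ρbar) (M : Module.End k ρbar.V) (φ : GK) (x y : k)
    (h0 : ρbar.ρ φ (s.b 0) = x • s.b 1) (h1 : ρbar.ρ φ (s.b 1) = y • s.b 0) :
    s.b.repr ((ρbar.ρ φ⁻¹ * M * ρbar.ρ φ) (s.b 0)) 0 = s.b.repr (M (s.b 1)) 1 ∧
    s.b.repr ((ρbar.ρ φ⁻¹ * M * ρbar.ρ φ) (s.b 1)) 1 = s.b.repr (M (s.b 0)) 0 := by
  have hx : x ≠ 0 := by
    intro hx
    rw [hx, zero_smul] at h0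
    have h := rho_inv_apply' (ρbar := ρbar) φ (s.b 0)
    rw [h0, map_zero] at h
    exact s.b.ne_zero 0 h.symm
  have hy : y ≠ 0 := by
    intro hy
    rw [hy, zero_smul] at h1
    have h := rho_inv_apply' (ρbar := ρbar) φ (s.b 1)
    rw [h1, map_zero] at h
    exact s.b.ne_zero 1 h.symm
  have hi1 : ρbar.ρ φ⁻¹ (s.b 1) = x⁻¹ • s.b 0 := by
    have h := rho_inv_apply' (ρbar := ρbar) φ (s.b 0)
    rw [h0, map_smul] at h
    rw [← h, smul_smul, inv_mul_cancel₀ hx, one_smul]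
  have hi0 : ρbar.ρ φ⁻¹ (s.b 0) = y⁻¹ • s.b 1 := by
    have h := rho_inv_apply' (ρbar := ρbar) φ (s.b 1)
    rw [h1, map_smul] at h
    rw [← h, smul_smul, inv_mul_cancel₀ hy, one_smul]
  have hrep : ∀ v : ρbar.V, s.b.repr (ρbar.ρ φ⁻¹ v) 0 = x⁻¹ * s.b.repr v 1 ∧
      s.b.repr (ρbar.ρ φ⁻¹ v) 1 = y⁻¹ * s.b.repr v 0 := by
    intro v
    have hv : v = s.b.repr v 0 • s.b 0 + s.b.repr v 1 • s.b 1 := by
      conv_lhs => rw [← s.b.sum_repr v, Fin.sum_univ_two]
    have h2 : ρbar.ρ φ⁻¹ v = (s.b.repr v 0 * y⁻¹) • s.b 1 + (s.b.repr v 1 * x⁻¹) • s.b 0 := by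
      conv_lhs => rw [hv]
      rw [map_add, map_smul, map_smul, hi0, hi1, smul_smul, smul_smul]
    rw [h2]
    constructor
    · rw [map_add, map_smul, map_smul, Finsupp.add_apply, Finsupp.smul_apply,
        Finsupp.smul_apply, Module.Basis.repr_self, Module.Basis.repr_self,
        Finsupp.single_apply, Finsupp.single_apply]
      simp [mul_comm]
    · rw [map_add, map_smul, map_smul, Finsupp.add_apply, Finsupp.smul_apply,
        Finsupp.smul_apply, Module.Basis.repr_self, Module.Basis.repr_self,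
        Finsupp.single_apply, Finsupp.single_apply]
      simp [mul_comm]
  constructor
  · rw [Module.End.mul_apply, Module.End.mul_apply, h0, map_smul, map_smul, map_smul,
      Finsupp.smul_apply, smul_eq_mul, (hrep _).1, ← mul_assoc, mul_inv_cancel₀ hx, one_mul]
  · rw [Module.End.mul_apply, Module.End.mul_apply, h1, map_smul, map_smul, map_smul,
      Finsupp.smul_apply, smul_eq_mul, (hrep _).2, ← mul_assoc, mul_inv_cancel₀ hy, one_mul]

/-- The determinant of `ρbar σ`, `σ` in inertia. -/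
theorem det_rho_inertia (s : SSStruct p ρbar) {σ : GK} (hσ : σ ∈ Ip p) :
    LinearMap.det (ρbar.ρ σ) = (s.ψ σ) ^ (p + 1) := by
  rw [← LinearMap.det_toMatrix s.b, Matrix.det_fin_two, LinearMap.toMatrix_apply,
    LinearMap.toMatrix_apply, LinearMap.toMatrix_apply, LinearMap.toMatrix_apply,
    rho_b s hσ 0, rho_b s hσ 1, map_smul, map_smul, Finsupp.smul_apply, Finsupp.smul_apply,
    Finsupp.smul_apply, Finsupp.smul_apply, Module.Basis.repr_self, Module.Basis.repr_self,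
    dco_zero, dco_one]
  simp [pow_succ, mul_comm]

/-- An element of a field of characteristic `p` fixed by Frobenius is an integer. -/
theorem exists_int_of_pow_eq (hpk : (p : k) = 0) (x : k) (hx : x ^ p = x) :
    ∃ t : ℤ, (t : k) = x := by
  have hp : p.Prime := Fact.out
  have : CharP k p := (CharP.charP_iff_prime_eq_zero hp).mpr hpk
  have h1 : x ∈ (⊥ : Subfield k) := (Subfield.mem_bot_iff_pow_eq_self k p).mpr hx
  rw [← ZMod.fieldRange_castHom_eq_bot p] at h1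
  obtain ⟨r, hr⟩ := h1
  refine ⟨(r.val : ℤ), ?_⟩
  rw [← hr]
  simp

end Fermat.Agent.S56.SS
end MergeWrap_S56_W4_C_KT_AsmAux

section MergeWrap_S56_W4_C_KT_AsmChar -- from S56/W4/C/KT/AsmChar.lean

set_option autoImplicit false

namespace Fermat.Agent.S56.SS

open Fermat.Agent.F4 ExtCitation Fermat.Agent.FFL Fermat.Agent.FFL.FB

local notation "Kb" => AlgebraicClosure ℚ
local notation "GK" => (AlgebraicClosure ℚ ≃ₐ[ℚ] AlgebraicClosure ℚ)

variable {p : ℕ} [Fact p.Prime] {k : Type} [Field k] {ρbar : ResidualGaloisRep k}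

/-- The character `l ∘ c_ij`. -/
noncomputable def chiOf (s : SSStruct p ρbar) (C : GK → Module.End k ρbar.V) (i j : Fin 2)
    (l : k →+ ZMod p) : GK → ZMod p :=
  fun g => l (ent s C i j g)

theorem chiOf_apply (s : SSStruct p ρbar) (C : GK → Module.End k ρbar.V) (i j : Fin 2)
    (l : k →+ ZMod p) (g : GK) : chiOf s C i j l g = l (s.b.repr (C g (s.b j)) i) := rfl

theorem l_natCast_mul (l : k →+ ZMod p) (w : ℕ) (z : k) :
    l ((w : k) * z) = (w : ZMod p) * l z := by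
  rw [← nsmul_eq_mul, map_nsmul, nsmul_eq_mul]

theorem l_intCast_mul (l : k →+ ZMod p) (t : ℤ) (z : k) :
    l ((t : k) * z) = t • l z := by
  rw [← zsmul_eq_mul, map_zsmul]

/-- Elements of inertia acting trivially on `ρbar` are in `I₁`. -/
theorem mem_I1_of_rho_eq_one (s : SSStruct p ρbar) {g : GK} (hg : g ∈ Ip p)
    (h : ρbar.ρ g = 1) : g ∈ I1 s := by
  refine ⟨hg, ?_⟩
  have h1 := s.diag0 g hg
  rw [h, Module.End.one_apply] at h1
  have h2 : (s.ψ g - 1) • s.b 0 = 0 := by rw [sub_smul, one_smul, ← h1, sub_self]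
  rcases smul_eq_zero.mp h2 with h3 | h3
  · exact sub_eq_zero.mp h3
  · exact absurd h3 (s.b.ne_zero 0)

/-- `I₁` is normalised by inertia. -/
theorem conj_mem_I1 (s : SSStruct p ρbar) {g σ : GK} (hg : g ∈ I1 s) (hσ : σ ∈ Ip p) :
    σ⁻¹ * g * σ ∈ I1 s := by
  apply mem_I1_of_rho_eq_one s
  · exact mul_mem (mul_mem (inv_mem hσ) hg.1) hσ
  · rw [map_mul, map_mul, rho_eq_one_of_mem_I1 s hg, mul_one, ← map_mul, inv_mul_cancel,
      map_one]

section Coc

variable (s : SSStruct p ρbar) (C : GK → Module.End k ρbar.V)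
  (hcoc : ∀ g h : GK, C (g * h) = C g + ρbar.ρ g * C h * ρbar.ρ g⁻¹)

include hcoc

theorem ent_mul_of_mem (i j : Fin 2) {g : GK} (hg : g ∈ I1 s) (h : GK) :
    ent s C i j (g * h) = ent s C i j g + ent s C i j h := by
  unfold ent
  rw [coc_add C hcoc (rho_eq_one_of_mem_I1 s hg) h, LinearMap.add_apply, map_add,
    Finsupp.add_apply]

theorem ent_conj (i j : Fin 2) {g σ : GK} (hg : g ∈ I1 s) (hσ : σ ∈ Ip p) :
    ent s C i j (σ⁻¹ * g * σ) = dco s σ j * (dco s σ i)⁻¹ * ent s C i j g := by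
  unfold ent
  rw [conj_formula C hcoc (rho_eq_one_of_mem_I1 s hg) σ, ent_conj_inertia s (C g) hσ i j]

theorem ent_conj_frob (htr : ∀ g : GK, LinearMap.trace k ρbar.V (C g) = 0) (i : Fin 2)
    {g : GK} (hg : g ∈ I1 s) (φ : GK) (x y : k)
    (h0 : ρbar.ρ φ (s.b 0) = x • s.b 1) (h1 : ρbar.ρ φ (s.b 1) = y • s.b 0) :
    ent s C i i (φ⁻¹ * g * φ) = -ent s C i i g := by
  unfold ent
  rw [conj_formula C hcoc (rho_eq_one_of_mem_I1 s hg) φ]
  have h2 := ent_conj_swap s (C g) φ x y h0 h1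
  have h3 := htr g
  rw [trace_eq_ent s (C g)] at h3
  fin_cases i
  · show s.b.repr ((ρbar.ρ φ⁻¹ * C g * ρbar.ρ φ) (s.b 0)) 0 = -s.b.repr (C g (s.b 0)) 0
    rw [h2.1]
    exact eq_neg_of_add_eq_zero_right h3
  · show s.b.repr ((ρbar.ρ φ⁻¹ * C g * ρbar.ρ φ) (s.b 1)) 1 = -s.b.repr (C g (s.b 1)) 1
    rw [h2.2]
    exact eq_neg_of_add_eq_zero_left h3

end Coc

section Bridge

variable (s : SSStruct p ρbar) (C : GK → Module.End k ρbar.V)
  (hcoc : ∀ g h : GK, C (g * h) = C g + ρbar.ρ g * C h * ρbar.ρ g⁻¹)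
  (π1 : Kb) (hI1 : ∀ σ : GK, σ ∈ I1 s ↔ σ ∈ stabI (Pp p) π1)

include hcoc hI1

theorem isCharOn_chiOf (i j : Fin 2) (l : k →+ ZMod p) :
    IsCharOn p (stabI (Pp p) π1) (chiOf s C i j l) := by
  intro g hg h _
  unfold chiOf
  rw [ent_mul_of_mem s C hcoc i j ((hI1 g).mpr hg) h, map_add]

omit hcoc hI1 in
theorem isSmoothChar_chiOf
    (hsm : ∃ F : IntermediateField ℚ Kb, FiniteDimensional ℚ F ∧
      ∀ h ∈ F.fixingSubgroup, C h = 0) (i j : Fin 2) (l : k →+ ZMod p) :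
    IsSmoothChar p (chiOf s C i j l) := by
  obtain ⟨F, hF, hC⟩ := hsm
  refine ⟨F, hF, fun h hh => ?_⟩
  unfold chiOf ent
  rw [hC h hh, LinearMap.zero_apply, map_zero, Finsupp.zero_apply, map_zero]

omit hcoc in
/-- CHEAP in the form of `KTDefs`. -/
theorem cheapAt_chiOf (hch : CheapProp s C) (i j : Fin 2) (l : k →+ ZMod p) :
    CheapAt p (Pp p) π1 (chiOf s C i j l) := by
  have hp : p.Prime := Fact.out
  have : NeZero p := ⟨hp.ne_zero⟩
  intro g hg hχ
  have hgI : g ∈ I1 s := (hI1 g).mpr hg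
  have hsurj : Function.Surjective l := by
    intro z
    refine ⟨(z * (l (ent s C i j g))⁻¹).val • ent s C i j g, ?_⟩
    rw [map_nsmul, nsmul_eq_mul, ZMod.natCast_zmod_val, mul_assoc,
      inv_mul_cancel₀ (show l (ent s C i j g) ≠ 0 from hχ), mul_one]
  have hidx : (AddMonoidHom.ker l).index = p := by
    rw [AddSubgroup.index_ker, AddMonoidHom.range_eq_top.mpr hsurj,
      Nat.card_congr (AddSubgroup.topEquiv (G := ZMod p)).toEquiv, Nat.card_zmod]
  obtain ⟨x, hxP, hxfix, hx⟩ := hch i j (AddMonoidHom.ker l) hidx g hgI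
    (fun h => hχ ((AddMonoidHom.mem_ker).mp h))
  exact ⟨x, hxP, fun h hh hχh => hxfix h ((hI1 h).mpr hh) ((AddMonoidHom.mem_ker).mpr hχh),
    hx.1, hx.2⟩

end Bridge

end Fermat.Agent.S56.SS
end MergeWrap_S56_W4_C_KT_AsmChar

section MergeWrap_S56_W4_C_KT_AsmSharp -- from S56/W4/C/KT/AsmSharp.lean

set_option autoImplicit false

namespace Fermat.Agent.S56.SS

open Fermat.Agent.F4 ExtCitation Fermat.Agent.FFL Fermat.Agent.FFL.FB

local notation "Kb" => AlgebraicClosure ℚ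
local notation "GK" => (AlgebraicClosure ℚ ≃ₐ[ℚ] AlgebraicClosure ℚ)

variable {p : ℕ} [Fact p.Prime] {k : Type} [Field k]

/-- Trace and norm of `α ∈ 𝔽_{p²}` are integers. -/
theorem alpha_quad (hpk : (p : k) = 0) (α : k) (hα2 : α ^ (p ^ 2) = α) :
    ∃ t n : ℤ, (t : k) = α + α ^ p ∧ (n : k) = α ^ (p + 1) := by
  have hp : p.Prime := Fact.out
  have : CharP k p := (CharP.charP_iff_prime_eq_zero hp).mpr hpk
  have h2 : (α ^ p) ^ p = α := by rw [← pow_mul, ← sq, hα2]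
  obtain ⟨t, ht⟩ := exists_int_of_pow_eq hpk (α + α ^ p) (by
    rw [add_pow_char, h2, add_comm])
  obtain ⟨n, hn⟩ := exists_int_of_pow_eq hpk (α ^ (p + 1)) (by
    rw [pow_succ, mul_pow, h2, mul_comm])
  exact ⟨t, n, ht, hn⟩

/-- The map `x ↦ (l x, l (α x))`. -/
noncomputable def pairHom (α : k) (l : k →+ ZMod p) : k →+ ZMod p × ZMod p :=
  l.prod (l.comp (AddMonoidHom.mulLeft α))

theorem pairHom_apply (α : k) (l : k →+ ZMod p) (x : k) :
    pairHom α l x = (l x, l (α * x)) := rfl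

theorem l_alpha_sq (α : k) (l : k →+ ZMod p) (t n : ℤ) (ht : (t : k) = α + α ^ p)
    (hn : (n : k) = α ^ (p + 1)) (x : k) :
    l (α * (α * x)) = (t : ZMod p) * l (α * x) - (n : ZMod p) * l x := by
  have h1 : α * (α * x) = (t : k) * (α * x) - (n : k) * x := by
    rw [ht, hn, pow_succ]
    ring
  rw [h1, map_sub, l_intCast_mul, l_intCast_mul, zsmul_eq_mul, zsmul_eq_mul]

/-- `X² - t X + n` has no root in `𝔽_p`. -/
theorem quad_no_root (hpk : (p : k) = 0) (α : k) (hα : α ^ p ≠ α) (hα2 : α ^ (p ^ 2) = α)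
    (t n : ℤ) (ht : (t : k) = α + α ^ p) (hn : (n : k) = α ^ (p + 1)) (r : ZMod p) :
    r * r - (t : ZMod p) * r + (n : ZMod p) ≠ 0 := by
  have hp : p.Prime := Fact.out
  have : CharP k p := (CharP.charP_iff_prime_eq_zero hp).mpr hpk
  intro hr0
  have hy : ((ZMod.castHom (dvd_refl p) k) r) ^ p = (ZMod.castHom (dvd_refl p) k) r := by
    rw [← map_pow, ZMod.pow_card]
  have h3 := congrArg (ZMod.castHom (dvd_refl p) k) hr0
  rw [map_add, map_sub, map_mul, map_mul, map_zero, map_intCast, map_intCast] at h3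
  generalize (ZMod.castHom (dvd_refl p) k) r = y at h3 hy
  have h4 : (y - α) * (y - α ^ p) = 0 := by
    rw [ht, hn, pow_succ] at h3
    rw [← h3]
    ring
  rcases mul_eq_zero.mp h4 with h7 | h7
  · rw [sub_eq_zero] at h7
    rw [h7] at hy
    exact hα hy
  · rw [sub_eq_zero] at h7
    rw [h7, ← pow_mul, ← sq, hα2] at hy
    exact hα hy.symm

theorem pair_solve (a b T M u v : ZMod p) (ha : a ≠ 0)
    (hroot : ∀ r : ZMod p, r * r - T * r + M ≠ 0) :
    ∃ c d : ZMod p, c * a + d * b = u ∧ c * b + d * (T * b - M * a) = v := by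
  have hD : a * (T * b - M * a) - b * b ≠ 0 := by
    intro hD
    apply hroot (b * a⁻¹)
    have h1 : a * a * (b * a⁻¹ * (b * a⁻¹) - T * (b * a⁻¹) + M) =
        -(a * (T * b - M * a) - b * b) := by
      field_simp
      ring
    rw [hD, neg_zero] at h1
    rcases mul_eq_zero.mp h1 with h2 | h2
    · exact absurd (mul_self_eq_zero.mp h2) ha
    · exact h2
  refine ⟨(u * (T * b - M * a) - v * b) / (a * (T * b - M * a) - b * b),
    (a * v - b * u) / (a * (T * b - M * a) - b * b), ?_, ?_⟩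
  · rw [div_mul_eq_mul_div, div_mul_eq_mul_div, ← add_div, div_eq_iff hD]
    ring
  · rw [div_mul_eq_mul_div, div_mul_eq_mul_div, ← add_div, div_eq_iff hD]
    ring

theorem pairHom_surjective (hpk : (p : k) = 0) (α : k) (hα : α ^ p ≠ α)
    (hα2 : α ^ (p ^ 2) = α) (l : k →+ ZMod p) (x₀ : k) (hx₀ : l x₀ ≠ 0) :
    Function.Surjective (pairHom α l) := by
  have hp : p.Prime := Fact.out
  have : NeZero p := ⟨hp.ne_zero⟩
  obtain ⟨t, n, ht, hn⟩ := alpha_quad hpk α hα2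
  have hsq : l (α * (α * x₀)) = (t : ZMod p) * l (α * x₀) - (n : ZMod p) * l x₀ :=
    l_alpha_sq α l t n ht hn x₀
  rintro ⟨u, v⟩
  obtain ⟨c, d, h1, h2⟩ := pair_solve (l x₀) (l (α * x₀)) (t : ZMod p) (n : ZMod p) u v hx₀
    (quad_no_root hpk α hα hα2 t n ht hn)
  refine ⟨c.val • x₀ + d.val • (α * x₀), ?_⟩
  rw [pairHom_apply]
  refine Prod.ext ?_ ?_
  · show l (c.val • x₀ + d.val • (α * x₀)) = u
    rw [map_add, map_nsmul, map_nsmul, nsmul_eq_mul, nsmul_eq_mul, ZMod.natCast_zmod_val,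
      ZMod.natCast_zmod_val, h1]
  · show l (α * (c.val • x₀ + d.val • (α * x₀))) = v
    rw [mul_add, mul_smul_comm, mul_smul_comm, map_add, map_nsmul, map_nsmul, nsmul_eq_mul,
      nsmul_eq_mul, ZMod.natCast_zmod_val, ZMod.natCast_zmod_val, hsq, h2]

theorem index_ker_pairHom (hpk : (p : k) = 0) (α : k) (hα : α ^ p ≠ α)
    (hα2 : α ^ (p ^ 2) = α) (l : k →+ ZMod p) (x₀ : k) (hx₀ : l x₀ ≠ 0) :
    (AddMonoidHom.ker (pairHom α l)).index = p ^ 2 := by
  rw [AddSubgroup.index_ker,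
    AddMonoidHom.range_eq_top.mpr (pairHom_surjective hpk α hα hα2 l x₀ hx₀),
    Nat.card_congr (AddSubgroup.topEquiv (G := ZMod p × ZMod p)).toEquiv, Nat.card_prod,
    Nat.card_zmod, sq]

theorem alpha_mul_mem_ker (hpk : (p : k) = 0) (α : k) (hα2 : α ^ (p ^ 2) = α)
    (l : k →+ ZMod p) {z : k} (hz : z ∈ AddMonoidHom.ker (pairHom α l)) :
    α * z ∈ AddMonoidHom.ker (pairHom α l) := by
  obtain ⟨t, n, ht, hn⟩ := alpha_quad hpk α hα2
  rw [AddMonoidHom.mem_ker, pairHom_apply, Prod.mk_eq_zero] at hz ⊢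
  refine ⟨hz.2, ?_⟩
  rw [l_alpha_sq α l t n ht hn z, hz.1, hz.2, mul_zero, mul_zero, sub_zero]

theorem pow_mul_mem_ker (hpk : (p : k) = 0) (α : k) (hα2 : α ^ (p ^ 2) = α)
    (l : k →+ ZMod p) (m : ℕ) {z : k} (hz : z ∈ AddMonoidHom.ker (pairHom α l)) :
    α ^ m * z ∈ AddMonoidHom.ker (pairHom α l) := by
  induction m with
  | zero => rwa [pow_zero, one_mul]
  | succ m ih =>
    rw [pow_succ', mul_assoc]
    exact alpha_mul_mem_ker hpk α hα2 l ih

variable {ρbar : ResidualGaloisRep k}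

/-- `ψ τ` is not in `𝔽_p`. -/
theorem psi_tau_not_fp (s : SSStruct p ρbar) : (s.ψ s.τ) ^ p ≠ s.ψ s.τ := by
  have hp : p.Prime := Fact.out
  intro h
  have h1 : (s.ψ s.τ) ^ (p - 1) = 1 := by
    have h2 : (s.ψ s.τ) ^ (p - 1) * s.ψ s.τ = 1 * s.ψ s.τ := by
      rw [← pow_succ, Nat.sub_add_cancel hp.one_le, h, one_mul]
    exact mul_right_cancel₀ s.ne_zero h2
  have h3 := s.ord (p - 1) (Nat.sub_pos_of_lt hp.one_lt) h1
  have h4 : p ^ 2 = p * p := sq p
  have h5 : 2 ≤ p := hp.two_le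
  have h6 : p * p ≥ 2 * p := Nat.mul_le_mul_right p h5
  omega

/-- SHARP in the form of `KTDefs`, for a generating character of a diagonal entry. -/
theorem sharpAt_chiOf (s : SSStruct p ρbar) (C : GK → Module.End k ρbar.V)
    (hpk : (p : k) = 0) (π1 : Kb) (hI1 : ∀ σ : GK, σ ∈ I1 s ↔ σ ∈ stabI (Pp p) π1)
    (hsh : SharpProp s C) (i : Fin 2) (l₁ : k →+ ZMod p)
    (hgen : ∀ l : k →+ ZMod p, ∃ n : ℤ, ∀ g ∈ stabI (Pp p) π1,
      chiOf s C i i l g = n • chiOf s C i i l₁ g) :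
    SharpAt p (Pp p) π1 (chiOf s C i i l₁) := by
  intro g hg hχ
  have hgI : g ∈ I1 s := (hI1 g).mpr hg
  have hα2 : (s.ψ s.τ) ^ (p ^ 2) = s.ψ s.τ := s.fp2 s.τ s.τ_mem
  have hidx := index_ker_pairHom hpk (s.ψ s.τ) (psi_tau_not_fp s) hα2 l₁
    (ent s C i i g) hχ
  have hstab : ∀ σ ∈ Ip p, ∀ z ∈ AddMonoidHom.ker (pairHom (s.ψ s.τ) l₁),
      s.ψ σ * z ∈ AddMonoidHom.ker (pairHom (s.ψ s.τ) l₁) := by
    intro σ hσ z hz
    obtain ⟨m, hm⟩ := s.gen σ hσ
    rw [hm]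
    exact pow_mul_mem_ker hpk _ hα2 l₁ m hz
  have hnot : ent s C i i g ∉ AddMonoidHom.ker (pairHom (s.ψ s.τ) l₁) := by
    intro h
    rw [AddMonoidHom.mem_ker, pairHom_apply, Prod.mk_eq_zero] at h
    exact hχ h.1
  obtain ⟨x, hxP, hxfix, hx⟩ := hsh i (AddMonoidHom.ker (pairHom (s.ψ s.τ) l₁)) hidx hstab
    g hgI hnot
  refine ⟨x, hxP, fun h hh hχh => hxfix h ((hI1 h).mpr hh) ?_, hx.1, ?_⟩
  · rw [AddMonoidHom.mem_ker, pairHom_apply, Prod.mk_eq_zero]
    refine ⟨hχh, ?_⟩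
    obtain ⟨n, hn⟩ := hgen (l₁.comp (AddMonoidHom.mulLeft (s.ψ s.τ)))
    have h1 := hn h hh
    rw [hχh, smul_zero] at h1
    exact h1
  · have h2 := hx.2
    rw [pow_one] at h2
    exact h2

end Fermat.Agent.S56.SS
end MergeWrap_S56_W4_C_KT_AsmSharp

section MergeWrap_S56_W4_C_KT_Asm -- from S56/W4/C/KT/Asm.lean

set_option autoImplicit false

namespace Fermat.Agent.S56.SS

open Fermat.Agent.F4 ExtCitation Fermat.Agent.FFL Fermat.Agent.FFL.FB

local notation "Kb" => AlgebraicClosure ℚ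
local notation "GK" => (AlgebraicClosure ℚ ≃ₐ[ℚ] AlgebraicClosure ℚ)

variable {p : ℕ} [Fact p.Prime] {k : Type} [Field k] {ρbar : ResidualGaloisRep k}

/-- The cyclotomic exponent of `τ` and the determinant. -/
theorem exists_cyc_tau (s : SSStruct p ρbar)
    (hdet : (GaloisRepAdic.ofResidualGaloisRep ρbar).DetIsCyclotomic p) :
    ∃ w : ℕ, s.τ (zetaP p) = zetaP p ^ w ∧ (w : k) = (s.ψ s.τ) ^ (p + 1) := by
  obtain ⟨w, hw⟩ := Fermat.Agent.S59.SOArith.exists_cycExp p s.τ 1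
  have hw' : ∀ μ : Kb, μ ^ p = 1 → s.τ μ = μ ^ w := fun μ hμ => hw μ (by rwa [pow_one])
  refine ⟨w, hw' _ (zetaP_spec p).pow_eq_one, ?_⟩
  rw [← Fermat.Agent.S56.arch_det_eq p ρbar hdet s.τ w hw', det_rho_inertia s s.τ_mem]

/-- A vanishing character is good. -/
theorem goodChar_of_vanish (s : SSStruct p ρbar) (χ : GK → ZMod p)
    (h : ∀ γ ∈ I1 s, χ γ = 0) : GoodChar s χ := by
  have hp : p.Prime := Fact.out
  refine ⟨1, one_ne_zero, fun γ hγ => ?_, ?_⟩
  · rw [h γ hγ, ZMod.val_zero, pow_zero, map_one, one_mul]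
  · unfold ValGE
    rw [sub_self, zero_pow (Nat.mul_ne_zero hp.ne_zero (by
      have := hp.two_le
      have h4 : p ^ 2 = p * p := sq p
      have h6 : p * p ≥ 2 * p := Nat.mul_le_mul_right p this
      omega)), zero_div]
    exact zero_mem _

/-- The quadratic relation for the off-diagonal entries. -/
theorem offdiag_quad (s : SSStruct p ρbar) (w : ℕ) (hw : (w : k) = (s.ψ s.τ) ^ (p + 1))
    (t n : ℤ) (ht : (t : k) = (s.ψ s.τ) ^ 2 + (s.ψ s.τ) ^ (p * 2))
    (hn : (n : k) = (s.ψ s.τ) ^ (2 * (p + 1))) (i j : Fin 2) (hij : i ≠ j) :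
    ((w : k) * (dco s s.τ j * (dco s s.τ i)⁻¹)) * ((w : k) * (dco s s.τ j * (dco s s.τ i)⁻¹))
      - (t : k) * ((w : k) * (dco s s.τ j * (dco s s.τ i)⁻¹)) + (n : k) = 0 := by
  have hα : s.ψ s.τ ≠ 0 := s.ne_zero
  have hαp : (s.ψ s.τ) ^ p ≠ 0 := pow_ne_zero p hα
  rw [hw, ht, hn]
  fin_cases i <;> fin_cases j
  · exact absurd rfl hij
  · show (s.ψ s.τ ^ (p + 1) * (dco s s.τ 1 * (dco s s.τ 0)⁻¹)) *
        (s.ψ s.τ ^ (p + 1) * (dco s s.τ 1 * (dco s s.τ 0)⁻¹)) -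
      (s.ψ s.τ ^ 2 + s.ψ s.τ ^ (p * 2)) * (s.ψ s.τ ^ (p + 1) * (dco s s.τ 1 * (dco s s.τ 0)⁻¹))
      + s.ψ s.τ ^ (2 * (p + 1)) = 0
    rw [dco_zero, dco_one]
    have h1 : s.ψ s.τ ^ (p + 1) * (s.ψ s.τ ^ p * (s.ψ s.τ)⁻¹) = s.ψ s.τ ^ (p * 2) := by
      rw [eq_comm, ← mul_assoc, eq_mul_inv_iff_mul_eq₀ hα]
      ring
    rw [h1]
    ring
  · show (s.ψ s.τ ^ (p + 1) * (dco s s.τ 0 * (dco s s.τ 1)⁻¹)) *
        (s.ψ s.τ ^ (p + 1) * (dco s s.τ 0 * (dco s s.τ 1)⁻¹)) -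
      (s.ψ s.τ ^ 2 + s.ψ s.τ ^ (p * 2)) * (s.ψ s.τ ^ (p + 1) * (dco s s.τ 0 * (dco s s.τ 1)⁻¹))
      + s.ψ s.τ ^ (2 * (p + 1)) = 0
    rw [dco_zero, dco_one]
    have h1 : s.ψ s.τ ^ (p + 1) * (s.ψ s.τ * (s.ψ s.τ ^ p)⁻¹) = s.ψ s.τ ^ 2 := by
      rw [eq_comm, ← mul_assoc, eq_mul_inv_iff_mul_eq₀ hαp]
      ring
    rw [h1]
    ring
  · exact absurd rfl hij

/-- Integers `t, n` for the off-diagonal quadratic relation. -/
theorem exists_tn_two (s : SSStruct p ρbar) (hpk : (p : k) = 0) :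
    ∃ t n : ℤ, (t : k) = (s.ψ s.τ) ^ 2 + (s.ψ s.τ) ^ (p * 2) ∧
      (n : k) = (s.ψ s.τ) ^ (2 * (p + 1)) := by
  have hα2 : (s.ψ s.τ) ^ (p ^ 2) = s.ψ s.τ := s.fp2 s.τ s.τ_mem
  have h2 : ((s.ψ s.τ) ^ 2) ^ (p ^ 2) = (s.ψ s.τ) ^ 2 := by
    rw [← pow_mul, mul_comm, pow_mul, hα2]
  obtain ⟨t, n, ht, hn⟩ := alpha_quad hpk ((s.ψ s.τ) ^ 2) h2
  refine ⟨t, n, ?_, ?_⟩
  · rw [ht, ← pow_mul, mul_comm 2 p]
  · rw [hn, ← pow_mul]

variable (p)

/-- **KT-ASM**: the field side, from the leaves. -/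
theorem fieldTProp_of (hB : KTBridgeProp p) (hF : KTFrobProp p)
    (hE : ∀ π1 : Kb, IsPi1 p π1 → EStatement p (Pp p) π1)
    (hEta : ∀ π1 : Kb, IsPi1 p π1 → EtaStatement p (Pp p) π1) : FieldTProp p := by
  intro k _ _ ρbar s hp2 hdet c hch hsh i j l
  have hpk : (p : k) = 0 := Fermat.Agent.S56.arch_p_eq_zero p ρbar hdet
  obtain ⟨π1, hπ, hI1, hτ, hsym⟩ := hB k ρbar s hp2 hpk
  obtain ⟨hcoc, hsm, htr⟩ := ktCocProp k ρbar c
  set C : GK → Module.End k ρbar.V :=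
    fun σ => ((c : GQ → ad0 ρbar) σ : ↥(ad0Sub ρbar)).1 with hC
  obtain ⟨w, hwζ, hwk⟩ := exists_cyc_tau s hdet
  by_cases hij : i = j
  · -- diagonal entries: the characters vanish on `I₁`
    subst hij
    obtain ⟨φ, hφD, hφfrob, x, y, hφ0, hφ1⟩ := hF k ρbar s hp2 hpk
    apply goodChar_of_vanish
    intro γ hγ
    have hX := hEta π1 hπ (zetaP p) {χ | ∃ l' : k →+ ZMod p, χ = chiOf s C i i l'} s.τ φ
      (zetaP_spec p)
      (by
        rintro χ ⟨l', rfl⟩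
        exact ⟨isCharOn_chiOf s C hcoc π1 hI1 i i l', isSmoothChar_chiOf s C hsm i i l'⟩)
      (by
        rintro χ ⟨l', rfl⟩ χ' ⟨l'', rfl⟩ n
        refine ⟨l'' - n • l', ?_⟩
        funext g
        show chiOf s C i i l'' g - n • chiOf s C i i l' g = (l'' - n • l') (ent s C i i g)
        rw [AddMonoidHom.sub_apply, AddMonoidHom.smul_apply]
        rfl)
      hτ
      (by
        rintro χ ⟨l', rfl⟩ g hg
        show l' (ent s C i i (s.τ⁻¹ * g * s.τ)) = l' (ent s C i i g)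
        rw [ent_conj s C hcoc i i ((hI1 g).mpr hg) s.τ_mem,
          mul_inv_cancel₀ (dco_ne_zero s s.τ_mem i), one_mul])
      hφD (fun a ha => hφfrob a ha.1)
      (by
        rintro χ ⟨l', rfl⟩ g hg
        show l' (ent s C i i (φ⁻¹ * g * φ)) = -l' (ent s C i i g)
        rw [ent_conj_frob s C hcoc htr i ((hI1 g).mpr hg) φ x y hφ0 hφ1, map_neg])
      (by
        rintro χ ⟨l', rfl⟩
        exact cheapAt_chiOf s C π1 hI1 hch i i l')
      (by
        rintro χ₁ ⟨l₁, rfl⟩ hgen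
        exact sharpAt_chiOf s C hpk π1 hI1 hsh i l₁ (fun l' => hgen _ ⟨l', rfl⟩))
    exact hX (chiOf s C i i l) ⟨l, rfl⟩ γ ((hI1 γ).mp hγ)
  · -- off-diagonal entries
    obtain ⟨t, n, ht, hn⟩ := exists_tn_two s hpk
    obtain ⟨ht', hn'⟩ := hsym 2 t n ht hn
    have hquad := offdiag_quad s w hwk t n ht hn i j hij
    set κ : k := dco s s.τ j * (dco s s.τ i)⁻¹ with hκ
    obtain ⟨β, hβ, hβv⟩ := hE π1 hπ (zetaP p) (chiOf s C i j l) s.τ w t n (zetaP_spec p)
      (isCharOn_chiOf s C hcoc π1 hI1 i j l) (isSmoothChar_chiOf s C hsm i j l) hτ hwζ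
      (by
        intro g hg
        have hgI : g ∈ I1 s := (hI1 g).mpr hg
        have hgI' : s.τ⁻¹ * g * s.τ ∈ I1 s := conj_mem_I1 s hgI s.τ_mem
        have e1 : chiOf s C i j l (s.τ⁻¹ * g * s.τ) = l (κ * ent s C i j g) := by
          show l (ent s C i j (s.τ⁻¹ * g * s.τ)) = _
          rw [ent_conj s C hcoc i j hgI s.τ_mem]
        have e2 : chiOf s C i j l (s.τ⁻¹ * (s.τ⁻¹ * g * s.τ) * s.τ) =
            l (κ * (κ * ent s C i j g)) := by
          show l (ent s C i j (s.τ⁻¹ * (s.τ⁻¹ * g * s.τ) * s.τ)) = _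
          rw [ent_conj s C hcoc i j hgI' s.τ_mem, ent_conj s C hcoc i j hgI s.τ_mem]
        have h3 : (w : k) * ((w : k) * (κ * (κ * ent s C i j g))) -
            (t : k) * ((w : k) * (κ * ent s C i j g)) + (n : k) * ent s C i j g =
            (((w : k) * κ) * ((w : k) * κ) - (t : k) * ((w : k) * κ) + (n : k)) *
              ent s C i j g := by ring
        have key : (w : ZMod p) * ((w : ZMod p) * l (κ * (κ * ent s C i j g))) -
            t • ((w : ZMod p) * l (κ * ent s C i j g)) + n • l (ent s C i j g) = 0 := by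
          rw [← l_natCast_mul, ← l_natCast_mul, ← l_natCast_mul, ← l_intCast_mul,
            ← l_intCast_mul, ← map_sub, ← map_add, h3, hquad, zero_mul, map_zero]
        rw [e1, e2]
        exact key)
      (by
        rw [mul_comm 2 p]
        exact ht')
      (by
        have h4 : 2 * p + 2 = 2 * (p + 1) := by ring
        rw [h4]
        exact hn')
      (cheapAt_chiOf s C π1 hI1 hch i j l)
    exact ⟨β, hβ.1, fun γ hγ => hβ.2 γ ((hI1 γ).mp hγ), hβv⟩

end Fermat.Agent.S56.SS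
end MergeWrap_S56_W4_C_KT_Asm

section MergeWrap_S56_W4_C_KT_Frob -- from S56/W4/C/KT/Frob.lean

set_option autoImplicit false
set_option linter.style.haveILetI false

namespace Fermat.Agent.S56.SS

open Fermat.Agent.F4 ExtCitation Fermat.Agent.FFL Fermat.Agent.FFL.FB Module

local notation "Kb" => AlgebraicClosure ℚ
local notation "GK" => (AlgebraicClosure ℚ ≃ₐ[ℚ] AlgebraicClosure ℚ)

section Core

variable {k V : Type} [Field k] [AddCommGroup V] [Module k V]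

/-- Powers of an endomorphism on an eigenvector. -/
theorem ktf_pow_eigen (g : Module.End k V) {v : V} {α : k} (h : g v = α • v) (n : ℕ) :
    (g ^ n) v = α ^ n • v := by
  induction n with
  | zero => simp
  | succ n ih =>
    rw [pow_succ, Module.End.mul_apply, h, map_smul, ih, smul_smul, pow_succ, mul_comm]

/-- An endomorphism of a plane with an eigenbasis `b₀, b₁` of eigenvalues `μ₀, μ₁`: an
eigenvector of eigenvalue `μ₁ ≠ μ₀` is on the line of `b₁`. -/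
theorem ktf_eigen_line1 (b : Basis (Fin 2) k V) (G : Module.End k V) {μ₀ μ₁ : k}
    (h0 : G (b 0) = μ₀ • b 0) (h1 : G (b 1) = μ₁ • b 1) (hne : μ₀ ≠ μ₁) {v : V}
    (hv : G v = μ₁ • v) : ∃ x : k, v = x • b 1 := by
  refine ⟨b.repr v 1, ?_⟩
  have hsum : v = b.repr v 0 • b 0 + b.repr v 1 • b 1 := by
    conv_lhs => rw [← b.sum_repr v]
    rw [Fin.sum_univ_two]
  have hG : G v = (b.repr v 0 * μ₀) • b 0 + (b.repr v 1 * μ₁) • b 1 := by
    conv_lhs => rw [hsum]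
    rw [map_add, map_smul, map_smul, h0, h1, smul_smul, smul_smul]
  have hc : b.repr (G v) 0 = b.repr v 0 * μ₀ := by
    rw [hG]
    simp
  have hc' : b.repr (G v) 0 = μ₁ * b.repr v 0 := by
    rw [hv]
    simp
  have hz : b.repr v 0 = 0 := by
    have h2 : b.repr v 0 * (μ₀ - μ₁) = 0 := by
      rw [mul_sub, ← hc, hc']
      ring
    rcases mul_eq_zero.1 h2 with h | h
    · exact h
    · exact absurd (sub_eq_zero.1 h) hne
  conv_lhs => rw [hsum]
  rw [hz, zero_smul, zero_add]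

/-- The same for the other line. -/
theorem ktf_eigen_line0 (b : Basis (Fin 2) k V) (G : Module.End k V) {μ₀ μ₁ : k}
    (h0 : G (b 0) = μ₀ • b 0) (h1 : G (b 1) = μ₁ • b 1) (hne : μ₀ ≠ μ₁) {v : V}
    (hv : G v = μ₀ • v) : ∃ x : k, v = x • b 0 := by
  refine ⟨b.repr v 0, ?_⟩
  have hsum : v = b.repr v 0 • b 0 + b.repr v 1 • b 1 := by
    conv_lhs => rw [← b.sum_repr v]
    rw [Fin.sum_univ_two]
  have hG : G v = (b.repr v 0 * μ₀) • b 0 + (b.repr v 1 * μ₁) • b 1 := by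
    conv_lhs => rw [hsum]
    rw [map_add, map_smul, map_smul, h0, h1, smul_smul, smul_smul]
  have hc : b.repr (G v) 1 = b.repr v 1 * μ₁ := by
    rw [hG]
    simp
  have hc' : b.repr (G v) 1 = μ₀ * b.repr v 1 := by
    rw [hv]
    simp
  have hz : b.repr v 1 = 0 := by
    have h2 : b.repr v 1 * (μ₁ - μ₀) = 0 := by
      rw [mul_sub, ← hc, hc']
      ring
    rcases mul_eq_zero.1 h2 with h | h
    · exact h
    · exact absurd (sub_eq_zero.1 h).symm hne
  conv_lhs => rw [hsum]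
  rw [hz, zero_smul, add_zero]

/-- An endomorphism is determined by its values on a basis of a plane. -/
theorem ktf_ext (b : Basis (Fin 2) k V) {f g : Module.End k V} (h0 : f (b 0) = g (b 0))
    (h1 : f (b 1) = g (b 1)) : f = g := by
  apply b.ext
  intro i
  fin_cases i
  · exact h0
  · exact h1

end Core

/-- **KT-FROB**. -/
theorem ktFrobProp (p : ℕ) [Fact p.Prime] : KTFrobProp p := by
  intro k _ _ ρbar s hp2 hpk
  have hp : p.Prime := Fact.out
  obtain ⟨U, ⟨F, hFfd, hFst, rfl⟩, hU⟩ := Fermat.Agent.S56.exists_level_ρ_eq_one ρbar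
  have hnor : F.fixingSubgroup.Normal := hFst.normal_fixingSubgroup
  let χ : GK →* (Module.End k ρbar.V)ˣ := ρbar.ρ.toHomUnits
  have hχ : ∀ σ : GK, ((χ σ : (Module.End k ρbar.V)ˣ) : Module.End k ρbar.V) = ρbar.ρ σ :=
    fun σ => rfl
  have hker : ∀ γ : GK, (MonoidHom.id GK) γ ∈ F.fixingSubgroup → χ γ = 1 := fun γ hγ =>
    Units.ext (by rw [hχ]; exact hU γ hγ)
  have hA : (Pp p).LiesOverPrime p := Fermat.Agent.S56.primeLocalPlace_liesOverPrime (pPrime p)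
  -- the order of `ρbar γ`, `γ` in inertia, divides `p² - 1`
  have hN : 1 ≤ p ^ 2 := Nat.one_le_pow _ _ hp.pos
  have hψ1 : ∀ γ ∈ Ip p, (s.ψ γ) ^ (p ^ 2 - 1) = 1 := by
    intro γ hγ
    obtain ⟨n, hn⟩ := s.gen γ hγ
    have hne : s.ψ γ ≠ 0 := by
      rw [hn]
      exact pow_ne_zero _ s.ne_zero
    have h1 := s.fp2 γ hγ
    have h2 : s.ψ γ * (s.ψ γ) ^ (p ^ 2 - 1) = s.ψ γ * 1 := by
      rw [← pow_succ', Nat.sub_add_cancel hN, h1, mul_one]
    exact mul_left_cancel₀ hne h2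
  have hpow : ∀ γ ∈ Ip p, (ρbar.ρ γ) ^ (p ^ 2 - 1) = 1 := by
    intro γ hγ
    apply ktf_ext s.b
    · rw [ktf_pow_eigen _ (s.diag0 γ hγ), hψ1 γ hγ, one_smul, Module.End.one_apply]
    · rw [ktf_pow_eigen _ (s.diag1 γ hγ), ← pow_mul, mul_comm, pow_mul, hψ1 γ hγ, one_pow,
        one_smul, Module.End.one_apply]
  have hcop : ∀ γ : GK, (MonoidHom.id GK) γ ∈ Ip p → (orderOf (χ γ)).Coprime p := by
    intro γ hγ
    have h1 : χ γ ^ (p ^ 2 - 1) = 1 := by
      apply Units.ext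
      rw [Units.val_pow_eq_pow_val, hχ, hpow γ hγ]
      rfl
    have hdvd : orderOf (χ γ) ∣ p ^ 2 - 1 := orderOf_dvd_of_pow_eq_one h1
    have hc : (p ^ 2 - 1).Coprime p := by
      rw [Nat.coprime_comm, Nat.Prime.coprime_iff_not_dvd hp]
      intro hd
      have h2 : p ∣ p ^ 2 := dvd_pow_self p (by norm_num)
      have h3 : p ∣ p ^ 2 - (p ^ 2 - 1) := Nat.dvd_sub h2 hd
      have h4 : p ^ 2 - (p ^ 2 - 1) = 1 := by
        generalize p ^ 2 = N at hN
        omega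
      rw [h4] at h3
      exact hp.one_lt.ne' (Nat.dvd_one.1 h3)
    exact Nat.Coprime.coprime_dvd_left hdvd hc
  obtain ⟨-, hfrob⟩ := Fermat.Agent.TameInertia.tame_inertia_hom
    (MonoidHom.id GK) χ F hFfd hnor hker p hp (Pp p) hA hcop
  obtain ⟨φ, hφ⟩ := Fermat.Agent.S56.TWGen.exists_isFrobeniusAt (Pp p) p hp hA
  have hconj := hfrob φ hφ s.τ s.τ_mem
  have hconj' : ρbar.ρ φ * ρbar.ρ s.τ * ρbar.ρ φ⁻¹ = ρbar.ρ s.τ ^ p := by
    have := congrArg Units.val hconj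
    rw [hχ, map_mul, map_mul] at this
    rw [this]
    rfl
  have hinv : ρbar.ρ φ⁻¹ * ρbar.ρ φ = 1 := by rw [← map_mul, inv_mul_cancel, map_one]
  -- `g ^ p (h v) = h (g v)`
  have hgp : ∀ v : ρbar.V, (ρbar.ρ s.τ ^ p) (ρbar.ρ φ v) = ρbar.ρ φ (ρbar.ρ s.τ v) := by
    intro v
    rw [← hconj']
    simp only [Module.End.mul_apply]
    have := congrArg (fun f : Module.End k ρbar.V => f v) hinv
    simp only [Module.End.mul_apply, Module.End.one_apply] at this
    rw [this]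
  -- the eigenvalues of `g ^ p`
  have hτ2 : (s.ψ s.τ) ^ (p ^ 2) = s.ψ s.τ := s.fp2 s.τ s.τ_mem
  have hne : (s.ψ s.τ) ^ p ≠ s.ψ s.τ := by
    intro h
    have h1 : s.ψ s.τ * (s.ψ s.τ) ^ (p - 1) = s.ψ s.τ * 1 := by
      rw [← pow_succ', Nat.sub_add_cancel hp.one_le, h, mul_one]
    have h2 : (s.ψ s.τ) ^ (p - 1) = 1 := mul_left_cancel₀ s.ne_zero h1
    have h3 := s.ord (p - 1) (by have := hp.two_le; omega) h2
    have h4 : p < p ^ 2 := by
      have := hp.two_le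
      nlinarith
    have h5 := hp.two_le
    generalize p ^ 2 = N at h3 h4
    omega
  have e0 : (ρbar.ρ s.τ ^ p) (s.b 0) = (s.ψ s.τ) ^ p • s.b 0 :=
    ktf_pow_eigen _ (s.diag0 s.τ s.τ_mem) p
  have e1 : (ρbar.ρ s.τ ^ p) (s.b 1) = s.ψ s.τ • s.b 1 := by
    rw [ktf_pow_eigen _ (s.diag1 s.τ s.τ_mem) p, ← pow_mul, ← pow_two, hτ2]
  refine ⟨φ, hφ.mem_decompositionSubgroup, fun a ha =>
    Fermat.Agent.TameInertia.frob_sub_pow_mem_nonunits (Pp p) φ p hφ ha, ?_⟩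
  have k0 : (ρbar.ρ s.τ ^ p) (ρbar.ρ φ (s.b 0)) = s.ψ s.τ • ρbar.ρ φ (s.b 0) := by
    rw [hgp, s.diag0 s.τ s.τ_mem, map_smul]
  have k1 : (ρbar.ρ s.τ ^ p) (ρbar.ρ φ (s.b 1)) = (s.ψ s.τ) ^ p • ρbar.ρ φ (s.b 1) := by
    rw [hgp, s.diag1 s.τ s.τ_mem, map_smul]
  obtain ⟨x, hx⟩ := ktf_eigen_line1 s.b (ρbar.ρ s.τ ^ p) e0 e1 hne k0
  obtain ⟨y, hy⟩ := ktf_eigen_line0 s.b (ρbar.ρ s.τ ^ p) e0 e1 hne k1
  exact ⟨x, y, hx, hy⟩

end Fermat.Agent.S56.SS
end MergeWrap_S56_W4_C_KT_Frob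

section MergeWrap_S56_W4_C_KT_Final -- from S56/W4/C/KT/Final.lean

set_option autoImplicit false

namespace Fermat.Agent.S56.SS

open Fermat.Agent.F4 ExtCitation Fermat.Agent.FFL Fermat.Agent.FFL.FB

local notation "Kb" => AlgebraicClosure ℚ
local notation "GK" => (AlgebraicClosure ℚ ≃ₐ[ℚ] AlgebraicClosure ℚ)

/-- **Block KT**, from KT-KUM and KT-BRIDGE. -/
theorem fieldTProp_of_kum_bridge (p : ℕ) [Fact p.Prime] (hKum : KumStatement)
    (hB : KTBridgeProp p) : FieldTProp p := by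
  have hp : p.Prime := Fact.out
  by_cases hp2 : p = 2
  · intro k _ _ ρbar s h
    exact absurd hp2 h
  have hP : (Pp p).LiesOverPrime p := Fermat.Agent.S56.SO.so_liesOver p
  have hKE : ∀ π1 : Kb, IsPi1 p π1 → KumExistStatement p (Pp p) π1 := fun π1 hπ =>
    kumExist hp hP hπ hKum (u6 (unitSetting_stabI hp hP hπ))
  have hKR : ∀ π1 : Kb, IsPi1 p π1 → KumRelStatement p (Pp p) π1 := fun π1 hπ =>
    kumRel hp (u1a (unitSetting_stabI hp hP hπ)) (u3 (unitSetting_stabI hp hP hπ))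
      (u5 (unitSetting_stabI hp hP hπ)) (kumConj hp hp2 hP hπ)
  refine fieldTProp_of p hB (ktFrobProp p) (fun π1 hπ => ?_) (fun π1 hπ => ?_)
  · exact eLine hp hp2 hP hπ (hKE π1 hπ) (depth hp hP hπ) (depthNU hp hP hπ) (hKR π1 hπ)
      (goodOfLevel hp hP hπ)
  · exact etaLine hp hp2 hP hπ (u1a (unitSetting_stabI hp hP hπ)) (hKE π1 hπ)
      (kumUnique hp hp2 hP hπ (u1a (unitSetting_stabI hp hP hπ))
        (u3 (unitSetting_stabI hp hP hπ))) (hKR π1 hπ) (cycTame hp hP hπ)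
      (depth hp hP hπ) (depthNU hp hP hπ)

/-- **Block KT**, from KT-BRIDGE. -/
theorem fieldTProp_of_bridge (p : ℕ) [Fact p.Prime] (hB : KTBridgeProp p) : FieldTProp p :=
  fieldTProp_of_kum_bridge p kum hB

end Fermat.Agent.S56.SS
end MergeWrap_S56_W4_C_KT_Final

section MergeWrap_S56_W4_Flat -- from S56/W4/Flat.lean

set_option autoImplicit false

namespace Fermat.Agent.S56

open Fermat.Agent.F4 ExtCitation IsLocalRing

/-- **W4**: the flat tangent classes at `p` lie in a subgroup with at most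
`|k| · #H⁰(D_p, ad⁰ρbar)` elements. -/
theorem localWall_flat {𝒪 : Type} [CommRing 𝒪] [IsLocalRing 𝒪] [Finite (ResidueField 𝒪)]
    (p : ℕ) [Fact p.Prime] (hp2 : p ≠ 2) (ρbar : ResidualGaloisRep (ResidueField 𝒪))
    (hdet : (GaloisRepAdic.ofResidualGaloisRep ρbar).DetIsCyclotomic p)
    (hsplit : ∀ σ : AlgebraicClosure ℚ ≃ₐ[ℚ] AlgebraicClosure ℚ,
      ∃ α β : ResidueField 𝒪, LinearMap.charpoly (ρbar.ρ σ) =
        (Polynomial.X - Polynomial.C α) * (Polynomial.X - Polynomial.C β))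
    (𝒟 : ∀ ⦃A : Type⦄ [CommRing A] [IsLocalRing A] [Algebra 𝒪 A], GaloisRepAdic A → Prop)
    (h𝒟 : ∀ ⦃A : Type⦄ [CommRing A] [IsLocalRing A] [Algebra 𝒪 A] (ρ : GaloisRepAdic A),
      𝒟 ρ → ρ.DetIsCyclotomic p ∧ ρ.IsFlatAt p) :
    LocalWall (ad0 ρbar) (TangentClasses 𝒪 ρbar 𝒟) (pPrime p)
      (Nat.card (ResidueField 𝒪)) :=
  W4.localWall_flat_of_ss p hp2 (SS.sStructProp p) (SS.hopfSideProp p)
    (SS.fieldTProp_of_bridge p (SS.ktBridgeProp p)) (SS.countProp_of_tame p (SS.tameProp p))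
    ρbar hdet hsplit 𝒟 h𝒟

end Fermat.Agent.S56
end MergeWrap_S56_W4_Flat
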